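import Fermat.Agent.S56L.Iface
import Fermat.Agent.PT.Bridge.LocGrpE

/-!
# S56, block LOC, leaf LOC-UNIPLIFT (helper52)

* `h52l_res_mem_Z1` : restriction of continuous cocycles along a group homomorphism;
* `h52l_loc_mem_Z1` : the local cocycle of a global cocycle;
* `h52l_charpoly_res`, `h52l_trace_cocycle` : linear algebra over the dual numbers;
* `h52l_resUnip : h14l_ResUnip`, `h52l_unipOfLift : h14l_UnipOfLift` (exact frozen Props).
-/

set_option autoImplicit false
set_option linter.style.haveILetI false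

open ExtCitation Polynomial

noncomputable section

namespace Fermat.Agent.S56L

open Fermat.Agent.PT Fermat.Agent.PT.Bridge

variable {k : Type} [Field k]

/-- Restriction of continuous cocycles along a group homomorphism. -/
theorem h52l_res_mem_Z1 {G H V : Type} [Group G] [Group H] [AddCommGroup V] [Module k V]
    (L : Lev G) (ρ : Representation k G V) (f : H →* G) {c : G → V} (hc : c ∈ Z1 L ρ) :
    (fun s => c (f s)) ∈ Z1 (L.comap f) (ρ.comp f) := by
  rw [mem_Z1] at hc ⊢
  obtain ⟨hd, N, hN, hlc⟩ := hc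
  refine ⟨?_, N.comap f, ⟨N, hN, rfl⟩, fun g s hs => ?_⟩
  · funext x
    have := congrFun hd (f x.1, f x.2)
    simp only [d1, LinearMap.coe_mk, AddHom.coe_mk, Pi.zero_apply] at this ⊢
    rw [map_mul]
    exact this
  · show c (f (g * s)) = c (f g)
    rw [map_mul]
    exact hlc (f g) (f s) hs

/-- The local cocycle of a global cocycle. -/
theorem h52l_loc_mem_Z1 (ρbar : ResidualGaloisRep k) (q : Nat.Primes)
    {c : GQ → ↥(h14l_sl ρbar)} (hc : c ∈ Z1 levFin (h14l_Ad0 ρbar)) :
    (fun s => c (primeLocalToGlobal q s)) ∈ Z1 (h14l_lev q) (h14l_locAd0 ρbar q) :=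
  h52l_res_mem_Z1 levFin (h14l_Ad0 ρbar) (primeLocalToGlobal q) hc

/-- If `M = inl R + inr X` over the dual numbers, the characteristic polynomial of `R` is the
image of the characteristic polynomial of `M`. -/
theorem h52l_charpoly_res (M : Matrix (Fin 2) (Fin 2) (DualNumber k))
    (R X' : Matrix (Fin 2) (Fin 2) k)
    (h : ∀ i j, M i j = TrivSqZeroExt.inl (R i j) + TrivSqZeroExt.inr (X' i j)) :
    R.charpoly = M.charpoly.map (TrivSqZeroExt.fstHom k k k : DualNumber k →+* k) := by
  rw [← Matrix.charpoly_map]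
  congr 1
  ext i j
  simp [Matrix.map_apply, h i j]

/-- If `M = inl R + inr X` over the dual numbers has characteristic polynomial `(X - 1)²`, then
`tr X = 0`. -/
theorem h52l_trace_cocycle (M : Matrix (Fin 2) (Fin 2) (DualNumber k))
    (R X' : Matrix (Fin 2) (Fin 2) k)
    (h : ∀ i j, M i j = TrivSqZeroExt.inl (R i j) + TrivSqZeroExt.inr (X' i j))
    (hM : M.charpoly = (X - 1) ^ 2) : X'.trace = 0 := by
  have h1 : M.trace = 2 := by
    rw [Matrix.trace_eq_neg_charpoly_coeff, hM]
    have : ((X - 1 : (DualNumber k)[X]) ^ 2).coeff (Fintype.card (Fin 2) - 1) = -2 := by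
      have e : (X - 1 : (DualNumber k)[X]) ^ 2 = X ^ 2 - C 2 * X + C 1 := by
        simp only [map_ofNat, map_one]; ring
      rw [e]
      simp [coeff_one]
    rw [this, neg_neg]
  have h2 : M.trace = TrivSqZeroExt.inl R.trace + TrivSqZeroExt.inr X'.trace := by
    simp only [Matrix.trace, Matrix.diag_apply, Fin.sum_univ_two, h]
    simp only [TrivSqZeroExt.inl_add, TrivSqZeroExt.inr_add]
    abel
  have h3 := congrArg TrivSqZeroExt.snd (h1.symm.trans h2)
  have h4 : TrivSqZeroExt.snd (2 : DualNumber k) = 0 := by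
    have : (2 : DualNumber k) = ((2 : ℕ) : DualNumber k) := by norm_num
    rw [this]
    exact TrivSqZeroExt.snd_natCast 2
  rw [h4] at h3
  simpa using h3.symm

/-- **LOC-RESUNIP** (exact frozen Prop). -/
theorem h52l_resUnip : h14l_ResUnip := by
  intro k _ ρbar ρA c q hcoc hunip s hs
  haveI : Fact (q : ℕ).Prime := ⟨q.2⟩
  obtain ⟨e, eb, hmat⟩ := hcoc
  have hσ := hunip (primeLocalPlace q) (h23b_padicPlace_liesOver (q : ℕ))
    (primeLocalToGlobal q s) hs
  rw [← LinearMap.charpoly_toMatrix _ e] at hσ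
  have h1 := h52l_charpoly_res _ _ _ (hmat (primeLocalToGlobal q s))
  rw [hσ] at h1
  show LinearMap.charpoly (ρbar.ρ (primeLocalToGlobal q s)) = (X - 1) ^ 2
  rw [← LinearMap.charpoly_toMatrix _ eb, h1]
  simp

/-- **LOC-UNIPOFLIFT** (exact frozen Prop). -/
theorem h52l_unipOfLift : h14l_UnipOfLift := by
  intro k _ ρbar ρA c q hcoc hc hunip
  haveI : Fact (q : ℕ).Prime := ⟨q.2⟩
  refine ⟨h52l_loc_mem_Z1 ρbar q hc, fun s hs => ?_⟩
  obtain ⟨e, eb, hmat⟩ := hcoc
  have hσ := hunip (primeLocalPlace q) (h23b_padicPlace_liesOver (q : ℕ))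
    (primeLocalToGlobal q s) hs
  rw [← LinearMap.charpoly_toMatrix _ e] at hσ
  have h1 := h52l_trace_cocycle _ _ _ (hmat (primeLocalToGlobal q s)) hσ
  show LinearMap.trace k ρbar.V ((c (primeLocalToGlobal q s) : Module.End k ρbar.V) *
    ρbar.ρ (primeLocalToGlobal q s)) = 0
  rw [LinearMap.trace_eq_matrix_trace k eb]
  exact h1

end Fermat.Agent.S56L
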