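import Fermat.Agent.S56L.Iface
import Fermat.Agent.PT.Bridge.Inertia
import Fermat.Agent.PT.Bridge.LocGrpE

/-!
# S56, block LOC, leaf LOC-RESRAM (helper52)

`h52l_resRam : h14l_ResRam` (exact frozen Prop of `S56L/Iface.lean`): `ρbar` ramified at `q`
(frozen form: some inertia group over `q` acts non-trivially) gives a ramified element of the
local inertia group at `primeLocalPlace q`, and `ρbar` unramified at `q` is trivial on the local
inertia group.
-/

set_option autoImplicit false
set_option linter.style.haveILetI false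

open ExtCitation
open scoped Pointwise

noncomputable section

namespace Fermat.Agent.S56L

open Fermat.Agent.PT Fermat.Agent.PT.Bridge

/-- **LOC-RESRAM** (exact frozen Prop). -/
theorem h52l_resRam : h14l_ResRam := by
  intro k _ ρbar q
  haveI : Fact (q : ℕ).Prime := ⟨q.2⟩
  constructor
  · intro hram
    unfold ResidualGaloisRep.IsUnramifiedAt at hram
    push Not at hram
    obtain ⟨A, hA, σ, hσ, hne⟩ := hram
    obtain ⟨x, hx⟩ := h23b_exists_smul_padicPlace (q : ℕ) hA
    rw [← hx] at hσ
    obtain ⟨h, hh, hσeq⟩ := (h23b_mem_inertia_conj_iff (q : ℕ) x σ).mp hσ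
    have hτ : localGaloisToGlobal (q : ℕ) h ∈ (padicPlace (q : ℕ)).inertiaSubgroupIn ℚ := by
      have h1 := (h23b_mem_inertia_conj_iff (q : ℕ) 1 (localGaloisToGlobal (q : ℕ) h)).mpr
        ⟨h, hh, by simp⟩
      simpa using h1
    refine ⟨h, hτ, fun h1 => hne ?_⟩
    have h2 : ρbar.ρ (localGaloisToGlobal (q : ℕ) h) = 1 := h1
    rw [hσeq, map_mul, map_mul, h2, mul_one, ← map_mul, inv_mul_cancel, map_one]
  · intro hunr s hs
    exact hunr (primeLocalPlace q) (h23b_padicPlace_liesOver (q : ℕ)) _ hs

end Fermat.Agent.S56L
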