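import Mathlib
import Fermat.Agent.PT.Defs

/-!
# S56, block LOC-Q (helper72), part 2: the cocycle algebra

An abstract group `G` with a level system `L`, a representation `ρ` on a `k`-module `M`, a set
`I ⊆ G` ("inertia") on which `ρ` is trivial, an element `φ` ("Frobenius") such that
`⟨φ⟩ · I` is dense, and an element `s₀ ∈ I` such that every continuous cocycle `c` has
`c(s₀)` fixed by `φ` and `c(s₀) = 0 ⇒ c|_I = 0`.  If the `φ`-invariants of `M` are detected by
one functional `lam` and `M` embeds into `k³`, then `dim Z¹ ≤ 4` and the restriction of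
cocycles to `I` has rank `≤ 1`.
-/

set_option autoImplicit false

namespace Fermat.Agent.S56L

open Fermat.Agent.PT

section

variable {k : Type} [CommRing k] {G : Type} [Group G]
variable {M : Type} [AddCommGroup M] [Module k M]

/-- a cocycle vanishes at `1`. -/
theorem h72q_coc_one {ρ : Representation k G M} {c : G → M} (hc : d1 ρ c = 0) : c 1 = 0 := by
  have h := congrFun hc (1, 1)
  rw [d1_apply, mul_one, map_one] at h
  simpa using h

/-- the cocycle identity. -/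
theorem h72q_coc_mul {ρ : Representation k G M} {c : G → M} (hc : d1 ρ c = 0) (g h : G) :
    c (g * h) = ρ g (c h) + c g := by
  have h1 := congrFun hc (g, h)
  rw [d1_apply] at h1
  have h2 : ρ g (c h) - c (g * h) + c g = 0 := h1
  have h3 : c (g * h) = ρ g (c h) + c g := by
    have := sub_eq_zero.1 (by rw [← h2]; abel : ρ g (c h) + c g - c (g * h) = 0)
    exact this.symm
  exact h3

/-- a cocycle vanishing at `φ` vanishes at its powers. -/
theorem h72q_coc_pow {ρ : Representation k G M} {c : G → M} (hc : d1 ρ c = 0) {φ : G}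
    (h : c φ = 0) (i : ℕ) : c (φ ^ i) = 0 := by
  induction i with
  | zero => rw [pow_zero]; exact h72q_coc_one hc
  | succ i ih => rw [pow_succ, h72q_coc_mul hc, h, map_zero, ih, add_zero]

/-- **the cocycle algebra of LOC-Q.** -/
theorem h72q_abs (L : Lev G) (ρ : Representation k G M) (I : Set G) (φ s₀ : G)
    (hdense : ∀ N ∈ L.sets, ∀ g : G, ∃ (i : ℕ) (ι e : G), ι ∈ I ∧ e ∈ N ∧ g = φ ^ i * ι * e)
    (hfix : ∀ c ∈ Z1 L ρ, ρ φ (c s₀) = c s₀)
    (hrank : ∀ c ∈ Z1 L ρ, c s₀ = 0 → ∀ s ∈ I, c s = 0)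
    (lam : M →ₗ[k] k) (hlam : ∀ m : M, ρ φ m = m → lam m = 0 → m = 0)
    (mu : M →ₗ[k] (Fin 3 → k)) (hmu : Function.Injective mu) :
    (∃ f : ↥(Z1 L ρ) →ₗ[k] (Fin 4 → k), Function.Injective f) ∧
      ∃ g : ↥(Z1 L ρ) →ₗ[k] k, ∀ c, g c = 0 → ∀ s ∈ I, (c : G → M) s = 0 := by
  -- evaluation maps
  let ev : G → (↥(Z1 L ρ) →ₗ[k] M) := fun x =>
    (LinearMap.proj (R := k) (φ := fun _ : G => M) x).comp (Z1 L ρ).subtype
  have hev : ∀ (x : G) (c : ↥(Z1 L ρ)), ev x c = (c : G → M) x := fun _ _ => rfl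
  let g : ↥(Z1 L ρ) →ₗ[k] k := lam.comp (ev s₀)
  have hg : ∀ c : ↥(Z1 L ρ), g c = 0 → ∀ s ∈ I, (c : G → M) s = 0 := by
    intro c h s hs
    have h1 : lam ((c : G → M) s₀) = 0 := h
    exact hrank c c.2 (hlam _ (hfix c c.2) h1) s hs
  refine ⟨?_, g, hg⟩
  let f : ↥(Z1 L ρ) →ₗ[k] (Fin 4 → k) :=
    LinearMap.pi (fun j : Fin 4 =>
      Fin.cases g (fun i : Fin 3 => (LinearMap.proj (R := k) (φ := fun _ : Fin 3 => k) i).comp
        (mu.comp (ev φ))) j)
  have hf0 : ∀ c : ↥(Z1 L ρ), f c 0 = g c := fun _ => rfl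
  have hfs : ∀ (c : ↥(Z1 L ρ)) (i : Fin 3), f c i.succ = mu ((c : G → M) φ) i := fun _ _ => rfl
  refine ⟨f, (injective_iff_map_eq_zero f).2 fun c hc => ?_⟩
  have h0 : g c = 0 := by rw [← hf0, hc]; rfl
  have hI := hg c h0
  have hmuφ : mu ((c : G → M) φ) = 0 := by
    funext i
    rw [← hfs, hc]
    rfl
  have hφ : (c : G → M) φ = 0 := hmu (by rw [hmuφ, map_zero])
  obtain ⟨hcoc, N, hN, hlc⟩ := (mem_Z1 L ρ _).1 c.2
  apply Subtype.ext
  funext x
  obtain ⟨i, ι, e, hι, he, rfl⟩ := hdense N hN x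
  rw [hlc _ _ he, h72q_coc_mul hcoc, hI ι hι, map_zero, h72q_coc_pow hcoc hφ, add_zero]
  rfl

end

end Fermat.Agent.S56L
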