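import Fermat.Agent.S56L.H72QCount
import Fermat.Agent.PT.Bridge.Unram

/-!
# S56, block LOC-Q (helper72), part 4: cocycles of `G_{ℚ_q}` at a Taylor–Wiles prime

`q ≠ p`, `p ∣ q - 1`, `φ` a Frobenius element of `ℚ_q`.

* `h72q_dense` : `G_{ℚ_q} = ⋃_i φ^i · I · G_E` for every finite `E / ℚ_q`;
* `h72q_triv_Kur` : a homomorphism trivial on inertia and on some open subgroup, with
  `a(φ)^f = 1`, is trivial on `G_{Kur ⊥ f}`;
* `h72q_coc_inert` : for a cocycle `c` with values in an `𝔽_p`-vector space on which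
  `G_{Kur ⊥ f}` acts trivially (`p ∤ f`), the values `c(s)`, `s ∈ G_{Kur ⊥ f}`, are fixed by the
  whole group, and `c(s₀) = 0 ⇒ c|_I = 0` for a universal `s₀ ∈ I`.
-/

set_option autoImplicit false
set_option linter.unusedSectionVars false

open scoped Classical

noncomputable section

namespace Fermat.Agent.S56L

open Fermat.Agent.PT.Loc Fermat.Agent.PT.Bridge

variable {q : ℕ} [Fact q.Prime] {p : ℕ} [Fact p.Prime]

/-- in a cyclic extension of degree `n` generated by `σ`: `σ ^ i ∈ G_{K₁} ⇒ n ∣ i`. -/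
theorem h72q_dvd_of_pow_mem {K K₁ : LF q} {n : ℕ} {σ : Gq q} (hC : IsCyc K K₁ n σ) {i : ℕ}
    (h : σ ^ i ∈ GK K₁) : n ∣ i := by
  have hn := hC.pos
  have h1 : σ ^ (i % n) ∈ GK K₁ := by
    have e : σ ^ i = σ ^ (i % n) * (σ ^ n) ^ (i / n) := by
      rw [← pow_mul, ← pow_add, Nat.mod_add_div]
    have h2 : (σ ^ n) ^ (i / n) ∈ GK K₁ := (GK K₁).pow_mem (h57_pow_n_mem hC) _
    have e' : σ ^ (i % n) = σ ^ i * ((σ ^ n) ^ (i / n))⁻¹ := by
      rw [e, mul_inv_cancel_right]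
    rw [e']
    exact (GK K₁).mul_mem h ((GK K₁).inv_mem h2)
  exact Nat.dvd_of_mod_eq_zero (h57_pow_mem_of_lt hC (Nat.mod_lt _ hn) h1)

/-- **density**: `G_{ℚ_q} = ⋃_i φ^i · I · G_E`. -/
theorem h72q_dense {φ : Gq q} (hφ : IsFrob (⊥ : LF q) φ) (E : LF q)
    [FiniteDimensional ℚ_[q] E] (g : Gq q) :
    ∃ (i : ℕ) (ι e : Gq q), IsInert (⊥ : LF q) ι ∧ e ∈ GK E ∧ g = φ ^ i * ι * e := by
  obtain ⟨n, hn, h⟩ := h23b_exists_inert_mul q E
  have hC : IsCyc (⊥ : LF q) (Kur (⊥ : LF q) n) n φ := h90l_urCyc q ⊥ n φ hn hφ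
  obtain ⟨i, -, hi⟩ := hC.gen g (h72q_mem_GK_bot g)
  rw [h23b_Kur_bot_eq q (h96b_resCard_bot q) n] at hi
  obtain ⟨ι, hι, he⟩ := h _ hi
  refine ⟨i, ι, ι⁻¹ * ((φ ^ i)⁻¹ * g), ⟨h72q_mem_GK_bot ι, hι⟩, he, ?_⟩
  group

/-- a homomorphism trivial on inertia and on an open subgroup, with `a(φ)^f = 1`, is trivial
on `G_{Kur ⊥ f}`. -/
theorem h72q_triv_Kur {X : Type*} [Monoid X] (a : Gq q →* X) {φ : Gq q}
    (hφ : IsFrob (⊥ : LF q) φ) (hI : ∀ s, IsInert (⊥ : LF q) s → a s = 1) (E₀ : LF q)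
    [FiniteDimensional ℚ_[q] E₀] (hE₀ : ∀ s ∈ GK E₀, a s = 1) {f : ℕ} (hf : 0 < f)
    (hpow : a φ ^ f = 1) : ∀ g ∈ GK (Kur (⊥ : LF q) f), a g = 1 := by
  intro g hg
  have hC : IsCyc (⊥ : LF q) (Kur (⊥ : LF q) f) f φ := h90l_urCyc q ⊥ f φ hf hφ
  have hfin := hC.fin
  have hfin' : FiniteDimensional ℚ_[q] ↥(E₀ ⊔ Kur (⊥ : LF q) f) :=
    IntermediateField.finiteDimensional_sup E₀ (Kur (⊥ : LF q) f)
  obtain ⟨i, ι, e, hι, he, rfl⟩ := h72q_dense hφ (E₀ ⊔ Kur (⊥ : LF q) f) g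
  have he0 : e ∈ GK E₀ := IntermediateField.fixingSubgroup_antitone le_sup_left he
  have he1 : e ∈ GK (Kur (⊥ : LF q) f) :=
    IntermediateField.fixingSubgroup_antitone le_sup_right he
  have hι1 : ι ∈ GK (Kur (⊥ : LF q) f) := h72q_inert_mem_GK_Kur hι hf
  have hpowmem : φ ^ i ∈ GK (Kur (⊥ : LF q) f) := by
    have e' : φ ^ i = φ ^ i * ι * e * (e⁻¹ * ι⁻¹) := by group
    rw [e']
    exact (GK _).mul_mem hg ((GK _).mul_mem ((GK _).inv_mem he1) ((GK _).inv_mem hι1))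
  obtain ⟨j, rfl⟩ := h72q_dvd_of_pow_mem hC hpowmem
  rw [map_mul, map_mul, map_pow, hI ι hι, hE₀ e he0, pow_mul, hpow, one_pow, one_mul, one_mul]

/-- **cocycles at a Taylor–Wiles prime**: values on `G_{Kur ⊥ f}` are invariant, and the
restriction to inertia has rank one. -/
theorem h72q_coc_inert (hqp : q ≠ p) (hpq : p ∣ q - 1) {φ : Gq q}
    (hφ : IsFrob (⊥ : LF q) φ) :
    ∃ s₀ : Gq q, IsInert (⊥ : LF q) s₀ ∧
      ∀ (f : ℕ), 0 < f → Nat.Coprime f p →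
        ∀ (M : Type) [AddCommGroup M] [Module (ZMod p) M] (a : Gq q → M →+ M) (c : Gq q → M),
          (∀ g h, c (g * h) = a g (c h) + c g) →
          (∀ s ∈ GK (Kur (⊥ : LF q) f), ∀ m, a s m = m) →
          (∃ F : LF q, FiniteDimensional ℚ_[q] F ∧ ∀ g, ∀ s ∈ GK F, c (g * s) = c g) →
          (∀ g, ∀ s ∈ GK (Kur (⊥ : LF q) f), a g (c s) = c s) ∧
            (c s₀ = 0 → ∀ s, IsInert (⊥ : LF q) s → c s = 0) := by
  obtain ⟨s₀, hs₀, hrank⟩ := h72q_rank_one (p := p) hqp hpq hφ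
  refine ⟨s₀, hs₀, fun f hf hfp M _ _ a c hcoc htriv hlc => ?_⟩
  have hC : IsCyc (⊥ : LF q) (Kur (⊥ : LF q) f) f φ := h90l_urCyc q ⊥ f φ hf hφ
  have hfin := hC.fin
  obtain ⟨F, hF, hlcF⟩ := hlc
  have hone : (1 : Gq q) ∈ GK (Kur (⊥ : LF q) f) := (GK _).one_mem
  have hc1 : c 1 = 0 := by
    have h := hcoc 1 1
    rw [mul_one, htriv 1 hone] at h
    exact left_eq_add.mp h
  -- the characters `ℓ ∘ c`
  have hA : ∀ ℓ : Module.Dual (ZMod p) M,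
      ACoc1 (Kur (⊥ : LF q) f) (fun g => ℓ (c g)) := by
    intro ℓ g hg h _
    show ℓ (c (g * h)) = ℓ (c g) + ℓ (c h)
    rw [hcoc, htriv g hg, map_add, add_comm]
  have hB : ∀ ℓ : Module.Dual (ZMod p) M,
      Cont1 (Kur (⊥ : LF q) f) (fun g => ℓ (c g)) := by
    intro ℓ
    have hfin' : FiniteDimensional ℚ_[q] ↥(Kur (⊥ : LF q) f ⊔ F) :=
      IntermediateField.finiteDimensional_sup (Kur (⊥ : LF q) f) F
    refine ⟨Kur (⊥ : LF q) f ⊔ F, hfin', le_sup_left, fun g _ s hs => ?_⟩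
    show ℓ (c (g * s)) = ℓ (c g)
    rw [hlcF g s (IntermediateField.fixingSubgroup_antitone le_sup_right hs)]
  have hsep : ∀ m : M, (∀ ℓ : Module.Dual (ZMod p) M, ℓ m = 0) → m = 0 := fun m h =>
    (Module.forall_dual_apply_eq_zero_iff (ZMod p) m).1 h
  constructor
  · intro g s hs
    have h1 : c (g * s * g⁻¹) = a g (c s) := by
      have h2 : c (g * g⁻¹) = a g (c g⁻¹) + c g := hcoc g g⁻¹
      rw [mul_inv_cancel, hc1] at h2
      rw [mul_assoc, hcoc g (s * g⁻¹), hcoc s g⁻¹, htriv s hs, map_add, add_assoc, add_comm (a g (c s)),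
        ← add_assoc, ← h2, zero_add]
    rw [← h1]
    have h3 : c (g * s * g⁻¹) - c s = 0 := by
      apply hsep
      intro ℓ
      rw [map_sub, sub_eq_zero]
      exact h72q_conj_inv hqp hpq hC hfp (hA ℓ) (hB ℓ) g s hs
    exact sub_eq_zero.1 h3
  · intro h0 s hs
    apply hsep
    intro ℓ
    exact hrank f hf hfp (fun g => ℓ (c g)) (hA ℓ) (hB ℓ) (by show ℓ (c s₀) = 0; rw [h0, map_zero])
      s hs

end Fermat.Agent.S56L
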