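import Mathlib

/-!
# S56, block LOC-Q (helper72), part 3: linear algebra of `ad⁰` at a Taylor–Wiles prime

`V` of dimension `2` over a field `k`, `Φ` an endomorphism with characteristic polynomial
`(X - α)(X - β)`, `α ≠ β`.

* `h72q_exists_eigenbasis` : a basis of eigenvectors;
* `h72q_lin_fix` : one functional detects the trace zero endomorphisms commuting with `Φ`;
* `h72q_lin_emb` : the trace zero endomorphisms embed into `k³`;
* `h72q_pow_card_sub_one` : `Φ ^ (#k - 1) = 1` if `Φ` is injective and `k` is finite.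
-/

set_option autoImplicit false

open Polynomial

noncomputable section

namespace Fermat.Agent.S56L

variable {k : Type} [Field k] {V : Type} [AddCommGroup V] [Module k V]

/-- a basis of eigenvectors. -/
theorem h72q_exists_eigenbasis [Module.Finite k V] (hV : Module.finrank k V = 2)
    (Φ : Module.End k V) {α β : k}
    (hαβ : α ≠ β) (hΦ : LinearMap.charpoly Φ = (X - C α) * (X - C β)) :
    ∃ b : Module.Basis (Fin 2) k V, Φ (b 0) = α • b 0 ∧ Φ (b 1) = β • b 1 := by
  have hα : Φ.HasEigenvalue α := by
    rw [Module.End.hasEigenvalue_iff_isRoot_charpoly, hΦ]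
    simp
  have hβ : Φ.HasEigenvalue β := by
    rw [Module.End.hasEigenvalue_iff_isRoot_charpoly, hΦ]
    simp
  obtain ⟨v, hv⟩ := hα.exists_hasEigenvector
  obtain ⟨w, hw⟩ := hβ.exists_hasEigenvector
  let μs : Fin 2 → k := ![α, β]
  let xs : Fin 2 → V := ![v, w]
  have hinj : Function.Injective μs := by
    intro i j hij
    fin_cases i <;> fin_cases j <;> simp_all [μs]
  have hx : ∀ i, Φ.HasEigenvector (μs i) (xs i) := by
    intro i
    fin_cases i
    · exact hv
    · exact hw
  have hli : LinearIndependent k xs := Module.End.eigenvectors_linearIndependent' Φ μs hinj xs hx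
  have hcard : Fintype.card (Fin 2) = Module.finrank k V := by rw [hV]; rfl
  let b := basisOfLinearIndependentOfCardEqFinrank hli hcard
  have hb : ∀ i, b i = xs i := fun i => by
    simp [b]
  refine ⟨b, ?_, ?_⟩
  · rw [hb 0]
    exact hv.apply_eq_smul
  · rw [hb 1]
    exact hw.apply_eq_smul

/-- the matrix of `Φ` in a basis of eigenvectors. -/
theorem h72q_toMatrix_eigen (b : Module.Basis (Fin 2) k V) (Φ : Module.End k V) {α β : k}
    (h0 : Φ (b 0) = α • b 0) (h1 : Φ (b 1) = β • b 1) :
    LinearMap.toMatrix b b Φ = !![α, 0; 0, β] := by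
  ext i j
  rw [LinearMap.toMatrix_apply]
  fin_cases i <;> fin_cases j <;> simp [h0, h1]

/-- a linear map with zero matrix is zero. -/
theorem h72q_eq_zero_of_entries (b : Module.Basis (Fin 2) k V) (m : Module.End k V)
    (h00 : LinearMap.toMatrix b b m 0 0 = 0) (h01 : LinearMap.toMatrix b b m 0 1 = 0)
    (h10 : LinearMap.toMatrix b b m 1 0 = 0) (h11 : LinearMap.toMatrix b b m 1 1 = 0) :
    m = 0 := by
  apply (LinearMap.toMatrix b b).injective
  rw [map_zero]
  ext i j
  fin_cases i <;> fin_cases j
  · exact h00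
  · exact h01
  · exact h10
  · exact h11

/-- the entry `(1,1)` of a trace zero endomorphism. -/
theorem h72q_entry_of_trace (b : Module.Basis (Fin 2) k V) (m : Module.End k V)
    (htr : LinearMap.trace k V m = 0) :
    LinearMap.toMatrix b b m 1 1 = - LinearMap.toMatrix b b m 0 0 := by
  rw [LinearMap.trace_eq_matrix_trace k b, Matrix.trace_fin_two] at htr
  exact eq_neg_of_add_eq_zero_right htr

/-- the entry `(i, j)` as a linear functional. -/
def h72q_entry (b : Module.Basis (Fin 2) k V) (i j : Fin 2) : Module.End k V →ₗ[k] k where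
  toFun m := LinearMap.toMatrix b b m i j
  map_add' m m' := by rw [map_add]; rfl
  map_smul' a m := by rw [map_smul]; rfl

theorem h72q_entry_apply (b : Module.Basis (Fin 2) k V) (i j : Fin 2) (m : Module.End k V) :
    h72q_entry b i j m = LinearMap.toMatrix b b m i j := rfl

/-- **one functional detects the invariants**: a trace zero endomorphism commuting with `Φ`
and with vanishing `(0,0)` entry in the eigenbasis is zero. -/
theorem h72q_lin_fix (b : Module.Basis (Fin 2) k V) (Φ : Module.End k V) {α β : k}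
    (hαβ : α ≠ β) (h0 : Φ (b 0) = α • b 0) (h1 : Φ (b 1) = β • b 1) (m : Module.End k V)
    (htr : LinearMap.trace k V m = 0) (hcomm : Φ * m = m * Φ)
    (hm : h72q_entry b 0 0 m = 0) : m = 0 := by
  rw [h72q_entry_apply] at hm
  have hM := congrArg (LinearMap.toMatrix b b) hcomm
  rw [LinearMap.toMatrix_mul, LinearMap.toMatrix_mul, h72q_toMatrix_eigen b Φ h0 h1] at hM
  have e01 := congrFun (congrFun hM 0) 1
  have e10 := congrFun (congrFun hM 1) 0
  simp only [Matrix.mul_apply, Fin.sum_univ_two, Matrix.of_apply, Matrix.cons_val_zero,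
    Matrix.cons_val_one, Matrix.cons_val', Matrix.cons_val_fin_one, zero_mul, mul_zero,
    add_zero, zero_add] at e01 e10
  have h01 : LinearMap.toMatrix b b m 0 1 = 0 := by
    have h : (α - β) * LinearMap.toMatrix b b m 0 1 = 0 := by
      rw [sub_mul, e01, mul_comm, sub_self]
    rcases mul_eq_zero.1 h with h | h
    · exact absurd (sub_eq_zero.1 h) hαβ
    · exact h
  have h10 : LinearMap.toMatrix b b m 1 0 = 0 := by
    have h : (α - β) * LinearMap.toMatrix b b m 1 0 = 0 := by
      rw [sub_mul, e10, mul_comm, sub_self]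
    rcases mul_eq_zero.1 h with h | h
    · exact absurd (sub_eq_zero.1 h) hαβ
    · exact h
  refine h72q_eq_zero_of_entries b m hm h01 h10 ?_
  rw [h72q_entry_of_trace b m htr, hm, neg_zero]

/-- **the trace zero endomorphisms embed into `k³`.** -/
theorem h72q_lin_emb (b : Module.Basis (Fin 2) k V) :
    ∃ mu : Module.End k V →ₗ[k] (Fin 3 → k),
      ∀ m : Module.End k V, LinearMap.trace k V m = 0 → mu m = 0 → m = 0 := by
  refine ⟨LinearMap.pi ![h72q_entry b 0 0, h72q_entry b 0 1, h72q_entry b 1 0],
    fun m htr hm => ?_⟩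
  have e0 : h72q_entry b 0 0 m = 0 := congrFun hm 0
  have e1 : h72q_entry b 0 1 m = 0 := congrFun hm 1
  have e2 : h72q_entry b 1 0 m = 0 := congrFun hm 2
  rw [h72q_entry_apply] at e0 e1 e2
  refine h72q_eq_zero_of_entries b m e0 e1 e2 ?_
  rw [h72q_entry_of_trace b m htr, e0, neg_zero]

/-- `Φ ^ (#k - 1) = 1` for a diagonalisable injective `Φ` over a finite field. -/
theorem h72q_pow_card_sub_one [Finite k] (b : Module.Basis (Fin 2) k V) (Φ : Module.End k V)
    {α β : k} (h0 : Φ (b 0) = α • b 0) (h1 : Φ (b 1) = β • b 1)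
    (hinj : Function.Injective Φ) : Φ ^ (Nat.card k - 1) = 1 := by
  have hfin : Fintype k := Fintype.ofFinite k
  have hpow : ∀ (γ : k) (v : V), Φ v = γ • v → ∀ n : ℕ, (Φ ^ n) v = γ ^ n • v := by
    intro γ v hv n
    induction n with
    | zero => simp
    | succ n ih => rw [pow_succ, Module.End.mul_apply, hv, map_smul, ih, smul_smul, pow_succ,
        mul_comm]
  have hne : ∀ (γ : k) (v : V), v ≠ 0 → Φ v = γ • v → γ ≠ 0 := by
    intro γ v hv0 hv hγ
    rw [hγ, zero_smul] at hv
    exact hv0 (hinj (by rw [hv, map_zero]))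
  have hcard : Nat.card k = Fintype.card k := Nat.card_eq_fintype_card
  apply b.ext
  intro i
  fin_cases i
  · have := hpow α (b 0) h0 (Nat.card k - 1)
    simp only [Fin.zero_eta]
    rw [this, hcard, FiniteField.pow_card_sub_one_eq_one α (hne α (b 0) (b.ne_zero 0) h0),
      one_smul]
    rfl
  · have := hpow β (b 1) h1 (Nat.card k - 1)
    simp only [Fin.mk_one]
    rw [this, hcard, FiniteField.pow_card_sub_one_eq_one β (hne β (b 1) (b.ne_zero 1) h1),
      one_smul]
    rfl

end Fermat.Agent.S56L
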