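import Fermat.Agent.S56L.Iface
import Fermat.Agent.S56L.H72QAbs
import Fermat.Agent.S56L.H72QLin
import Fermat.Agent.S56L.H72QInst
import Fermat.Agent.PT.Bridge.LocGrpD
import Fermat.Agent.PT.Bridge.Inertia

/-!
# S56, block LOC-Q (helper72): the local bound at a Taylor–Wiles prime

`h72q_locQBound : h14l_LocQBound` — for `q ≡ 1 mod p`, `ρbar` unramified at `q` with distinct
Frobenius eigenvalues, the continuous cocycles of `G_{ℚ_q}` with values in `ad⁰ ρbar` span a
space of dimension `≤ 4`, and their restriction to inertia has rank `≤ 1`.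
-/

set_option autoImplicit false
set_option linter.unusedSectionVars false
set_option linter.style.haveILetI false

open ExtCitation Polynomial

open scoped Classical

noncomputable section

namespace Fermat.Agent.S56L

open Fermat.Agent.PT Fermat.Agent.PT.Loc Fermat.Agent.PT.Bridge

/-- The local bound at a Taylor–Wiles prime, for `q : ℕ` with `[Fact q.Prime]`. -/
theorem h72q_locQ_core (p : ℕ) [Fact p.Prime] (k : Type) [Field k] [Finite k] [CharP k p]
    (ρbar : ResidualGaloisRep k) (q : ℕ) [Fact q.Prime] (hqp : q ≠ p) (hq1 : ((q : ℕ) : k) = 1)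
    (hunr : ∀ s : Gq q, localGaloisToGlobal q s ∈ (padicPlace q).inertiaSubgroupIn ℚ →
      ρbar.ρ (localGaloisToGlobal q s) = 1)
    (φ : Gq q) (hφ : (padicPlace q).IsFrobeniusAt (localGaloisToGlobal q φ) q)
    (α β : k) (hαβ : α ≠ β)
    (hΦ : LinearMap.charpoly (ρbar.ρ (localGaloisToGlobal q φ)) = (X - C α) * (X - C β)) :
    (∃ f : ↥(Z1 (levFin.comap (localGaloisToGlobal q))
        ((h14l_Ad0 ρbar).comp (localGaloisToGlobal q))) →ₗ[k] (Fin 4 → k),
        Function.Injective f) ∧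
      ∃ g : ↥(Z1 (levFin.comap (localGaloisToGlobal q))
          ((h14l_Ad0 ρbar).comp (localGaloisToGlobal q))) →ₗ[k] k,
        ∀ c, g c = 0 → ∀ s ∈ {s : Gq q |
          localGaloisToGlobal q s ∈ (padicPlace q).inertiaSubgroupIn ℚ},
            (c : Gq q → ↥(h14l_sl ρbar)) s = 0 := by
  have hp : p.Prime := Fact.out
  have hq : q.Prime := Fact.out
  -- `p ∣ q - 1`
  have hpq : p ∣ q - 1 := by
    rw [← CharP.cast_eq_zero_iff k p, Nat.cast_sub hq.one_le, hq1, Nat.cast_one, sub_self]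
  -- Frobenius
  have hφ' : IsFrob (⊥ : LF q) φ := by
    refine ⟨h72q_mem_GK_bot φ, ?_⟩
    rw [h96b_resCard_bot q]
    exact (h23b_isFrobeniusAt_iff q φ).1 hφ
  -- inertia
  have hinert : ∀ s : Gq q, IsInert (⊥ : LF q) s ↔
      localGaloisToGlobal q s ∈ (padicPlace q).inertiaSubgroupIn ℚ := by
    intro s
    rw [h23b_isInert_iff]
    exact ⟨fun h => h.2, fun h => ⟨h72q_mem_GK_bot s, h⟩⟩
  -- linear algebra
  obtain ⟨b, hb0, hb1⟩ := h72q_exists_eigenbasis ρbar.finrank_eq
    (ρbar.ρ (localGaloisToGlobal q φ)) hαβ hΦ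
  have hΦinj : Function.Injective (ρbar.ρ (localGaloisToGlobal q φ)) := by
    intro x y hxy
    have h := congrArg (ρbar.ρ (localGaloisToGlobal q φ)⁻¹) hxy
    rw [← Module.End.mul_apply, ← Module.End.mul_apply, h14l_rho_inv_mul] at h
    exact h
  have hk1 : 1 < Nat.card k := Finite.one_lt_card
  have hf0 : 0 < Nat.card k - 1 := by omega
  have hfp : Nat.Coprime (Nat.card k - 1) p := by
    have hpk : p ∣ Nat.card k := by
      rw [← CharP.cast_eq_zero_iff k p]
      have : Fintype k := Fintype.ofFinite k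
      rw [Nat.card_eq_fintype_card]
      exact Nat.cast_card_eq_zero k
    rw [Nat.coprime_comm, Nat.Prime.coprime_iff_not_dvd hp]
    intro h
    have h1 : p ∣ Nat.card k - (Nat.card k - 1) := Nat.dvd_sub hpk h
    have h2 : Nat.card k - (Nat.card k - 1) = 1 := by omega
    rw [h2] at h1
    exact hp.one_lt.ne' (Nat.dvd_one.1 h1)
  have hΦf : ρbar.ρ (localGaloisToGlobal q φ) ^ (Nat.card k - 1) = 1 :=
    h72q_pow_card_sub_one b _ hb0 hb1 hΦinj
  -- the kernel of `ρbar` is open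
  obtain ⟨L, hL, hker⟩ := ρbar.factorsThroughFiniteLevel
  haveI := hL
  haveI : FiniteDimensional ℚ_[q] (h23b_localField q L) := h23b_finiteDimensional_localField q L
  have htriv : ∀ g ∈ GK (Kur (⊥ : LF q) (Nat.card k - 1)),
      ρbar.ρ (localGaloisToGlobal q g) = 1 := by
    refine h72q_triv_Kur (ρbar.ρ.comp (localGaloisToGlobal q)) hφ'
      (fun s hs => hunr s ((hinert s).1 hs)) (h23b_localField q L) (fun s hs => ?_) hf0 hΦf
    apply hker
    have h1 := (h23b_mem_fixingSubgroup_localField_iff q L s).1 hs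
    intro x hx
    exact (IntermediateField.mem_fixingSubgroup_iff _ _).1 h1 x hx
  have hρtriv : ∀ s ∈ GK (Kur (⊥ : LF q) (Nat.card k - 1)), ∀ m : ↥(h14l_sl ρbar),
      ((h14l_Ad0 ρbar).comp (localGaloisToGlobal q)) s m = m := by
    intro s hs m
    apply Subtype.ext
    show ((h14l_Ad0 ρbar (localGaloisToGlobal q s) m : ↥(h14l_sl ρbar)) :
      Module.End k ρbar.V) = m
    rw [h14l_Ad0_coe, htriv s hs, one_mul, ← map_inv, htriv s⁻¹ ((GK _).inv_mem hs), mul_one]
  -- cocycles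
  letI : Module (ZMod p) ↥(h14l_sl ρbar) :=
    Module.compHom _ (ZMod.castHom (dvd_refl p) k)
  obtain ⟨s₀, hs₀, hcoc⟩ := h72q_coc_inert (p := p) hqp hpq hφ'
  have hs₀E : s₀ ∈ GK (Kur (⊥ : LF q) (Nat.card k - 1)) := h72q_inert_mem_GK_Kur hs₀ hf0
  have key : ∀ c ∈ Z1 (levFin.comap (localGaloisToGlobal q))
      ((h14l_Ad0 ρbar).comp (localGaloisToGlobal q)),
      (∀ g, ∀ s ∈ GK (Kur (⊥ : LF q) (Nat.card k - 1)),
        ((h14l_Ad0 ρbar).comp (localGaloisToGlobal q)) g (c s) = c s) ∧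
      (c s₀ = 0 → ∀ s, IsInert (⊥ : LF q) s → c s = 0) := by
    intro c hc
    obtain ⟨hd, N, ⟨N', ⟨F, hF, hFn, rfl⟩, rfl⟩, hlc⟩ := (mem_Z1 _ _ c).1 hc
    haveI := hF
    refine hcoc (Nat.card k - 1) hf0 hfp ↥(h14l_sl ρbar)
      (fun g => (((h14l_Ad0 ρbar).comp (localGaloisToGlobal q)) g).toAddMonoidHom) c
      (fun g h => h72q_coc_mul hd g h) hρtriv
      ⟨h23b_localField q F, h23b_finiteDimensional_localField q F, fun g s hs => hlc g s ?_⟩
    rw [h23b_comap_fixingSubgroup]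
    exact hs
  obtain ⟨mu₀, hmu₀⟩ := h72q_lin_emb (k := k) b
  refine h72q_abs (levFin.comap (localGaloisToGlobal q))
    ((h14l_Ad0 ρbar).comp (localGaloisToGlobal q))
    {s : Gq q | localGaloisToGlobal q s ∈ (padicPlace q).inertiaSubgroupIn ℚ} φ s₀
    ?_ (fun c hc => (key c hc).1 φ s₀ hs₀E)
    (fun c hc h0 s hs => (key c hc).2 h0 s ((hinert s).2 hs))
    ((h72q_entry b 0 0).comp (h14l_sl ρbar).subtype) ?_
    (mu₀.comp (h14l_sl ρbar).subtype) ?_
  · -- density
    rintro N ⟨N', ⟨F, hF, hFn, rfl⟩, rfl⟩ g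
    haveI := hF
    haveI : FiniteDimensional ℚ_[q] (h23b_localField q F) :=
      h23b_finiteDimensional_localField q F
    obtain ⟨i, ι, e, hι, he, hg⟩ := h72q_dense hφ' (h23b_localField q F) g
    refine ⟨i, ι, e, (hinert ι).1 hι, ?_, hg⟩
    rw [h23b_comap_fixingSubgroup]
    exact he
  · -- the invariants are detected by one functional
    intro m hm h0
    apply Subtype.ext
    have h1 := congrArg (Subtype.val) hm
    have h2 : ρbar.ρ (localGaloisToGlobal q φ) * (m : Module.End k ρbar.V) *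
        ρbar.ρ (localGaloisToGlobal q φ)⁻¹ = (m : Module.End k ρbar.V) := by
      rw [← h14l_Ad0_coe]
      exact h1
    have h3 : ρbar.ρ (localGaloisToGlobal q φ) * (m : Module.End k ρbar.V) =
        (m : Module.End k ρbar.V) * ρbar.ρ (localGaloisToGlobal q φ) := by
      have h4 := congrArg (· * ρbar.ρ (localGaloisToGlobal q φ)) h2
      simp only [mul_assoc, h14l_rho_inv_mul, mul_one] at h4
      exact h4
    exact h72q_lin_fix b _ hαβ hb0 hb1 _ ((h14l_mem_sl ρbar _).1 m.2) h3 h0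
  · -- the embedding into `k³`
    rw [injective_iff_map_eq_zero]
    intro m hm
    apply Subtype.ext
    exact hmu₀ _ ((h14l_mem_sl ρbar _).1 m.2) hm

/-- **LOC-Q**: the local bound at a Taylor–Wiles prime. -/
theorem h72q_locQBound : h14l_LocQBound := by
  intro p _ _ k _ _ _ ρbar q hqp hq1 hunr hfrob
  haveI : Fact (q : ℕ).Prime := ⟨q.2⟩
  obtain ⟨φ, hφ, α, β, hαβ, hΦ⟩ := hfrob
  exact h72q_locQ_core p k ρbar (q : ℕ) hqp hq1 hunr φ hφ α β hαβ hΦ

end Fermat.Agent.S56L
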