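import Fermat.Agent.S56L.Iface
import Fermat.Agent.PT.Alg.Tools
import Fermat.Agent.PT.Bridge.Levels

/-!
# S56 LOC (helper14): basic facts on the local frame

* `h14s_exists_level` : `ρbar` is trivial on a level of `levFin`;
* `h14s_isDisc_Ad0`, `h14s_isDisc_locAd0` : `ad⁰ ρbar` is a discrete module (globally, locally);
* `h14s_res_mem_Z1` : the restriction of a global continuous cocycle is a local one;
* `h14s_B1_le_Z1` : local coboundaries are continuous cocycles.
-/

set_option autoImplicit false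

open ExtCitation

noncomputable section

namespace Fermat.Agent.S56L

open Fermat.Agent.PT

variable {k : Type} [Field k]

/-- `ρbar` is trivial on a finite normal level. -/
theorem h14s_exists_level (ρbar : ResidualGaloisRep k) :
    ∃ N ∈ levFin.sets, ∀ σ ∈ N, ρbar.ρ σ = 1 := by
  obtain ⟨L₀, hL₀, h1⟩ := ρbar.factorsThroughFiniteLevel
  haveI := hL₀
  refine ⟨(pt79_galClosure L₀).fixingSubgroup,
    ⟨pt79_galClosure L₀, pt79_galClosure_finiteDimensional L₀, pt79_galClosure_normal L₀, rfl⟩,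
    fun σ hσ => h1 σ (fun x hx => ?_)⟩
  exact (IntermediateField.mem_fixingSubgroup_iff _ σ).1 hσ x (pt79_le_galClosure L₀ hx)

/-- `ad⁰ ρbar` is trivial on a finite normal level. -/
theorem h14s_Ad0_eq_of_rho_eq_one (ρbar : ResidualGaloisRep k) {σ : GQ} (h : ρbar.ρ σ = 1)
    (m : ↥(h14l_sl ρbar)) : h14l_Ad0 ρbar σ m = m := by
  apply Subtype.ext
  have h' : ρbar.ρ σ⁻¹ = 1 := by rw [map_inv_eq_one_iff_of_group ρbar σ h]
  rw [h14l_Ad0_coe, h, h', one_mul, mul_one]
where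
  map_inv_eq_one_iff_of_group (ρbar : ResidualGaloisRep k) (σ : GQ) (h : ρbar.ρ σ = 1) :
      ρbar.ρ σ⁻¹ = 1 := by
    have := h14l_rho_inv_mul ρbar σ
    rwa [h, mul_one] at this

theorem h14s_isDisc_Ad0 (ρbar : ResidualGaloisRep k) : IsDisc levFin (h14l_Ad0 ρbar) := by
  intro m
  obtain ⟨N, hN, h⟩ := h14s_exists_level ρbar
  exact ⟨N, hN, fun s hs => h14s_Ad0_eq_of_rho_eq_one ρbar (h s hs) m⟩

theorem h14s_isDisc_locAd0 (ρbar : ResidualGaloisRep k) (q : Nat.Primes) :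
    IsDisc (h14l_lev q) (h14l_locAd0 ρbar q) := by
  intro m
  obtain ⟨N, hN, h⟩ := h14s_exists_level ρbar
  exact ⟨N.comap (primeLocalToGlobal q), ⟨N, hN, rfl⟩,
    fun s hs => h14s_Ad0_eq_of_rho_eq_one ρbar (h _ hs) m⟩

/-- local coboundaries are continuous cocycles. -/
theorem h14s_B1_le_Z1 (ρbar : ResidualGaloisRep k) (q : Nat.Primes) :
    B1 (h14l_locAd0 ρbar q) ≤ Z1 (h14l_lev q) (h14l_locAd0 ρbar q) :=
  Fermat.Agent.PT.Tools.B1_le_Z1 (h14s_isDisc_locAd0 ρbar q)

/-- the restriction of a global continuous cocycle to the local group. -/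
theorem h14s_res_mem_Z1 (ρbar : ResidualGaloisRep k) (q : Nat.Primes)
    {c : GQ → ↥(h14l_sl ρbar)} (hc : c ∈ Z1 levFin (h14l_Ad0 ρbar)) :
    (fun s => c (primeLocalToGlobal q s)) ∈ Z1 (h14l_lev q) (h14l_locAd0 ρbar q) := by
  rw [mem_Z1] at hc ⊢
  obtain ⟨hd, N, hN, hlc⟩ := hc
  refine ⟨?_, N.comap (primeLocalToGlobal q), ⟨N, hN, rfl⟩, fun g s hs => ?_⟩
  · funext x
    obtain ⟨g, h⟩ := x
    have := congrFun hd (primeLocalToGlobal q g, primeLocalToGlobal q h)
    simp only [d1_apply, Pi.zero_apply] at this ⊢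
    rw [map_mul]
    exact this
  · simp only [map_mul]
    exact hlc _ _ hs

end Fermat.Agent.S56L
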