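import Fermat.Agent.S56L.IfaceSel
import Fermat.Agent.S56L.H14LocBasic
import Fermat.Agent.PT.Bridge.LocGrpE

/-!
# S56 LOC (helper14), leaf LOC-UNRLIFT

* `h14u_unrOfLiftGlob : h14l_UnrOfLiftGlob` : a lift which is unramified at `q` has `ρbar` and its
  cocycle trivial on every inertia group above `q`;
* `h14u_unrOfLift : h14l_UnrOfLift` : the local form.
-/

set_option autoImplicit false
set_option linter.style.haveILetI false

open ExtCitation Polynomial

noncomputable section

namespace Fermat.Agent.S56L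

open Fermat.Agent.PT Fermat.Agent.PT.Bridge

variable {k : Type} [Field k]

/-- If `1 = inl R + inr X` entrywise over the dual numbers, then `R = 1` and `X = 0`. -/
theorem h14u_one_eq (R X' : Matrix (Fin 2) (Fin 2) k)
    (h : ∀ i j, (1 : Matrix (Fin 2) (Fin 2) (DualNumber k)) i j =
      TrivSqZeroExt.inl (R i j) + TrivSqZeroExt.inr (X' i j)) :
    R = 1 ∧ X' = 0 := by
  constructor
  · ext i j
    have := congrArg TrivSqZeroExt.fst (h i j)
    rw [TrivSqZeroExt.fst_add, TrivSqZeroExt.fst_inl, TrivSqZeroExt.fst_inr, add_zero] at this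
    rw [← this, Matrix.one_apply, Matrix.one_apply]
    split_ifs
    · exact TrivSqZeroExt.fst_one
    · exact TrivSqZeroExt.fst_zero
  · ext i j
    have := congrArg TrivSqZeroExt.snd (h i j)
    rw [TrivSqZeroExt.snd_add, TrivSqZeroExt.snd_inl, TrivSqZeroExt.snd_inr, zero_add] at this
    rw [← this, Matrix.one_apply, Matrix.zero_apply]
    split_ifs
    · exact TrivSqZeroExt.snd_one
    · exact TrivSqZeroExt.snd_zero

/-- the core: `ρA σ = 1` gives `ρbar σ = 1` and `c σ = 0`. -/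
theorem h14u_core (ρbar : ResidualGaloisRep k) (ρA : GaloisRepAdic (DualNumber k))
    (c : GQ → ↥(h14l_sl ρbar)) (hcoc : h14l_IsCocycleOf ρbar ρA c) (σ : GQ)
    (h1 : ρA.ρ σ = 1) : ρbar.ρ σ = 1 ∧ c σ = 0 := by
  obtain ⟨e, eb, hmat⟩ := hcoc
  have hM : ∀ i j, (1 : Matrix (Fin 2) (Fin 2) (DualNumber k)) i j =
      TrivSqZeroExt.inl (LinearMap.toMatrix eb eb (ρbar.ρ σ) i j) +
        TrivSqZeroExt.inr
          (LinearMap.toMatrix eb eb ((c σ : Module.End k ρbar.V) * ρbar.ρ σ) i j) := by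
    intro i j
    rw [← hmat σ i j, h1, LinearMap.toMatrix_one]
  obtain ⟨hR, hX⟩ := h14u_one_eq _ _ hM
  have hρ : ρbar.ρ σ = 1 := by
    apply (LinearMap.toMatrix eb eb).injective
    rw [hR, LinearMap.toMatrix_one]
  refine ⟨hρ, ?_⟩
  have hc : (c σ : Module.End k ρbar.V) * ρbar.ρ σ = 0 := by
    apply (LinearMap.toMatrix eb eb).injective
    rw [hX, map_zero]
  rw [hρ, mul_one] at hc
  exact Subtype.ext hc

/-- **LOC-UNRLIFT**, global form (exact frozen Prop). -/
theorem h14u_unrOfLiftGlob : h14l_UnrOfLiftGlob := by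
  intro k _ ρbar ρA c q hcoc hunr P hP s hs
  exact h14u_core ρbar ρA c hcoc s (hunr P hP s hs)

/-- **LOC-UNRLIFT**, local form (exact frozen Prop). -/
theorem h14u_unrOfLift : h14l_UnrOfLift := by
  intro k _ ρbar ρA c q hcoc hc hunr
  haveI : Fact (q : ℕ).Prime := ⟨q.2⟩
  have hkey : ∀ s ∈ h14l_inert q,
      ρbar.ρ (primeLocalToGlobal q s) = 1 ∧ c (primeLocalToGlobal q s) = 0 := fun s hs =>
    h14u_core ρbar ρA c hcoc _
      (hunr (primeLocalPlace q) (h23b_padicPlace_liesOver (q : ℕ)) (primeLocalToGlobal q s) hs)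
  exact ⟨fun s hs => (hkey s hs).1, h14s_res_mem_Z1 ρbar q hc, fun s hs => (hkey s hs).2⟩

end Fermat.Agent.S56L
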