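import Fermat.Agent.S56L.IfaceSel
import Fermat.Agent.S56L.H14LocBasic
import Fermat.Agent.S56L.H72QLin
import Fermat.Agent.PT.Loc.H36Unr
import Fermat.Agent.PT.Loc.H66URCyc
import Fermat.Agent.PT.Loc.H36URFrob
import Fermat.Agent.PT.Loc.H34LFTeich
import Fermat.Agent.PT.Loc.H96RDBase
import Fermat.Agent.PT.Loc.MC.H65Idx
import Fermat.Agent.PT.Bridge.Open
import Fermat.Agent.PT.Bridge.Inertia

/-!
# S56, block LOC, row LOC-UNR (helper96): `h96u_locUnrBound : h14l_LocUnrBound`

If `ρbar` is trivial on the inertia group at `q` (any `q`), the unramified cocycles of `ad⁰ ρbar`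
at `q` contain the coboundaries and span a space of dimension `≤ 3`.

* `h96u_core` : a continuous cocycle of the local group (any coefficients) which vanishes on the
  inertia group and at one Frobenius element `φ` is zero: it is right invariant under
  `I · G_E` for a finite `E`, hence under `G_{Kur ⊥ m}` for some `m > 0` (`h36n_exists_level`), and
  every `g` is `φ ^ j · t` with `t ∈ G_{Kur ⊥ m}` (`h66v_urCyc`);
* so `c ↦ c(φ) ∈ sl` is injective on the unramified cocycles, and `sl` embeds into `k³`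
  (`h72q_lin_emb`, helper72).
-/

set_option autoImplicit false
set_option linter.style.haveILetI false

open ExtCitation

noncomputable section

namespace Fermat.Agent.S56L

open Fermat.Agent.PT Fermat.Agent.PT.Bridge Fermat.Agent.PT.Loc

section Core

variable {q : ℕ} [Fact q.Prime]

theorem h96u_mem_GK_bot (g : Gq q) : g ∈ GK (⊥ : LF q) := by
  rw [IntermediateField.mem_fixingSubgroup_iff]
  intro x hx
  obtain ⟨a, rfl⟩ := IntermediateField.mem_bot.1 hx
  exact g.commutes a

/-- a continuous cocycle of the local Galois group which vanishes on the inertia group and at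
one Frobenius element is zero. -/
theorem h96u_core {k M : Type} [CommRing k] [AddCommGroup M] [Module k M]
    (ρ : Representation k (Gq q) M) (c : Gq q → M)
    (hc : c ∈ Z1 (levFin.comap (localGaloisToGlobal q)) ρ)
    (hI : ∀ i : Gq q, IsInert (⊥ : LF q) i → c i = 0)
    (φ : Gq q) (hφ : IsFrob (⊥ : LF q) φ) (h0 : c φ = 0) (g : Gq q) : c g = 0 := by
  rw [mem_Z1] at hc
  obtain ⟨hd, N, hN, hlc⟩ := hc
  have hcoc : ∀ g h : Gq q, c (g * h) = c g + ρ g (c h) := by
    intro g h
    have := congrFun hd (g, h)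
    rw [d1_apply] at this
    have h2 : ρ g (c h) - c (g * h) + c g = 0 := this
    have h4 : c (g * h) = c (g * h) + (ρ g (c h) - c (g * h) + c g) := by rw [h2, add_zero]
    rw [h4]
    abel
  have h1 : c 1 = 0 := by
    have := hcoc 1 1
    rw [mul_one, map_one, Module.End.one_apply] at this
    exact left_eq_add.mp this
  obtain ⟨E, hE, hNE⟩ := (h23b_isOpen_levLoc_iff q N).1 ⟨N, hN, le_refl N⟩
  haveI := hE
  obtain ⟨m, hm, hlev⟩ := h36n_exists_level h34lf_lfTeich (⊥ : LF q) E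
  have hvan : ∀ t ∈ GK (Kur (⊥ : LF q) m), c t = 0 := by
    intro t ht
    obtain ⟨i, hi, hmem⟩ := hlev t ht
    have e : t = i * (i⁻¹ * t) := by group
    rw [e, hlc i (i⁻¹ * t) (by rw [hNE]; exact hmem)]
    exact hI i hi
  have hpow : ∀ j : ℕ, c (φ ^ j) = 0 := by
    intro j
    induction j with
    | zero => rw [pow_zero, h1]
    | succ j ih => rw [pow_succ, hcoc, ih, h0, map_zero, add_zero]
  have hcyc : IsCyc (⊥ : LF q) (Kur (⊥ : LF q) m) m φ :=
    h66v_urCyc h34lf_lfTeich q (⊥ : LF q) m φ hm hφ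
  have hmem := h65_idx_mem hcyc (h96u_mem_GK_bot g)
  have e : g = φ ^ cycIdx (Kur (⊥ : LF q) m) φ m g *
      ((φ ^ cycIdx (Kur (⊥ : LF q) m) φ m g)⁻¹ * g) := by group
  rw [e, hcoc, hpow, hvan _ hmem, map_zero, add_zero]

end Core

/-- **LOC-UNR** (exact frozen Prop of `S56L/IfaceSel.lean`). -/
theorem h96u_locUnrBound : h14l_LocUnrBound := by
  intro k _ _ ρbar q hunr
  haveI : Fact (q : ℕ).Prime := ⟨q.2⟩
  refine ⟨?_, ?_⟩
  · intro f hf
    refine ⟨h14s_B1_le_Z1 ρbar q hf, fun s hs => ?_⟩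
    obtain ⟨w, rfl⟩ := hf
    rw [d0_apply]
    have h1 : h14l_locAd0 ρbar q s w = w := h14s_Ad0_eq_of_rho_eq_one ρbar (hunr s hs) w
    rw [h1, sub_self]
  · obtain ⟨φ, hφ⟩ := h36_urFrob h34lf_lfTeich (q : ℕ) (⊥ : LF (q : ℕ))
    obtain ⟨mu, hmu⟩ := h72q_lin_emb (Module.finBasisOfFinrankEq k ρbar.V ρbar.finrank_eq)
    let ev : ↥(h14l_ZUnr ρbar q) →ₗ[k] (Fin 3 → k) :=
      mu ∘ₗ (h14l_sl ρbar).subtype ∘ₗ
        (LinearMap.proj (R := k) (φ := fun _ : primeLocalGaloisGroup q => ↥(h14l_sl ρbar)) φ) ∘ₗ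
        (h14l_ZUnr ρbar q).subtype
    refine ⟨ev, ?_⟩
    intro c c' hcc
    have hsub : ev (c - c') = 0 := by rw [LinearMap.map_sub ev c c', hcc, sub_self]
    suffices h : c - c' = 0 from sub_eq_zero.1 h
    revert hsub
    generalize c - c' = c
    intro hc
    have hc' : mu ((c : primeLocalGaloisGroup q → ↥(h14l_sl ρbar)) φ : Module.End k ρbar.V) = 0 :=
      hc
    have htr : LinearMap.trace k ρbar.V
        ((c : primeLocalGaloisGroup q → ↥(h14l_sl ρbar)) φ : Module.End k ρbar.V) = 0 :=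
      (h14l_mem_sl ρbar _).1 ((c : primeLocalGaloisGroup q → ↥(h14l_sl ρbar)) φ).2
    have h1 : (c : primeLocalGaloisGroup q → ↥(h14l_sl ρbar)) φ = 0 :=
      Subtype.ext (hmu _ htr hc')
    obtain ⟨hZ, hIn⟩ := c.2
    apply Subtype.ext
    funext g
    refine h96u_core (q := (q : ℕ)) (h14l_locAd0 ρbar q)
      (c : primeLocalGaloisGroup q → ↥(h14l_sl ρbar)) hZ (fun i hi => ?_) φ hφ h1 g
    exact hIn i ((h23b_isInert_iff (q : ℕ) ⊥ i).1 hi).2

end Fermat.Agent.S56L
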