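import Fermat.Agent.S56L.Iface
import Fermat.Agent.PT.Bridge.Levels

/-!
# S56 LOC (helper14), leaf LOC-DETCYC

`h14d_detCyc : h14l_DetCyc` : the determinant of `ρbar` is the mod `p` cyclotomic character.
-/

set_option autoImplicit false
set_option linter.style.haveILetI false

open ExtCitation

noncomputable section

namespace Fermat.Agent.S56L

open Fermat.Agent.PT

/-- **LOC-DETCYC** (exact frozen Prop). -/
theorem h14d_detCyc : h14l_DetCyc := by
  intro p _ k _ _ ρbar hdet σ
  have h := hdet.2 1 σ ((cycloChar p σ : (ZMod p)ˣ) : ZMod p).val (fun μ hμ => by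
    rw [pow_one] at hμ
    exact pt79_cycloChar_spec p σ μ hμ)
  have h0 : ((p ^ 1 : ℕ) : k) = 0 := by
    rw [pow_one]
    exact CharP.cast_eq_zero k p
  rw [h0, Ideal.span_singleton_eq_bot.mpr rfl, Ideal.mem_bot, sub_eq_zero] at h
  have h1 : ZMod.castHom (dvd_refl p) k ((cycloChar p σ : (ZMod p)ˣ) : ZMod p) =
      ((((cycloChar p σ : (ZMod p)ˣ) : ZMod p).val : ℕ) : k) := by
    rw [ZMod.castHom_apply, ZMod.natCast_val]
  rw [h1]
  exact h

end Fermat.Agent.S56L
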