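import Fermat.Agent.S56L.IfaceSel
import Fermat.Agent.S56L.H14LocBasic

/-!
# S56 LOC (helper14), leaf LOC-LEVQ

`h14v_levQOfCoc : h14l_LevQOfCoc` : a continuous cocycle of `ad⁰ ρbar` which, together with
`ρbar`, is trivial on every inertia group at the primes outside `T`, is continuous for the levels
unramified outside `T`.  (The subgroup `{σ | ρbar σ = 1 ∧ c σ = 0}` is open, normal and contains
the inertia groups outside `T`; `pt79_level_of_normal`.)
-/

set_option autoImplicit false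
set_option linter.style.haveILetI false

open ExtCitation

noncomputable section

namespace Fermat.Agent.S56L

open Fermat.Agent.PT

variable {k : Type} [Field k]

/-- the cocycle identity. -/
theorem h14v_coc {G V : Type} [Group G] [AddCommGroup V] [Module k V] (ρ : Representation k G V)
    {c : G → V} (hd : d1 ρ c = 0) (g h : G) : c (g * h) = c g + ρ g (c h) := by
  have := congrFun hd (g, h)
  simp only [d1_apply, Pi.zero_apply] at this
  have h2 : c (g * h) = ρ g (c h) + c g := by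
    rw [sub_add_eq_add_sub, sub_eq_zero] at this
    exact this.symm
  rw [h2, add_comm]

theorem h14v_coc_one {G V : Type} [Group G] [AddCommGroup V] [Module k V]
    (ρ : Representation k G V) {c : G → V} (hd : d1 ρ c = 0) : c 1 = 0 := by
  have := h14v_coc ρ hd 1 1
  rw [mul_one, map_one, Module.End.one_apply] at this
  exact left_eq_add.mp this

/-- the subgroup on which `ρbar` and the cocycle are trivial. -/
def h14v_ker (ρbar : ResidualGaloisRep k) (c : GQ → ↥(h14l_sl ρbar))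
    (hd : d1 (h14l_Ad0 ρbar) c = 0) : Subgroup GQ where
  carrier := {σ | ρbar.ρ σ = 1 ∧ c σ = 0}
  one_mem' := ⟨map_one _, h14v_coc_one _ hd⟩
  mul_mem' := by
    rintro a b ⟨ha1, ha2⟩ ⟨hb1, hb2⟩
    refine ⟨by rw [map_mul, ha1, hb1, mul_one], ?_⟩
    rw [h14v_coc _ hd, ha2, hb2, map_zero, add_zero]
  inv_mem' := by
    rintro a ⟨ha1, ha2⟩
    have h1 : ρbar.ρ a⁻¹ = 1 := by
      have := h14l_rho_inv_mul ρbar a
      rwa [ha1, mul_one] at this
    refine ⟨h1, ?_⟩
    have := h14v_coc _ hd a⁻¹ a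
    rw [inv_mul_cancel, h14v_coc_one _ hd, ha2, map_zero, add_zero] at this
    exact this.symm

theorem h14v_mem_ker (ρbar : ResidualGaloisRep k) (c : GQ → ↥(h14l_sl ρbar))
    (hd : d1 (h14l_Ad0 ρbar) c = 0) (σ : GQ) :
    σ ∈ h14v_ker ρbar c hd ↔ ρbar.ρ σ = 1 ∧ c σ = 0 := Iff.rfl

theorem h14v_ker_normal (ρbar : ResidualGaloisRep k) (c : GQ → ↥(h14l_sl ρbar))
    (hd : d1 (h14l_Ad0 ρbar) c = 0) : (h14v_ker ρbar c hd).Normal where
  conj_mem n hn g := by
    obtain ⟨hn1, hn2⟩ := hn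
    refine ⟨by rw [map_mul, map_mul, hn1, mul_one, ← map_mul, mul_inv_cancel, map_one], ?_⟩
    rw [mul_assoc, h14v_coc _ hd g, h14v_coc _ hd n, hn2, zero_add,
      h14s_Ad0_eq_of_rho_eq_one ρbar hn1, ← h14v_coc _ hd, mul_inv_cancel, h14v_coc_one _ hd]

/-- **LOC-LEVQ** (exact frozen Prop). -/
theorem h14v_levQOfCoc : h14l_LevQOfCoc := by
  intro k _ _ ρbar T c hc hur
  rw [mem_Z1] at hc ⊢
  obtain ⟨hd, N₁, ⟨F₁, hF₁fin, -, rfl⟩, hlc⟩ := hc
  refine ⟨hd, ?_⟩
  obtain ⟨N₂, ⟨F₂, hF₂fin, -, rfl⟩, hρ⟩ := h14s_exists_level ρbar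
  haveI := h14v_ker_normal ρbar c hd
  obtain ⟨F, hFur, hFgal, hFfix⟩ := pt79_level_of_normal T (h14v_ker ρbar c hd)
    ⟨F₁ ⊔ F₂, by
        haveI := hF₁fin
        haveI := hF₂fin
        exact IntermediateField.finiteDimensional_sup F₁ F₂, by
      intro s hs
      rw [IntermediateField.fixingSubgroup_sup] at hs
      refine ⟨hρ s hs.2, ?_⟩
      have := hlc 1 s hs.1
      rw [one_mul, h14v_coc_one _ hd] at this
      exact this⟩
    (fun q hq A hA s hs => hur q hq A hA s hs)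
  haveI := hFgal
  refine ⟨F.fixingSubgroup, ⟨F, hFur, inferInstance, rfl⟩, fun g s hs => ?_⟩
  rw [hFfix] at hs
  obtain ⟨-, hs2⟩ := hs
  rw [h14v_coc _ hd, hs2, map_zero, add_zero]

end Fermat.Agent.S56L
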