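import Fermat.Agent.S56L.Iface

/-!
# S56 LOC-STRLIFT (helper14), part A: coordinates over the dual numbers

For a free module `VA` of rank two over the dual numbers `k[ε]` with basis `e` and a `k`-vector
space `Vb` with basis `eb`: the two reduction maps `h14s_red0`, `h14s_red1 : VA → Vb`
(`v = ι(red0 v) + ε ι(red1 v)`), and their behaviour under an endomorphism whose matrix is
`inl [fb] + inr [g]`.
-/

set_option autoImplicit false

open TrivSqZeroExt

noncomputable section

namespace Fermat.Agent.S56L

variable {k : Type} [Field k]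
variable {VA : Type} [AddCommGroup VA] [Module (DualNumber k) VA]
variable {Vb : Type} [AddCommGroup Vb] [Module k Vb]
variable (e : Module.Basis (Fin 2) (DualNumber k) VA) (eb : Module.Basis (Fin 2) k Vb)

/-- the constant part of `v`. -/
def h14s_red0 (v : VA) : Vb := ∑ i, fst (e.repr v i) • eb i

/-- the `ε`-part of `v`. -/
def h14s_red1 (v : VA) : Vb := ∑ i, snd (e.repr v i) • eb i

lemma h14s_red0_repr (v : VA) (i : Fin 2) : eb.repr (h14s_red0 e eb v) i = fst (e.repr v i) := by
  unfold h14s_red0
  rw [map_sum, Finsupp.finset_sum_apply]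
  simp [Finsupp.single_apply]

lemma h14s_red1_repr (v : VA) (i : Fin 2) : eb.repr (h14s_red1 e eb v) i = snd (e.repr v i) := by
  unfold h14s_red1
  rw [map_sum, Finsupp.finset_sum_apply]
  simp [Finsupp.single_apply]

lemma h14s_red0_add (v w : VA) :
    h14s_red0 e eb (v + w) = h14s_red0 e eb v + h14s_red0 e eb w := by
  apply eb.repr.injective
  ext i
  simp [h14s_red0_repr]

lemma h14s_red1_add (v w : VA) :
    h14s_red1 e eb (v + w) = h14s_red1 e eb v + h14s_red1 e eb w := by
  apply eb.repr.injective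
  ext i
  simp [h14s_red1_repr]

lemma h14s_red0_sub (v w : VA) :
    h14s_red0 e eb (v - w) = h14s_red0 e eb v - h14s_red0 e eb w := by
  apply eb.repr.injective
  ext i
  simp [h14s_red0_repr]

lemma h14s_red1_sub (v w : VA) :
    h14s_red1 e eb (v - w) = h14s_red1 e eb v - h14s_red1 e eb w := by
  apply eb.repr.injective
  ext i
  simp [h14s_red1_repr]

lemma h14s_red0_smul (a : DualNumber k) (v : VA) :
    h14s_red0 e eb (a • v) = fst a • h14s_red0 e eb v := by
  apply eb.repr.injective
  ext i
  simp [h14s_red0_repr]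

lemma h14s_red1_smul (a : DualNumber k) (v : VA) :
    h14s_red1 e eb (a • v) = fst a • h14s_red1 e eb v + snd a • h14s_red0 e eb v := by
  apply eb.repr.injective
  ext i
  simp [h14s_red0_repr, h14s_red1_repr]

lemma h14s_eq_zero_of_red {v : VA} (h0 : h14s_red0 e eb v = 0) (h1 : h14s_red1 e eb v = 0) :
    v = 0 := by
  apply e.repr.injective
  ext i
  · rw [← h14s_red0_repr e eb, h0]
    simp
  · rw [← h14s_red1_repr e eb, h1]
    simp

lemma h14s_exists_lift (v0 : Vb) : ∃ v : VA, h14s_red0 e eb v = v0 ∧ h14s_red1 e eb v = 0 := by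
  refine ⟨∑ i, (inl (eb.repr v0 i) : DualNumber k) • e i, ?_, ?_⟩
  · apply eb.repr.injective
    ext i
    rw [h14s_red0_repr, map_sum, Finsupp.finset_sum_apply]
    simp [Finsupp.single_apply]
  · apply eb.repr.injective
    ext i
    rw [h14s_red1_repr, map_sum, Finsupp.finset_sum_apply]
    simp [Finsupp.single_apply]

/-- an endomorphism with matrix `inl [fb] + inr [g]`. -/
lemma h14s_red0_map (f : VA →ₗ[DualNumber k] VA) (fb g : Vb →ₗ[k] Vb)
    (hM : ∀ i j, LinearMap.toMatrix e e f i j =
      inl (LinearMap.toMatrix eb eb fb i j) + inr (LinearMap.toMatrix eb eb g i j))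
    (v : VA) : h14s_red0 e eb (f v) = fb (h14s_red0 e eb v) := by
  apply eb.repr.injective
  ext i
  rw [h14s_red0_repr, ← LinearMap.toMatrix_mulVec_repr e e f v,
    ← LinearMap.toMatrix_mulVec_repr eb eb fb (h14s_red0 e eb v)]
  simp only [Matrix.mulVec, dotProduct, Fin.sum_univ_two, hM, h14s_red0_repr]
  simp

lemma h14s_red1_map (f : VA →ₗ[DualNumber k] VA) (fb g : Vb →ₗ[k] Vb)
    (hM : ∀ i j, LinearMap.toMatrix e e f i j =
      inl (LinearMap.toMatrix eb eb fb i j) + inr (LinearMap.toMatrix eb eb g i j))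
    (v : VA) :
    h14s_red1 e eb (f v) = fb (h14s_red1 e eb v) + g (h14s_red0 e eb v) := by
  apply eb.repr.injective
  ext i
  rw [h14s_red1_repr, ← LinearMap.toMatrix_mulVec_repr e e f v, map_add, Finsupp.add_apply,
    ← LinearMap.toMatrix_mulVec_repr eb eb fb (h14s_red1 e eb v),
    ← LinearMap.toMatrix_mulVec_repr eb eb g (h14s_red0 e eb v)]
  simp only [Matrix.mulVec, dotProduct, Fin.sum_univ_two, hM, h14s_red0_repr, h14s_red1_repr]
  simp
  ring

end Fermat.Agent.S56L
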