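import Mathlib

/-!
# S56 LOC-STRLIFT (helper14), part B: the linear algebra core (Mathlib only)

`V` a plane over a field `k` with `2 ≠ 0`, `r` an automorphism stabilising the line `k u`,
acting by `xb` on it and by `zb` on the quotient, `C` a trace zero endomorphism, and the
first order data `(x1, z1)` of a strict ordinary lift.  Then `C + (r w r⁻¹ - w)` is nilpotent
with image in `k u` and kernel containing `u`, where `w u = u'`.
-/

set_option autoImplicit false

noncomputable section

namespace Fermat.Agent.S56L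

variable {k : Type} [Field k] {V : Type} [AddCommGroup V] [Module k V]

/-- an endomorphism with image in the line `k u` which kills `u` has trace zero. -/
lemma h14s_trace_nil [FiniteDimensional k V] (n : Module.End k V) (u : V) (hu0 : n u = 0)
    (hn : ∀ v, ∃ β : k, n v = β • u) : LinearMap.trace k V n = 0 := by
  have hnil : IsNilpotent n := by
    refine ⟨2, ?_⟩
    ext v
    obtain ⟨β, hβ⟩ := hn v
    rw [pow_two, Module.End.mul_apply, hβ, map_smul, hu0, smul_zero]
    rfl
  exact (LinearMap.isNilpotent_trace_of_isNilpotent hnil).eq_zero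

/-- the scalars `xb`, `zb` are nonzero. -/
lemma h14s_scalars_ne_zero (hfin : Module.finrank k V = 2) (r r' : Module.End k V)
    (hr'r : r' * r = 1) (hrr' : r * r' = 1) (u : V) (hu : u ≠ 0) (xb zb : k)
    (h1 : r u = xb • u) (h3 : ∀ v0, ∃ α : k, r v0 - zb • v0 = α • u) :
    xb ≠ 0 ∧ zb ≠ 0 := by
  constructor
  · rintro rfl
    rw [zero_smul] at h1
    have : u = 0 := by
      have h := congrArg r' h1
      rw [← Module.End.mul_apply, hr'r, Module.End.one_apply, map_zero] at h
      exact h
    exact hu this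
  · rintro rfl
    -- `r` has image in `k u`, impossible in dimension two
    have hrange : ∀ v, ∃ α : k, v = α • u := by
      intro v
      obtain ⟨α, hα⟩ := h3 (r' v)
      rw [zero_smul, sub_zero, ← Module.End.mul_apply, hrr', Module.End.one_apply] at hα
      exact ⟨α, hα⟩
    have htop : (⊤ : Submodule k V) ≤ Submodule.span k {u} := by
      intro v _
      obtain ⟨α, hα⟩ := hrange v
      rw [hα]
      exact Submodule.smul_mem _ _ (Submodule.subset_span rfl)
    haveI : FiniteDimensional k V := Module.finite_of_finrank_eq_succ hfin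
    have h1' : Module.finrank k (Submodule.span k {u}) ≤ 1 := finrank_span_singleton hu |>.le
    have h2' : Module.finrank k (⊤ : Submodule k V) ≤ Module.finrank k (Submodule.span k {u}) :=
      Submodule.finrank_mono htop
    rw [finrank_top, hfin] at h2'
    omega

/-- **the core computation.** -/
lemma h14s_core (hfin : Module.finrank k V = 2) (h2 : (2 : k) ≠ 0)
    (r r' C w : Module.End k V) (hrr' : r * r' = 1) (hr'r : r' * r = 1)
    (hC : LinearMap.trace k V C = 0) (u u' : V) (hu : u ≠ 0) (hw : w u = u')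
    (xb x1 zb z1 ab : k) (hx : xb = ab * zb) (hx1 : x1 = ab * z1)
    (h1 : r u = xb • u) (h2' : r u' + C (r u) = xb • u' + x1 • u)
    (h3 : ∀ v0, ∃ α α1 : k, r v0 - zb • v0 = α • u ∧ C (r v0) - z1 • v0 = α • u' + α1 • u) :
    (C + (r * w * r' - w)) u = 0 ∧ ∀ v, ∃ β : k, (C + (r * w * r' - w)) v = β • u := by
  haveI : FiniteDimensional k V := Module.finite_of_finrank_eq_succ hfin
  obtain ⟨hxb, hzb⟩ := h14s_scalars_ne_zero hfin r r' hr'r hrr' u hu xb zb h1
    (fun v0 => by obtain ⟨α, _, h, _⟩ := h3 v0; exact ⟨α, h⟩)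
  have hab : ab ≠ 0 := by
    rintro rfl
    rw [zero_mul] at hx
    exact hxb hx
  have hr'u : r' u = xb⁻¹ • u := by
    have h : r' (r u) = u := by rw [← Module.End.mul_apply, hr'r, Module.End.one_apply]
    rw [h1, map_smul] at h
    calc r' u = xb⁻¹ • (xb • r' u) := by rw [smul_smul, inv_mul_cancel₀ hxb, one_smul]
      _ = xb⁻¹ • u := by rw [h]
  -- `C' u = (x1 / xb) u`
  have hCu : (C + (r * w * r' - w)) u = (x1 / xb) • u := by
    have hCru : C (r u) = xb • C u := by rw [h1, map_smul]
    have e1 : xb • C u = xb • u' + x1 • u - r u' := by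
      rw [← hCru]
      exact eq_sub_of_add_eq' h2'
    have e2 : C u = u' + (x1 / xb) • u - xb⁻¹ • r u' := by
      have := congrArg (fun y => xb⁻¹ • y) e1
      simp only [smul_smul, inv_mul_cancel₀ hxb, one_smul, smul_sub, smul_add] at this
      rw [this, div_eq_inv_mul]
    simp only [LinearMap.add_apply, LinearMap.sub_apply, Module.End.mul_apply, hr'u, map_smul,
      hw, e2]
    abel
  -- `C' v = (z1 / zb) v` modulo `k u`
  have hCv : ∀ v, ∃ β : k, (C + (r * w * r' - w)) v = (z1 / zb) • v + β • u := by
    intro v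
    obtain ⟨α, α1, ha, hb⟩ := h3 (r' v)
    obtain ⟨α', -, ha', -⟩ := h3 (w (r' v))
    have hrv : r (r' v) = v := by rw [← Module.End.mul_apply, hrr', Module.End.one_apply]
    rw [hrv] at ha hb
    -- `r' v = zb⁻¹ (v - α u)`
    have hv0 : r' v = zb⁻¹ • (v - α • u) := by
      have : zb • r' v = v - α • u := by rw [← ha]; abel
      rw [← this, smul_smul, inv_mul_cancel₀ hzb, one_smul]
    have hwu : w (α • u) = α • u' := by rw [map_smul, hw]
    have e1 : C v = z1 • r' v + α • u' + α1 • u := by
      have := hb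
      rw [sub_eq_iff_eq_add] at this
      rw [this]; abel
    have e2 : r (w (r' v)) = zb • w (r' v) + α' • u := by
      have := ha'
      rw [sub_eq_iff_eq_add] at this
      rw [this]; abel
    have e3 : zb • w (r' v) = w v - α • u' := by
      rw [hv0, map_smul, smul_smul, mul_inv_cancel₀ hzb, one_smul, map_sub, hwu]
    refine ⟨α1 + α' - z1 / zb * α, ?_⟩
    simp only [LinearMap.add_apply, LinearMap.sub_apply, Module.End.mul_apply]
    rw [e1, e2, e3, hv0]
    module
  -- the two scalars agree, and the trace kills them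
  have ht : x1 / xb = z1 / zb := by
    rw [hx, hx1]
    field_simp
  set t := z1 / zb with htdef
  set C' := C + (r * w * r' - w) with hC'
  have hn0 : (C' - t • (1 : Module.End k V)) u = 0 := by
    rw [LinearMap.sub_apply, hCu, ht, LinearMap.smul_apply, Module.End.one_apply, sub_self]
  have hn1 : ∀ v, ∃ β : k, (C' - t • (1 : Module.End k V)) v = β • u := by
    intro v
    obtain ⟨β, hβ⟩ := hCv v
    exact ⟨β, by rw [LinearMap.sub_apply, hβ, LinearMap.smul_apply, Module.End.one_apply,
      add_sub_cancel_left]⟩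
  have htr := h14s_trace_nil (C' - t • (1 : Module.End k V)) u hn0 hn1
  have htrC' : LinearMap.trace k V C' = 0 := by
    rw [hC', map_add, map_sub, hC, zero_add, mul_assoc, LinearMap.trace_mul_comm, mul_assoc,
      hr'r, mul_one, sub_self]
  rw [map_sub, htrC', map_smul, LinearMap.trace_one, hfin, zero_sub, neg_eq_zero, smul_eq_mul]
    at htr
  have ht0 : t = 0 := by
    rcases mul_eq_zero.1 htr with h | h
    · exact h
    · exact absurd (by exact_mod_cast h) h2
  refine ⟨?_, fun v => ?_⟩
  · rw [hCu, ht, ht0, zero_smul]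
  · obtain ⟨β, hβ⟩ := hCv v
    exact ⟨β, by rw [hβ, ht0, zero_smul, zero_add]⟩

/-- **the ratio.**  `r` acts on `Hom(V / k u, k u)` by `xb / zb`. -/
lemma h14s_ratio (r r' m : Module.End k V) (hrr' : r * r' = 1)
    (u : V) (xb zb : k) (hzb : zb ≠ 0)
    (h1 : r u = xb • u) (h3 : ∀ v0, ∃ α : k, r v0 - zb • v0 = α • u)
    (hm0 : m u = 0) (hm : ∀ v, ∃ β : k, m v = β • u) :
    r * m * r' = (xb / zb) • m := by
  ext v
  obtain ⟨α, ha⟩ := h3 (r' v)
  have hrv : r (r' v) = v := by rw [← Module.End.mul_apply, hrr', Module.End.one_apply]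
  rw [hrv] at ha
  have hv0 : r' v = zb⁻¹ • (v - α • u) := by
    have : zb • r' v = v - α • u := by rw [← ha]; abel
    rw [← this, smul_smul, inv_mul_cancel₀ hzb, one_smul]
  obtain ⟨β, hβ⟩ := hm v
  have hmv0 : m (r' v) = zb⁻¹ • m v := by
    rw [hv0, map_smul, map_sub, map_smul, hm0, smul_zero, sub_zero]
  simp only [Module.End.mul_apply, LinearMap.smul_apply]
  rw [hmv0, map_smul, hβ, map_smul, h1, smul_smul, smul_smul, smul_smul]
  congr 1
  field_simp

end Fermat.Agent.S56L
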