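import Fermat.Agent.S56L.H14LocBasic
import Fermat.Agent.S56L.H14StrLiftA
import Fermat.Agent.S56L.H14StrLiftB
import Fermat.Agent.PT.Bridge.LocGrpE

/-!
# S56 LOC-STRLIFT (helper14): `h14s_strOfLift : h14l_StrOfLift`

A strict ordinary lift `ρA = (1 + ε c) ρbar` over the dual numbers produces the line `L` of
`ρbar` at `p`, and the local cocycle of `c` lies in `h14l_ZStr ρbar p L`.
-/

set_option autoImplicit false
set_option linter.style.haveILetI false

open ExtCitation TrivSqZeroExt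

noncomputable section

namespace Fermat.Agent.S56L

open Fermat.Agent.PT Fermat.Agent.PT.Bridge

variable {k : Type} [Field k]

/-- the first order data of a strict ordinary lift at one element `σ` of the decomposition
group. -/
theorem h14s_data (p : ℕ) [Fact p.Prime] [CharP k p] (ρbar : ResidualGaloisRep k)
    (ρA : GaloisRepAdic (DualNumber k)) (c : GQ → ↥(h14l_sl ρbar))
    (e : Module.Basis (Fin 2) (DualNumber k) ρA.V) (eb : Module.Basis (Fin 2) k ρbar.V)
    (hM : ∀ (σ : GQ) (i j : Fin 2),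
      LinearMap.toMatrix e e (ρA.ρ σ) i j =
        inl (LinearMap.toMatrix eb eb (ρbar.ρ σ) i j) +
        inr (LinearMap.toMatrix eb eb ((c σ : Module.End k ρbar.V) * ρbar.ρ σ) i j))
    (LA : Submodule (DualNumber k) ρA.V) (b0 : ρA.V) (hLA : LA = (DualNumber k) ∙ b0)
    (σ : GQ) (x z : DualNumber k)
    (hxL : ∀ w ∈ LA, ρA.ρ σ w = x • w) (hzV : ∀ v : ρA.V, ρA.ρ σ v - z • v ∈ LA)
    (hcyc : ∀ (n a : ℕ), (∀ μ : AlgebraicClosure ℚ, μ ^ p ^ n = 1 → σ μ = μ ^ a) →
      x - (a : DualNumber k) * z ∈ Ideal.span {((p ^ n : ℕ) : DualNumber k)}) :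
    ρbar.ρ σ (h14s_red0 e eb b0) = fst x • h14s_red0 e eb b0 ∧
    ρbar.ρ σ (h14s_red1 e eb b0) + (c σ : Module.End k ρbar.V) (ρbar.ρ σ (h14s_red0 e eb b0)) =
      fst x • h14s_red1 e eb b0 + snd x • h14s_red0 e eb b0 ∧
    (∀ v0, ∃ α α1 : k, ρbar.ρ σ v0 - fst z • v0 = α • h14s_red0 e eb b0 ∧
      (c σ : Module.End k ρbar.V) (ρbar.ρ σ v0) - snd z • v0 =
        α • h14s_red1 e eb b0 + α1 • h14s_red0 e eb b0) ∧
    fst x = ZMod.castHom (dvd_refl p) k ((cycloChar p σ : (ZMod p)ˣ) : ZMod p) * fst z ∧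
    snd x = ZMod.castHom (dvd_refl p) k ((cycloChar p σ : (ZMod p)ˣ) : ZMod p) * snd z := by
  have hb0 : b0 ∈ LA := by rw [hLA]; exact Submodule.mem_span_singleton_self b0
  have h0 := h14s_red0_map e eb (ρA.ρ σ) (ρbar.ρ σ) ((c σ : Module.End k ρbar.V) * ρbar.ρ σ)
    (hM σ)
  have h1 := h14s_red1_map e eb (ρA.ρ σ) (ρbar.ρ σ) ((c σ : Module.End k ρbar.V) * ρbar.ρ σ)
    (hM σ)
  refine ⟨?_, ?_, ?_, ?_⟩
  · rw [← h0, hxL b0 hb0, h14s_red0_smul]
  · have := h1 b0
    rw [hxL b0 hb0, h14s_red1_smul, Module.End.mul_apply] at this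
    exact this.symm
  · intro v0
    obtain ⟨v, hv0, hv1⟩ := h14s_exists_lift e eb v0
    have hmem := hzV v
    rw [hLA, Submodule.mem_span_singleton] at hmem
    obtain ⟨a', ha'⟩ := hmem
    refine ⟨fst a', snd a', ?_, ?_⟩
    · have := congrArg (h14s_red0 e eb) ha'
      rw [h14s_red0_smul, h14s_red0_sub, h0, h14s_red0_smul, hv0] at this
      exact this.symm
    · have := congrArg (h14s_red1 e eb) ha'
      rw [h14s_red1_smul, h14s_red1_sub, h1, h14s_red1_smul, hv0, hv1, Module.End.mul_apply]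
        at this
      simp only [map_zero, smul_zero, zero_add] at this
      exact this.symm
  · -- the cyclotomic relation, exactly, because `p = 0` in the dual numbers
    have hspec : ∀ μ : AlgebraicClosure ℚ, μ ^ p ^ 1 = 1 →
        σ μ = μ ^ ((cycloChar p σ : (ZMod p)ˣ) : ZMod p).val := by
      intro μ hμ
      rw [pow_one] at hμ
      exact pt79_cycloChar_spec p σ μ hμ
    have hx := hcyc 1 _ hspec
    have hp0 : ((p ^ 1 : ℕ) : DualNumber k) = 0 := by
      rw [pow_one]
      have : ((p : ℕ) : DualNumber k) = inl ((p : ℕ) : k) := (inl_natCast p).symm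
      rw [this, CharP.cast_eq_zero, inl_zero]
    rw [hp0, Ideal.span_singleton_zero, Ideal.mem_bot, sub_eq_zero] at hx
    have hcast : ∀ a : ℕ, ((a : ℕ) : DualNumber k) = inl ((a : ℕ) : k) :=
      fun a => (inl_natCast a).symm
    have hval : (((((cycloChar p σ : (ZMod p)ˣ) : ZMod p).val : ℕ)) : k) =
        ZMod.castHom (dvd_refl p) k ((cycloChar p σ : (ZMod p)ˣ) : ZMod p) := by
      rw [ZMod.castHom_apply, ZMod.natCast_val]
    rw [hcast] at hx
    constructor
    · have := congrArg fst hx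
      rw [fst_mul, fst_inl, hval] at this
      exact this
    · have := congrArg snd hx
      rw [snd_mul, fst_inl, snd_inl, hval] at this
      simpa using this


/-- a linear functional with value `1` at a nonzero vector. -/
theorem h14s_exists_functional {V : Type} [AddCommGroup V] [Module k V] {u : V} (hu : u ≠ 0) :
    ∃ g : V →ₗ[k] k, g u = 1 := by
  obtain ⟨g, hg⟩ := LinearMap.exists_leftInverse_of_injective
    (LinearMap.toSpanSingleton k V u) (LinearMap.ker_toSpanSingleton k hu)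
  refine ⟨g, ?_⟩
  have := congrArg (fun f => f (1 : k)) hg
  simpa using this

/-- **LOC-STRLIFT** (exact frozen Prop). -/
theorem h14s_strOfLift : h14l_StrOfLift := by
  intro p _ hp2 k _ _ ρbar ρA c pp hpp hcoc hcZ hstr
  haveI : Fact (pp : ℕ).Prime := ⟨pp.2⟩
  have hp : p.Prime := Fact.out
  obtain ⟨e, eb, hM⟩ := hcoc
  have hP : (primeLocalPlace pp).LiesOverPrime p := by
    rw [← hpp]
    exact h23b_padicPlace_liesOver (pp : ℕ)
  obtain ⟨-, hstr'⟩ := hstr
  obtain ⟨LA, ⟨b, hLA⟩, -, hinert, hxz⟩ := hstr' (primeLocalPlace pp) hP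
  have hfin : Module.finrank k ρbar.V = 2 := ρbar.finrank_eq
  have h2 : (2 : k) ≠ 0 := by
    intro h
    have h' : ((2 : ℕ) : k) = 0 := by exact_mod_cast h
    rw [CharP.cast_eq_zero_iff k p] at h'
    exact hp2 ((Nat.prime_dvd_prime_iff_eq hp Nat.prime_two).1 h')
  -- the line
  have hu : h14s_red0 e eb (b 0) ≠ 0 := by
    intro h0
    have hε : (DualNumber.eps : DualNumber k) • b 0 = 0 := by
      apply h14s_eq_zero_of_red e eb
      · rw [h14s_red0_smul, h0, smul_zero]
      · rw [h14s_red1_smul, h0, smul_zero, add_zero]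
        simp [DualNumber.fst_eps]
    have := congrArg (fun v => b.repr v 0) hε
    simp only [map_smul, Module.Basis.repr_self, Finsupp.smul_apply, Finsupp.single_eq_same,
      smul_eq_mul, mul_one, map_zero, Finsupp.zero_apply] at this
    have h1 := congrArg snd this
    simp [DualNumber.snd_eps] at h1
  set u := h14s_red0 e eb (b 0) with hudef
  set u' := h14s_red1 e eb (b 0) with hu'def
  -- the data at every element of the local group
  have hdata : ∀ s : primeLocalGaloisGroup pp, ∃ xb x1 zb z1 : k,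
      ρbar.ρ (primeLocalToGlobal pp s) u = xb • u ∧
      ρbar.ρ (primeLocalToGlobal pp s) u' +
        (c (primeLocalToGlobal pp s) : Module.End k ρbar.V)
          (ρbar.ρ (primeLocalToGlobal pp s) u) = xb • u' + x1 • u ∧
      (∀ v0, ∃ α α1 : k, ρbar.ρ (primeLocalToGlobal pp s) v0 - zb • v0 = α • u ∧
        (c (primeLocalToGlobal pp s) : Module.End k ρbar.V)
          (ρbar.ρ (primeLocalToGlobal pp s) v0) - z1 • v0 = α • u' + α1 • u) ∧
      xb = h14l_locCyc k p pp s * zb ∧ x1 = h14l_locCyc k p pp s * z1 := by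
    intro s
    have hσ : primeLocalToGlobal pp s ∈ (primeLocalPlace pp).decompositionSubgroup ℚ :=
      localGaloisToGlobal_mem_decompositionSubgroup (pp : ℕ) s
    obtain ⟨x, z, hxL, hzV, hcyc⟩ := hxz _ hσ
    obtain ⟨h1, h2', h3, h4, h5⟩ := h14s_data p ρbar ρA c e eb hM LA (b 0) hLA
      (primeLocalToGlobal pp s) x z hxL hzV hcyc
    exact ⟨fst x, snd x, fst z, snd z, h1, h2', h3, h4, h5⟩
  -- the endomorphism `w` with `w u = u'`, made trace free
  obtain ⟨g, hg⟩ := h14s_exists_functional (k := k) hu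
  set w : Module.End k ρbar.V := LinearMap.smulRight g u' with hwdef
  have hwu : w u = u' := by
    rw [hwdef, LinearMap.smulRight_apply, hg, one_smul]
  set w0 : Module.End k ρbar.V :=
    w - ((2 : k)⁻¹ * LinearMap.trace k ρbar.V w) • (1 : Module.End k ρbar.V) with hw0def
  have hw0sl : w0 ∈ h14l_sl ρbar := by
    rw [h14l_mem_sl, hw0def, map_sub, map_smul, LinearMap.trace_one, hfin, smul_eq_mul]
    have : ((2 : ℕ) : k) = 2 := by norm_cast
    rw [this]
    field_simp
    ring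
  have hconj : ∀ σ : GQ, ρbar.ρ σ * w0 * ρbar.ρ σ⁻¹ - w0 = ρbar.ρ σ * w * ρbar.ρ σ⁻¹ - w := by
    intro σ
    rw [hw0def, mul_sub, sub_mul, mul_smul_comm, smul_mul_assoc, mul_one, h14l_rho_mul_inv]
    abel
  -- the modified cocycle takes values in the nilpotent line
  have hcore : ∀ s : primeLocalGaloisGroup pp,
      ((c (primeLocalToGlobal pp s) : Module.End k ρbar.V) +
        (ρbar.ρ (primeLocalToGlobal pp s) * w * ρbar.ρ (primeLocalToGlobal pp s)⁻¹ - w)) u = 0 ∧
      ∀ v, ∃ β : k, ((c (primeLocalToGlobal pp s) : Module.End k ρbar.V) +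
        (ρbar.ρ (primeLocalToGlobal pp s) * w *
          ρbar.ρ (primeLocalToGlobal pp s)⁻¹ - w)) v = β • u := by
    intro s
    obtain ⟨xb, x1, zb, z1, h1, h2', h3, h4, h5⟩ := hdata s
    exact h14s_core hfin h2 _ _ _ w (h14l_rho_mul_inv ρbar _) (h14l_rho_inv_mul ρbar _)
      ((h14l_mem_sl ρbar _).1 (c (primeLocalToGlobal pp s)).2) u u' hu hwu xb x1 zb z1
      (h14l_locCyc k p pp s) h4 h5 h1 h2' h3
  refine ⟨Submodule.span k {u}, ⟨finrank_span_singleton hu, ?_, ?_, ?_⟩, ?_⟩
  · -- stable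
    intro s v hv
    obtain ⟨a, rfl⟩ := Submodule.mem_span_singleton.1 hv
    obtain ⟨xb, x1, zb, z1, h1, -⟩ := hdata s
    change ρbar.ρ (primeLocalToGlobal pp s) (a • u) ∈ _
    rw [map_smul, h1]
    exact Submodule.smul_mem _ _ (Submodule.smul_mem _ _ (Submodule.mem_span_singleton_self u))
  · -- inertia acts trivially on the quotient
    intro s hs v
    obtain ⟨v', hv0, -⟩ := h14s_exists_lift e eb v
    have hmem := hinert _ hs v'
    rw [hLA, Submodule.mem_span_singleton] at hmem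
    obtain ⟨a', ha'⟩ := hmem
    have := congrArg (h14s_red0 e eb) ha'
    rw [h14s_red0_smul, h14s_red0_sub,
      h14s_red0_map e eb (ρA.ρ (primeLocalToGlobal pp s)) (ρbar.ρ (primeLocalToGlobal pp s))
        ((c (primeLocalToGlobal pp s) : Module.End k ρbar.V) * ρbar.ρ (primeLocalToGlobal pp s))
        (hM _), hv0] at this
    change ρbar.ρ (primeLocalToGlobal pp s) v - v ∈ _
    rw [← this]
    exact Submodule.smul_mem _ _ (Submodule.mem_span_singleton_self u)
  · -- the ratio is the cyclotomic character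
    intro s m hm
    obtain ⟨xb, x1, zb, z1, h1, -, h3, h4, -⟩ := hdata s
    obtain ⟨hxb, hzb⟩ := h14s_scalars_ne_zero hfin _ _ (h14l_rho_inv_mul ρbar _)
      (h14l_rho_mul_inv ρbar _) u hu xb zb h1
      (fun v0 => by obtain ⟨α, _, h, _⟩ := h3 v0; exact ⟨α, h⟩)
    have hm0 : (m : Module.End k ρbar.V) u = 0 := hm.2 u (Submodule.mem_span_singleton_self u)
    have hm1 : ∀ v, ∃ β : k, (m : Module.End k ρbar.V) v = β • u := fun v => by
      obtain ⟨β, hβ⟩ := Submodule.mem_span_singleton.1 (hm.1 v)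
      exact ⟨β, hβ.symm⟩
    have hr := h14s_ratio (ρbar.ρ (primeLocalToGlobal pp s))
      (ρbar.ρ (primeLocalToGlobal pp s)⁻¹) (m : Module.End k ρbar.V)
      (h14l_rho_mul_inv ρbar _) u xb zb hzb h1
      (fun v0 => by obtain ⟨α, _, h, _⟩ := h3 v0; exact ⟨α, h⟩) hm0 hm1
    apply Subtype.ext
    change ((h14l_Ad0 ρbar (primeLocalToGlobal pp s) m : ↥(h14l_sl ρbar)) :
      Module.End k ρbar.V) = _
    rw [h14l_Ad0_coe, hr, h4, mul_div_assoc, div_self hzb, mul_one]
    rfl
  · -- the cocycle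
    rw [h14l_ZStr, Submodule.mem_sup]
    refine ⟨fun s => c (primeLocalToGlobal pp s) + d0 (h14l_locAd0 ρbar pp) ⟨w0, hw0sl⟩ s,
      ⟨?_, ?_⟩, - d0 (h14l_locAd0 ρbar pp) ⟨w0, hw0sl⟩, ?_, ?_⟩
    · exact add_mem (h14s_res_mem_Z1 ρbar pp hcZ)
        (h14s_B1_le_Z1 ρbar pp ((mem_B1 _ _).2 ⟨_, rfl⟩))
    · change (fun s => c (primeLocalToGlobal pp s) + d0 (h14l_locAd0 ρbar pp) ⟨w0, hw0sl⟩ s) ∈
        Submodule.pi Set.univ (fun _ => h14l_nil ρbar (Submodule.span k {u}))
      rw [Submodule.mem_pi]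
      intro s _
      have hval : ((c (primeLocalToGlobal pp s) +
          d0 (h14l_locAd0 ρbar pp) ⟨w0, hw0sl⟩ s : ↥(h14l_sl ρbar)) : Module.End k ρbar.V) =
          (c (primeLocalToGlobal pp s) : Module.End k ρbar.V) +
            (ρbar.ρ (primeLocalToGlobal pp s) * w *
              ρbar.ρ (primeLocalToGlobal pp s)⁻¹ - w) := by
        rw [Submodule.coe_add, d0_apply, Submodule.coe_sub, ← hconj]
        congr 2
      obtain ⟨hc0, hc1⟩ := hcore s
      refine ⟨fun v => ?_, fun v hv => ?_⟩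
      · rw [hval]
        obtain ⟨β, hβ⟩ := hc1 v
        rw [hβ]
        exact Submodule.smul_mem _ _ (Submodule.mem_span_singleton_self u)
      · obtain ⟨a, rfl⟩ := Submodule.mem_span_singleton.1 hv
        rw [hval, map_smul, hc0, smul_zero]
    · exact neg_mem ((mem_B1 _ _).2 ⟨_, rfl⟩)
    · funext s
      simp only [Pi.add_apply, Pi.neg_apply]
      abel

end Fermat.Agent.S56L
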