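import Fermat.Agent.S56L.IfaceAbs
import Fermat.Agent.PT.Alg.Tools
import Fermat.Agent.PT.Bridge.Levels

/-!
# S56, block LOC, row LOC-STR-ABS (helper30): `h30s_strAbs : h14l_StrAbs`

`ZStr L = (Z¹ ∩ nil-valued) + B¹`.  In a basis `b` of `V` with `L = k · b 0`:

* `nil L` is the line of the `m` with `m (b 0) = 0`, `m (b 1) ∈ L`; the coordinate
  `φ m = (m (b 1))₀` is injective on it and `G` acts on it through `ω` (`ratio`), so
  `c ↦ φ ∘ c` embeds the nil-valued cocycles into `Z¹(G, k(ω))`;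
* for `m ∈ sl` with `m (b 0) ∈ L` the coboundary `d⁰ m` is nil-valued (the diagonal of `m` is not
  changed by conjugation with the triangular `ρ(s)`), and `sl / {m | m (b 0) ∈ L}` is at most a
  line: `B¹ ⊆ (nil-valued cocycles) + k · d⁰ w₀`.

Hence `dim ZStr L ≤ dim Z¹(G, k(ω)) + 1 ≤ 4`.

Also exported (used by other LOC rows):
* `h30s_exists_level` : a finite level of `G_ℚ` on which `ρbar` is trivial;
* `h30s_isDisc_locAd0` : `ad⁰ ρbar` is discrete on the local group;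
* `h30s_exists_basis` : a basis adapted to a line.
-/

set_option autoImplicit false

open ExtCitation Polynomial

noncomputable section

namespace Fermat.Agent.S56L

open Fermat.Agent.PT

variable {k : Type} [Field k]

/-! ## Discreteness -/

/-- a finite level of `G_ℚ` on which `ρbar` is trivial. -/
theorem h30s_exists_level (ρbar : ResidualGaloisRep k) :
    ∃ N ∈ levFin.sets, ∀ σ ∈ N, ρbar.ρ σ = 1 := by
  obtain ⟨F, hF, h⟩ := ρbar.factorsThroughFiniteLevel
  haveI := hF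
  refine ⟨(pt79_galClosure F).fixingSubgroup,
    ⟨pt79_galClosure F, pt79_galClosure_finiteDimensional F, pt79_galClosure_normal F, rfl⟩,
    fun σ hσ => h σ fun x hx => ?_⟩
  exact (IntermediateField.mem_fixingSubgroup_iff _ _).1 hσ x (pt79_le_galClosure F hx)

theorem h30s_locAd0_coe (ρbar : ResidualGaloisRep k) (q : Nat.Primes)
    (s : primeLocalGaloisGroup q) (m : ↥(h14l_sl ρbar)) :
    ((h14l_locAd0 ρbar q s m : ↥(h14l_sl ρbar)) : Module.End k ρbar.V) =
      h14l_locRho ρbar q s * (m : Module.End k ρbar.V) * h14l_locRho ρbar q s⁻¹ := by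
  show ((h14l_Ad0 ρbar (primeLocalToGlobal q s) m : ↥(h14l_sl ρbar)) : Module.End k ρbar.V) = _
  rw [h14l_Ad0_coe]
  show _ = ρbar.ρ (primeLocalToGlobal q s) * _ * ρbar.ρ (primeLocalToGlobal q s⁻¹)
  rw [map_inv (primeLocalToGlobal q) s]

/-- `ad⁰ ρbar` is discrete on the local group at `q`. -/
theorem h30s_isDisc_locAd0 (ρbar : ResidualGaloisRep k) (q : Nat.Primes) :
    IsDisc (h14l_lev q) (h14l_locAd0 ρbar q) := by
  obtain ⟨N, hN, h⟩ := h30s_exists_level ρbar
  intro v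
  refine ⟨N.comap (primeLocalToGlobal q), ⟨N, hN, rfl⟩, fun s hs => ?_⟩
  have h1 : ρbar.ρ (primeLocalToGlobal q s) = 1 := h _ hs
  have h2 : ρbar.ρ (primeLocalToGlobal q s)⁻¹ = 1 := by
    have := h14l_rho_inv_mul ρbar (primeLocalToGlobal q s)
    rwa [h1, mul_one] at this
  apply Subtype.ext
  show ((h14l_Ad0 ρbar (primeLocalToGlobal q s) v : ↥(h14l_sl ρbar)) : Module.End k ρbar.V) = v
  rw [h14l_Ad0_coe, h1, h2, one_mul, mul_one]

/-! ## A basis adapted to a line -/

/-- a basis `b` of `V` such that `L` is the line `{v | v₁ = 0}` spanned by `b 0`. -/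
theorem h30s_exists_basis (ρbar : ResidualGaloisRep k) (L : Submodule k ρbar.V)
    (hL : Module.finrank k L = 1) :
    ∃ b : Module.Basis (Fin 2) k ρbar.V, ∀ v : ρbar.V, v ∈ L ↔ b.repr v 1 = 0 := by
  obtain ⟨⟨e0, he0L⟩, he0, hspan⟩ := finrank_eq_one_iff'.1 hL
  have he0' : e0 ≠ 0 := fun h => he0 (Subtype.ext h)
  have hLtop : L ≠ ⊤ := by
    intro h
    have h2 : Module.finrank k (⊤ : Submodule k ρbar.V) = 2 := by
      rw [finrank_top, ρbar.finrank_eq]
    rw [← h, hL] at h2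
    exact absurd h2 (by norm_num)
  obtain ⟨e1, -, he1⟩ := SetLike.exists_of_lt (lt_top_iff_ne_top.2 hLtop)
  have hli : LinearIndependent k ![e0, e1] := by
    rw [LinearIndependent.pair_iff]
    intro s t hst
    have ht : t = 0 := by
      by_contra ht
      apply he1
      have : e1 = (-(t⁻¹ * s)) • e0 := by
        have h1 : t • e1 = -(s • e0) := by
          rw [eq_neg_iff_add_eq_zero, add_comm]
          exact hst
        calc e1 = t⁻¹ • (t • e1) := by rw [smul_smul, inv_mul_cancel₀ ht, one_smul]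
          _ = (-(t⁻¹ * s)) • e0 := by rw [h1, smul_neg, smul_smul, neg_smul]
      rw [this]
      exact L.smul_mem _ he0L
    refine ⟨?_, ht⟩
    rw [ht, zero_smul, add_zero] at hst
    exact (smul_eq_zero.1 hst).resolve_right he0'
  have hcard : Fintype.card (Fin 2) = Module.finrank k ρbar.V := by
    rw [ρbar.finrank_eq, Fintype.card_fin]
  let b : Module.Basis (Fin 2) k ρbar.V := basisOfLinearIndependentOfCardEqFinrank hli hcard
  have hb : ⇑b = ![e0, e1] := coe_basisOfLinearIndependentOfCardEqFinrank hli hcard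
  have hb0 : b 0 = e0 := by rw [hb]; rfl
  refine ⟨b, fun v => ⟨fun hv => ?_, fun hv => ?_⟩⟩
  · obtain ⟨c, hc⟩ := hspan ⟨v, hv⟩
    have hc' : v = c • b 0 := by
      rw [hb0]
      exact (congrArg Subtype.val hc).symm
    rw [hc', map_smul, Module.Basis.repr_self]
    simp
  · have h := b.sum_repr v
    rw [Fin.sum_univ_two, hv, zero_smul, add_zero, hb0] at h
    rw [← h]
    exact L.smul_mem _ he0L

section Line

variable {ρbar : ResidualGaloisRep k} {L : Submodule k ρbar.V}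
  (b : Module.Basis (Fin 2) k ρbar.V) (hb : ∀ v : ρbar.V, v ∈ L ↔ b.repr v 1 = 0)

include hb

theorem h30s_b0_mem : b 0 ∈ L := by
  rw [hb, Module.Basis.repr_self]
  simp

theorem h30s_eq_smul_of_mem {v : ρbar.V} (hv : v ∈ L) : v = b.repr v 0 • b 0 := by
  have h := b.sum_repr v
  rw [Fin.sum_univ_two, (hb v).1 hv, zero_smul, add_zero] at h
  exact h.symm

omit hb in
theorem h30s_trace (m : Module.End k ρbar.V) :
    LinearMap.trace k ρbar.V m = b.repr (m (b 0)) 0 + b.repr (m (b 1)) 1 := by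
  rw [LinearMap.trace_eq_matrix_trace k b m, Matrix.trace_fin_two, LinearMap.toMatrix_apply,
    LinearMap.toMatrix_apply]

/-- criterion for membership in the nilpotent line. -/
theorem h30s_mem_nil_of (m : ↥(h14l_sl ρbar))
    (h0 : (m : Module.End k ρbar.V) (b 0) = 0)
    (h1 : b.repr ((m : Module.End k ρbar.V) (b 1)) 1 = 0) : m ∈ h14l_nil ρbar L := by
  refine ⟨fun v => ?_, fun v hv => ?_⟩
  · rw [hb]
    have h := b.sum_repr v
    rw [Fin.sum_univ_two] at h
    rw [← h, map_add, map_smul, map_smul, h0, smul_zero, zero_add, map_smul]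
    simp [h1]
  · rw [h30s_eq_smul_of_mem b hb hv, map_smul, h0, smul_zero]

theorem h30s_nil_b0 {m : ↥(h14l_sl ρbar)} (hm : m ∈ h14l_nil ρbar L) :
    (m : Module.End k ρbar.V) (b 0) = 0 :=
  hm.2 _ (h30s_b0_mem b hb)

theorem h30s_nil_b1 {m : ↥(h14l_sl ρbar)} (hm : m ∈ h14l_nil ρbar L) :
    (m : Module.End k ρbar.V) (b 1) = b.repr ((m : Module.End k ρbar.V) (b 1)) 0 • b 0 :=
  h30s_eq_smul_of_mem b hb (hm.1 _)

/-- the coordinate `m ↦ (m (b 1))₀` is injective on the nilpotent line. -/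
theorem h30s_nil_eq_zero {m : ↥(h14l_sl ρbar)} (hm : m ∈ h14l_nil ρbar L)
    (h : b.repr ((m : Module.End k ρbar.V) (b 1)) 0 = 0) : m = 0 := by
  apply Subtype.ext
  apply b.ext
  intro i
  fin_cases i
  · simpa using h30s_nil_b0 b hb hm
  · have := h30s_nil_b1 b hb hm
    rw [h, zero_smul] at this
    simpa using this

/-- two trace zero endomorphisms with the same eigenvalue on `b 0` differ by an element of the
nilpotent line. -/
theorem h30s_sub_mem_nil (m₁ m₂ : ↥(h14l_sl ρbar)) (α : k)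
    (h₁ : (m₁ : Module.End k ρbar.V) (b 0) = α • b 0)
    (h₂ : (m₂ : Module.End k ρbar.V) (b 0) = α • b 0) : m₁ - m₂ ∈ h14l_nil ρbar L := by
  have t₁ : b.repr ((m₁ : Module.End k ρbar.V) (b 1)) 1 = -α := by
    have h := h30s_trace b (m₁ : Module.End k ρbar.V)
    rw [(h14l_mem_sl ρbar _).1 m₁.2, h₁, map_smul, Module.Basis.repr_self] at h
    simp at h
    linear_combination -h
  have t₂ : b.repr ((m₂ : Module.End k ρbar.V) (b 1)) 1 = -α := by
    have h := h30s_trace b (m₂ : Module.End k ρbar.V)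
    rw [(h14l_mem_sl ρbar _).1 m₂.2, h₂, map_smul, Module.Basis.repr_self] at h
    simp at h
    linear_combination -h
  apply h30s_mem_nil_of b hb
  · rw [Submodule.coe_sub, LinearMap.sub_apply, h₁, h₂, sub_self]
  · rw [Submodule.coe_sub, LinearMap.sub_apply, map_sub, Finsupp.sub_apply, t₁, t₂, sub_self]

end Line

/-! ## The two coordinates -/

/-- the coordinate `m ↦ (m (b j))ᵢ` on the trace zero endomorphisms. -/
def h30s_coord (ρbar : ResidualGaloisRep k) (b : Module.Basis (Fin 2) k ρbar.V) (i j : Fin 2) :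
    ↥(h14l_sl ρbar) →ₗ[k] k where
  toFun m := b.repr ((m : Module.End k ρbar.V) (b j)) i
  map_add' m m' := by
    rw [Submodule.coe_add, LinearMap.add_apply, map_add, Finsupp.add_apply]
  map_smul' a m := by
    rw [Submodule.coe_smul, LinearMap.smul_apply, map_smul, Finsupp.smul_apply, RingHom.id_apply]

@[simp] theorem h30s_coord_apply (ρbar : ResidualGaloisRep k)
    (b : Module.Basis (Fin 2) k ρbar.V) (i j : Fin 2) (m : ↥(h14l_sl ρbar)) :
    h30s_coord ρbar b i j m = b.repr ((m : Module.End k ρbar.V) (b j)) i := rfl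


/-! ## The nil-valued cocycles -/

section Main

variable {p : ℕ} [Fact p.Prime] [CharP k p] {ρbar : ResidualGaloisRep k} {pp : Nat.Primes}
  {L : Submodule k ρbar.V}

/-- the nil-valued continuous cocycles. -/
def h30s_P (ρbar : ResidualGaloisRep k) (pp : Nat.Primes) (L : Submodule k ρbar.V) :
    Submodule k (primeLocalGaloisGroup pp → ↥(h14l_sl ρbar)) :=
  Z1 (h14l_lev pp) (h14l_locAd0 ρbar pp) ⊓ Submodule.pi Set.univ (fun _ => h14l_nil ρbar L)

theorem h30s_ZStr_eq (ρbar : ResidualGaloisRep k) (pp : Nat.Primes) (L : Submodule k ρbar.V) :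
    h14l_ZStr ρbar pp L = h30s_P ρbar pp L ⊔ B1 (h14l_locAd0 ρbar pp) := rfl

theorem h30s_mem_P {c : primeLocalGaloisGroup pp → ↥(h14l_sl ρbar)} :
    c ∈ h30s_P ρbar pp L ↔
      c ∈ Z1 (h14l_lev pp) (h14l_locAd0 ρbar pp) ∧ ∀ s, c s ∈ h14l_nil ρbar L := by
  rw [h30s_P, Submodule.mem_inf, Submodule.mem_pi]
  simp

/-- a nil-valued cocycle composed with a linear form on the nilpotent line is a cocycle with
values in `k(ω)`. -/
theorem h30s_comp_mem_Z1 (hL : h14l_StrLine p ρbar pp L) (φ : ↥(h14l_sl ρbar) →ₗ[k] k)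
    {c : primeLocalGaloisGroup pp → ↥(h14l_sl ρbar)} (hc : c ∈ h30s_P ρbar pp L) :
    φ.compLeft (primeLocalGaloisGroup pp) c ∈ Z1 (h14l_lev pp) (h14l_cycRep k p pp) := by
  obtain ⟨hcZ, hcn⟩ := h30s_mem_P.1 hc
  obtain ⟨hd, hlc⟩ := (mem_Z1 _ _ _).1 hcZ
  refine (mem_Z1 _ _ _).2 ⟨?_, hlc.comp φ⟩
  funext ⟨g, h⟩
  have h1 := congrFun hd (g, h)
  rw [d1_apply, hL.ratio g (c h) (hcn h)] at h1
  have h2 := congrArg φ h1
  rw [Pi.zero_apply, map_zero, map_add, map_sub, map_smul] at h2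
  rw [d1_apply, Pi.zero_apply]
  show h14l_cycRep k p pp g (φ (c h)) - φ (c (g * h)) + φ (c g) = 0
  rw [← h2]
  rfl

/-- the embedding of the nil-valued cocycles into `Z¹(G, k(ω))`. -/
def h30s_toCyc (hL : h14l_StrLine p ρbar pp L) (φ : ↥(h14l_sl ρbar) →ₗ[k] k) :
    ↥(h30s_P ρbar pp L) →ₗ[k] ↥(Z1 (h14l_lev pp) (h14l_cycRep k p pp)) :=
  ((φ.compLeft (primeLocalGaloisGroup pp)).domRestrict (h30s_P ρbar pp L)).codRestrict _
    (fun c => h30s_comp_mem_Z1 hL φ c.2)

theorem h30s_toCyc_injective (hL : h14l_StrLine p ρbar pp L)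
    (b : Module.Basis (Fin 2) k ρbar.V) (hb : ∀ v : ρbar.V, v ∈ L ↔ b.repr v 1 = 0) :
    Function.Injective (h30s_toCyc hL (h30s_coord ρbar b 0 1)) := by
  refine (injective_iff_map_eq_zero _).2 fun c hc => ?_
  have h1 : (h30s_coord ρbar b 0 1).compLeft (primeLocalGaloisGroup pp)
      (c : primeLocalGaloisGroup pp → ↥(h14l_sl ρbar)) = 0 := congrArg Subtype.val hc
  obtain ⟨-, hcn⟩ := h30s_mem_P.1 c.2
  apply Subtype.ext
  funext s
  have h2 := congrFun h1 s
  exact h30s_nil_eq_zero b hb (hcn s) h2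

/-- for `m` with `m (b 0) ∈ L` the coboundary `d⁰ m` is a nil-valued cocycle. -/
theorem h30s_d0_mem_P (hL : h14l_StrLine p ρbar pp L)
    (b : Module.Basis (Fin 2) k ρbar.V) (hb : ∀ v : ρbar.V, v ∈ L ↔ b.repr v 1 = 0)
    (m : ↥(h14l_sl ρbar)) (hm : h30s_coord ρbar b 1 0 m = 0) :
    d0 (h14l_locAd0 ρbar pp) m ∈ h30s_P ρbar pp L := by
  refine h30s_mem_P.2 ⟨Tools.B1_le_Z1 (h30s_isDisc_locAd0 ρbar pp) ⟨m, rfl⟩, fun s => ?_⟩
  rw [d0_apply]
  have hmL : (m : Module.End k ρbar.V) (b 0) ∈ L := (hb _).2 hm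
  obtain ⟨α, hα⟩ : ∃ α : k, (m : Module.End k ρbar.V) (b 0) = α • b 0 :=
    ⟨_, h30s_eq_smul_of_mem b hb hmL⟩
  have hinvL : h14l_locRho ρbar pp s⁻¹ (b 0) ∈ L := hL.stable s⁻¹ _ (h30s_b0_mem b hb)
  obtain ⟨a', ha'⟩ : ∃ a' : k, h14l_locRho ρbar pp s⁻¹ (b 0) = a' • b 0 :=
    ⟨_, h30s_eq_smul_of_mem b hb hinvL⟩
  have h4 : h14l_locRho ρbar pp s (h14l_locRho ρbar pp s⁻¹ (b 0)) = b 0 := by
    have : h14l_locRho ρbar pp s * h14l_locRho ρbar pp s⁻¹ = 1 := by
      rw [← map_mul, mul_inv_cancel, map_one]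
    exact congrArg (fun T : Module.End k ρbar.V => T (b 0)) this
  refine h30s_sub_mem_nil b hb _ m α ?_ hα
  rw [h30s_locAd0_coe]
  show h14l_locRho ρbar pp s ((m : Module.End k ρbar.V) (h14l_locRho ρbar pp s⁻¹ (b 0))) = _
  rw [ha', map_smul, hα, smul_comm, map_smul, ← ha', h4]

/-- **LOC-STR-ABS.** -/
theorem h30s_strAbs : h14l_StrAbs := by
  intro p _ _ k _ _ _ ρbar pp L hL hKum
  obtain ⟨f₃, hf₃⟩ := hKum
  obtain ⟨b, hb⟩ := h30s_exists_basis ρbar L hL.finrank_eq
  -- the nil-valued cocycles have dimension `≤ 3`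
  have hinj : Function.Injective (f₃ ∘ₗ h30s_toCyc hL (h30s_coord ρbar b 0 1)) :=
    hf₃.comp (h30s_toCyc_injective hL b hb)
  haveI hPfin : Module.Finite k ↥(h30s_P ρbar pp L) := Module.Finite.of_injective _ hinj
  have hP3 : Module.finrank k ↥(h30s_P ρbar pp L) ≤ 3 := by
    have := LinearMap.finrank_le_finrank_of_injective hinj
    rwa [Module.finrank_fin_fun] at this
  -- `B¹ ⊆ P + k · x`
  obtain ⟨x, hx⟩ : ∃ x : primeLocalGaloisGroup pp → ↥(h14l_sl ρbar),
      B1 (h14l_locAd0 ρbar pp) ≤ h30s_P ρbar pp L ⊔ Submodule.span k {x} := by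
    by_cases hψ : ∃ w₀ : ↥(h14l_sl ρbar), h30s_coord ρbar b 1 0 w₀ ≠ 0
    · obtain ⟨w₀, hw₀⟩ := hψ
      refine ⟨d0 (h14l_locAd0 ρbar pp) w₀, ?_⟩
      rintro _ ⟨m, rfl⟩
      set t : k := h30s_coord ρbar b 1 0 m / h30s_coord ρbar b 1 0 w₀ with ht
      have hm' : h30s_coord ρbar b 1 0 (m - t • w₀) = 0 := by
        rw [map_sub, map_smul, smul_eq_mul, ht, div_mul_cancel₀ _ hw₀, sub_self]
      have hsplit : d0 (h14l_locAd0 ρbar pp) m =
          d0 (h14l_locAd0 ρbar pp) (m - t • w₀) + t • d0 (h14l_locAd0 ρbar pp) w₀ := by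
        rw [← map_smul, ← map_add, sub_add_cancel]
      rw [hsplit]
      exact Submodule.add_mem_sup (h30s_d0_mem_P hL b hb _ hm')
        (Submodule.smul_mem _ _ (Submodule.mem_span_singleton_self _))
    · have hψ : ∀ w₀ : ↥(h14l_sl ρbar), h30s_coord ρbar b 1 0 w₀ = 0 := fun w₀ =>
        by_contra fun h => hψ ⟨w₀, h⟩
      refine ⟨0, ?_⟩
      rintro _ ⟨m, rfl⟩
      exact Submodule.mem_sup_left (h30s_d0_mem_P hL b hb m (hψ m))
  have hle : h14l_ZStr ρbar pp L ≤ h30s_P ρbar pp L ⊔ Submodule.span k {x} := by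
    rw [h30s_ZStr_eq]
    exact sup_le le_sup_left hx
  haveI : Module.Finite k ↥(Submodule.span k {x}) := Module.Finite.span_singleton k x
  haveI hQfin : Module.Finite k ↥(h30s_P ρbar pp L ⊔ Submodule.span k {x}) :=
    Submodule.finite_sup _ _
  haveI : Module.Finite k ↥(h14l_ZStr ρbar pp L) := Submodule.finiteDimensional_of_le hle
  have h1 : Module.finrank k ↥(h14l_ZStr ρbar pp L) ≤ 4 := by
    calc Module.finrank k ↥(h14l_ZStr ρbar pp L)
        ≤ Module.finrank k ↥(h30s_P ρbar pp L ⊔ Submodule.span k {x}) :=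
          Submodule.finrank_mono hle
      _ ≤ Module.finrank k ↥(h30s_P ρbar pp L) + Module.finrank k ↥(Submodule.span k {x}) :=
          Submodule.finrank_add_le_finrank_add_finrank _ _
      _ ≤ 3 + 1 := Nat.add_le_add hP3
          ((finrank_span_le_card ({x} : Set _)).trans (by simp))
  have h2 : Module.finrank k ↥(h14l_ZStr ρbar pp L) ≤ Module.finrank k (Fin 4 → k) := by
    rw [Module.finrank_fin_fun]
    exact h1
  haveI : Module.Free k ↥(h14l_ZStr ρbar pp L) :=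
    Module.Free.of_divisionRing k ↥(h14l_ZStr ρbar pp L)
  exact finrank_le_iff_exists_linearMap.1 h2

end Main

end Fermat.Agent.S56L
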