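import Fermat.Agent.S56L.H30StrAbs
import Fermat.Agent.PT.Bridge.Inertia

/-!
# S56, block LOC, row LOC-UNIP-TRI (helper30): `h30t_unipTri : h14l_UnipTri`

`ρbar` unipotent and ramified on the inertia group `I` at `q`:

* (Kolchin in dimension two) for `s₀ ∈ I` with `ρ(s₀) ≠ 1`, `N₀ = ρ(s₀) - 1`, choose `e 1` with
  `N₀ (e 1) ≠ 0` and `e 0 = N₀ (e 1)`; then every `ρ(s)`, `s ∈ I`, is `[[1, b], [0, 1]]` in the
  basis `e` (`tr ρ(s) = 2 = tr ρ(s₀ s)`, `det ρ(s) = 1`);
* `I` is normal in the local group (`h30t_inert_normal`), so the line `k · e 0` (the fixed space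
  of `ρ(s₀)`) is stable: `ρ` is triangular;
* `Γ₀` = the kernel of the two diagonal characters `G → kˣ × kˣ`: normal, open, contains `I`,
  of index dividing `(#k - 1)²`, prime to `p`.
-/

set_option autoImplicit false

open ExtCitation Polynomial

noncomputable section

namespace Fermat.Agent.S56L

open Fermat.Agent.PT Fermat.Agent.PT.Bridge

variable {k : Type} [Field k]

/-! ## The inertia group is normal in the local group -/

theorem h30t_inert_normal_aux (q : ℕ) [Fact q.Prime]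
    (s g : PadicAlgCl q ≃ₐ[ℚ_[q]] PadicAlgCl q)
    (hs : localGaloisToGlobal q s ∈ (padicPlace q).inertiaSubgroupIn ℚ) :
    localGaloisToGlobal q (g * s * g⁻¹) ∈ (padicPlace q).inertiaSubgroupIn ℚ := by
  rw [h23b_mem_inertia_iff] at hs ⊢
  intro w m hm hnd hw
  have h1 : (g⁻¹ w) ^ m = 1 := by rw [← map_pow, hw, map_one]
  have h2 := hs _ m hm hnd h1
  show g (s (g⁻¹ w)) = w
  rw [h2]
  exact AlgEquiv.apply_symm_apply g w

theorem h30t_inert_normal (q : Nat.Primes) : (h14l_inert q).Normal := by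
  haveI : Fact (q : ℕ).Prime := ⟨q.2⟩
  exact ⟨fun s hs g => h30t_inert_normal_aux (q : ℕ) s g hs⟩

/-! ## Linear algebra in dimension two -/

section LinAlg

variable {V : Type} [AddCommGroup V] [Module k V] [Module.Finite k V]
  (e : Module.Basis (Fin 2) k V)

theorem h30t_expand (v : V) : v = e.repr v 0 • e 0 + e.repr v 1 • e 1 := by
  have h := e.sum_repr v
  rw [Fin.sum_univ_two] at h
  exact h.symm

theorem h30t_repr_comb (a b : k) :
    e.repr (a • e 0 + b • e 1) 0 = a ∧ e.repr (a • e 0 + b • e 1) 1 = b := by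
  constructor <;> simp [Module.Basis.repr_self]

/-- trace and determinant of an endomorphism with characteristic polynomial `(X - 1)²`. -/
theorem h30t_trace_det (f : Module.End k V) (hf : LinearMap.charpoly f = ((X : k[X]) - 1) ^ 2) :
    e.repr (f (e 0)) 0 + e.repr (f (e 1)) 1 = 2 ∧
      e.repr (f (e 0)) 0 * e.repr (f (e 1)) 1 - e.repr (f (e 1)) 0 * e.repr (f (e 0)) 1 = 1 := by
  have h := LinearMap.charpoly_toMatrix f e
  rw [Matrix.charpoly_fin_two, hf, Matrix.trace_fin_two, Matrix.det_fin_two] at h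
  simp only [LinearMap.toMatrix_apply] at h
  have h0 := congrArg (Polynomial.eval 0) h
  have h1 := congrArg (Polynomial.eval 1) h
  simp at h0 h1
  constructor
  · linear_combination h0 - h1
  · linear_combination h0


/-- **Kolchin in dimension two.**  If `f₀ (e 0) = e 0`, `f₀ (e 1) = e 1 + e 0` and `f`, `f₀ * f`
both have characteristic polynomial `(X - 1)²`, then `f (e 0) = e 0` and
`f (e 1) = e 1 + b • e 0`. -/
theorem h30t_kolchin (f₀ f : Module.End k V) (h00 : f₀ (e 0) = e 0) (h01 : f₀ (e 1) = e 1 + e 0)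
    (hf : LinearMap.charpoly f = ((X : k[X]) - 1) ^ 2)
    (hff : LinearMap.charpoly (f₀ * f) = ((X : k[X]) - 1) ^ 2) :
    f (e 0) = e 0 ∧ ∃ b : k, f (e 1) = e 1 + b • e 0 := by
  obtain ⟨ht, hd⟩ := h30t_trace_det e f hf
  obtain ⟨ht', -⟩ := h30t_trace_det e (f₀ * f) hff
  set m00 := e.repr (f (e 0)) 0 with hm00
  set m10 := e.repr (f (e 0)) 1 with hm10
  set m01 := e.repr (f (e 1)) 0 with hm01
  set m11 := e.repr (f (e 1)) 1 with hm11
  have hfe0 : f (e 0) = m00 • e 0 + m10 • e 1 := h30t_expand e _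
  have hfe1 : f (e 1) = m01 • e 0 + m11 • e 1 := h30t_expand e _
  have c0 : (f₀ * f) (e 0) = (m00 + m10) • e 0 + m10 • e 1 := by
    rw [Module.End.mul_apply, hfe0, map_add, map_smul, map_smul, h00, h01, smul_add, add_smul]
    abel
  have c1 : (f₀ * f) (e 1) = (m01 + m11) • e 0 + m11 • e 1 := by
    rw [Module.End.mul_apply, hfe1, map_add, map_smul, map_smul, h00, h01, smul_add, add_smul]
    abel
  rw [c0, c1, (h30t_repr_comb e _ _).1, (h30t_repr_comb e _ _).2] at ht'
  have h10 : m10 = 0 := by linear_combination ht' - ht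
  rw [h10, mul_zero, sub_zero] at hd
  have hsq : (m00 - 1) * (m00 - 1) = 0 := by linear_combination m00 * ht - hd
  have h00' : m00 = 1 := by
    have := mul_self_eq_zero.1 hsq
    linear_combination this
  have h11 : m11 = 1 := by
    rw [h00'] at ht
    linear_combination ht
  refine ⟨?_, m01, ?_⟩
  · rw [hfe0, h00', h10, one_smul, zero_smul, add_zero]
  · rw [hfe1, h11, one_smul, add_comm]

end LinAlg

/-! ## The triangular form -/

section Tri

variable {p : ℕ} [Fact p.Prime] [Finite k] [CharP k p] (ρbar : ResidualGaloisRep k)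
  (q : Nat.Primes)

/-- the basis of Kolchin's lemma. -/
theorem h30t_exists_basis
    (hunip : ∀ s ∈ h14l_inert q,
      LinearMap.charpoly (h14l_locRho ρbar q s) = ((X : k[X]) - 1) ^ 2)
    (hram : ∃ s ∈ h14l_inert q, h14l_locRho ρbar q s ≠ 1) :
    ∃ (e : Module.Basis (Fin 2) k ρbar.V) (s₀ : primeLocalGaloisGroup q), s₀ ∈ h14l_inert q ∧
      h14l_locRho ρbar q s₀ (e 0) = e 0 ∧ h14l_locRho ρbar q s₀ (e 1) = e 1 + e 0 := by
  obtain ⟨s₀, hs₀, hne⟩ := hram
  set f₀ := h14l_locRho ρbar q s₀ with hf₀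
  -- `(f₀ - 1)² = 0`
  have hCH : (f₀ - 1) * (f₀ - 1) = 0 := by
    have h := LinearMap.aeval_self_charpoly f₀
    rw [hunip s₀ hs₀] at h
    simpa [pow_two] using h
  obtain ⟨v, hv⟩ : ∃ v, (f₀ - 1) v ≠ 0 := by
    by_contra h
    push Not at h
    apply hne
    have : f₀ - 1 = 0 := LinearMap.ext h
    exact sub_eq_zero.1 this
  set e0 := (f₀ - 1) v with he0
  have hN0 : (f₀ - 1) e0 = 0 := by
    have h : ((f₀ - 1) * (f₀ - 1)) v = 0 := by rw [hCH]; rfl
    exact h
  have hli : LinearIndependent k ![e0, v] := by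
    rw [LinearIndependent.pair_iff]
    intro a b hab
    have h1 : (f₀ - (1 : Module.End k ρbar.V)) (a • e0 + b • v) =
        (f₀ - (1 : Module.End k ρbar.V)) 0 := by rw [hab]
    rw [map_add, map_smul, map_smul, hN0, smul_zero, zero_add, map_zero, ← he0] at h1
    have hb : b = 0 := (smul_eq_zero.1 h1).resolve_right hv
    rw [hb, zero_smul, add_zero] at hab
    exact ⟨(smul_eq_zero.1 hab).resolve_right hv, hb⟩
  have hcard : Fintype.card (Fin 2) = Module.finrank k ρbar.V := by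
    rw [ρbar.finrank_eq, Fintype.card_fin]
  let e : Module.Basis (Fin 2) k ρbar.V := basisOfLinearIndependentOfCardEqFinrank hli hcard
  have he : ⇑e = ![e0, v] := coe_basisOfLinearIndependentOfCardEqFinrank hli hcard
  have hb0 : e 0 = e0 := by rw [he]; rfl
  have hb1 : e 1 = v := by rw [he]; rfl
  refine ⟨e, s₀, hs₀, ?_, ?_⟩
  · rw [hb0]
    have := hN0
    rw [LinearMap.sub_apply, Module.End.one_apply, sub_eq_zero] at this
    exact this
  · rw [hb0, hb1, he0, LinearMap.sub_apply, Module.End.one_apply]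
    abel


/-- the line `k · e 0` is stable under the local group. -/
theorem h30t_tri
    (hunip : ∀ s ∈ h14l_inert q,
      LinearMap.charpoly (h14l_locRho ρbar q s) = ((X : k[X]) - 1) ^ 2)
    (e : Module.Basis (Fin 2) k ρbar.V) (s₀ : primeLocalGaloisGroup q)
    (hs₀ : s₀ ∈ h14l_inert q) (h00 : h14l_locRho ρbar q s₀ (e 0) = e 0)
    (h01 : h14l_locRho ρbar q s₀ (e 1) = e 1 + e 0) (g : primeLocalGaloisGroup q) :
    e.repr (h14l_locRho ρbar q g (e 0)) 1 = 0 := by
  have hs' : g⁻¹ * s₀ * g ∈ h14l_inert q := by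
    have := (h30t_inert_normal q).conj_mem s₀ hs₀ g⁻¹
    rwa [inv_inv] at this
  have hprod : LinearMap.charpoly
      (h14l_locRho ρbar q s₀ * h14l_locRho ρbar q (g⁻¹ * s₀ * g)) = ((X : k[X]) - 1) ^ 2 := by
    rw [← map_mul]
    exact hunip _ ((h14l_inert q).mul_mem hs₀ hs')
  obtain ⟨hfix, -⟩ := h30t_kolchin e _ _ h00 h01 (hunip _ hs') hprod
  -- `ρ(s₀) (ρ(g) e0) = ρ(g) e0`
  have h1 : h14l_locRho ρbar q s₀ (h14l_locRho ρbar q g (e 0)) = h14l_locRho ρbar q g (e 0) := by
    have h2 := congrArg (h14l_locRho ρbar q g) hfix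
    rw [← Module.End.mul_apply, ← map_mul] at h2
    have e1 : g * (g⁻¹ * s₀ * g) = s₀ * g := by group
    rw [e1, map_mul, Module.End.mul_apply] at h2
    exact h2
  obtain ⟨w, hw⟩ : ∃ w, w = h14l_locRho ρbar q g (e 0) := ⟨_, rfl⟩
  rw [← hw] at h1 ⊢
  obtain ⟨w0, w1, hw', hw1⟩ : ∃ w0 w1 : k, w = w0 • e 0 + w1 • e 1 ∧ e.repr w 1 = w1 :=
    ⟨_, _, h30t_expand e w, rfl⟩
  have h3 : h14l_locRho ρbar q s₀ w = w + w1 • e 0 := by
    rw [hw', map_add, map_smul, map_smul, h00, h01, smul_add]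
    abel
  rw [h1] at h3
  have h4 : w1 • e 0 = 0 := by
    have := h3.symm
    rwa [add_eq_left] at this
  rw [hw1]
  exact (smul_eq_zero.1 h4).resolve_right (e.ne_zero 0)

end Tri

/-! ## The diagonal characters -/

section Chi

variable (ρbar : ResidualGaloisRep k) (q : Nat.Primes) (e : Module.Basis (Fin 2) k ρbar.V)
  (htri : ∀ g : primeLocalGaloisGroup q, e.repr (h14l_locRho ρbar q g (e 0)) 1 = 0)

include htri

theorem h30t_rho_e0 (g : primeLocalGaloisGroup q) :
    h14l_locRho ρbar q g (e 0) = e.repr (h14l_locRho ρbar q g (e 0)) 0 • e 0 := by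
  have h := h30t_expand e (h14l_locRho ρbar q g (e 0))
  rw [htri g, zero_smul, add_zero] at h
  exact h

/-- the character on the line `k · e 0`. -/
def h30t_chi1 : primeLocalGaloisGroup q →* k where
  toFun g := e.repr (h14l_locRho ρbar q g (e 0)) 0
  map_one' := by
    rw [map_one (h14l_locRho ρbar q), Module.End.one_apply, Module.Basis.repr_self]
    simp
  map_mul' g h := by
    obtain ⟨a, ha, ha'⟩ : ∃ a : k, h14l_locRho ρbar q h (e 0) = a • e 0 ∧
        e.repr (h14l_locRho ρbar q h (e 0)) 0 = a := ⟨_, h30t_rho_e0 ρbar q e htri h, rfl⟩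
    rw [ha', map_mul (h14l_locRho ρbar q), Module.End.mul_apply, ha, map_smul, map_smul,
      Finsupp.smul_apply, smul_eq_mul, mul_comm]

/-- the character on the quotient `V / k · e 0`. -/
def h30t_chi2 : primeLocalGaloisGroup q →* k where
  toFun g := e.repr (h14l_locRho ρbar q g (e 1)) 1
  map_one' := by
    rw [map_one (h14l_locRho ρbar q), Module.End.one_apply, Module.Basis.repr_self]
    simp
  map_mul' g h := by
    obtain ⟨a, b, hab, hb⟩ : ∃ a b : k, h14l_locRho ρbar q h (e 1) = a • e 0 + b • e 1 ∧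
        e.repr (h14l_locRho ρbar q h (e 1)) 1 = b := ⟨_, _, h30t_expand e _, rfl⟩
    rw [hb, map_mul (h14l_locRho ρbar q), Module.End.mul_apply, hab, map_add, map_smul, map_smul,
      map_add, map_smul, map_smul, Finsupp.add_apply, Finsupp.smul_apply, Finsupp.smul_apply,
      htri g, smul_zero, zero_add, smul_eq_mul, mul_comm]

/-- the kernel of the two diagonal characters. -/
def h30t_Gamma0 : Subgroup (primeLocalGaloisGroup q) :=
  ((h30t_chi1 ρbar q e htri).toHomUnits.prod (h30t_chi2 ρbar q e htri).toHomUnits).ker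

theorem h30t_mem_Gamma0 (g : primeLocalGaloisGroup q) :
    g ∈ h30t_Gamma0 ρbar q e htri ↔
      e.repr (h14l_locRho ρbar q g (e 0)) 0 = 1 ∧ e.repr (h14l_locRho ρbar q g (e 1)) 1 = 1 := by
  rw [h30t_Gamma0, MonoidHom.mem_ker, MonoidHom.prod_apply, Prod.ext_iff]
  simp only [Prod.fst_one, Prod.snd_one, Units.ext_iff, MonoidHom.coe_toHomUnits, Units.val_one]
  rfl

theorem h30t_Gamma0_normal : (h30t_Gamma0 ρbar q e htri).Normal :=
  MonoidHom.normal_ker _

theorem h30t_Gamma0_isOpen : (h14l_lev q).IsOpen (h30t_Gamma0 ρbar q e htri) := by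
  obtain ⟨N, hN, h⟩ := h30s_exists_level ρbar
  refine ⟨N.comap (primeLocalToGlobal q), ⟨N, hN, rfl⟩, fun s hs => ?_⟩
  have h1 : h14l_locRho ρbar q s = 1 := h _ hs
  rw [h30t_mem_Gamma0, h1, Module.End.one_apply, Module.End.one_apply, Module.Basis.repr_self,
    Module.Basis.repr_self]
  simp

theorem h30t_Gamma0_index [Finite k] (p : ℕ) [Fact p.Prime] [CharP k p] :
    (h30t_Gamma0 ρbar q e htri).index ≠ 0 ∧
      Nat.Coprime (h30t_Gamma0 ρbar q e htri).index p := by
  have hp : p.Prime := Fact.out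
  have hdvd : (h30t_Gamma0 ρbar q e htri).index ∣ Nat.card kˣ * Nat.card kˣ := by
    rw [h30t_Gamma0, Subgroup.index_ker, ← Nat.card_prod]
    exact Subgroup.card_subgroup_dvd_card _
  haveI : Fintype k := Fintype.ofFinite k
  obtain ⟨n, -, hn⟩ := FiniteField.card k p
  have hcard : Nat.card kˣ = p ^ (n : ℕ) - 1 := by
    rw [Nat.card_units, Nat.card_eq_fintype_card, hn]
  have hcop : Nat.Coprime (p ^ (n : ℕ) - 1) p := by
    apply Nat.Coprime.symm
    rw [Nat.Prime.coprime_iff_not_dvd hp]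
    intro hd
    have h1 : p ∣ p ^ (n : ℕ) := dvd_pow_self p n.ne_zero
    have h2 : 1 ≤ p ^ (n : ℕ) := Nat.one_le_pow _ _ hp.pos
    have h3 : p ∣ p ^ (n : ℕ) - (p ^ (n : ℕ) - 1) := Nat.dvd_sub h1 hd
    rw [Nat.sub_sub_self h2] at h3
    exact hp.one_lt.ne' (Nat.dvd_one.1 h3)
  have hne : Nat.card kˣ * Nat.card kˣ ≠ 0 := by
    have : Nat.card kˣ ≠ 0 := Nat.card_pos.ne'
    exact mul_ne_zero this this
  refine ⟨fun h0 => hne ?_, ?_⟩
  · rw [h0] at hdvd
    exact Nat.eq_zero_of_zero_dvd hdvd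
  · rw [hcard] at hdvd
    exact Nat.Coprime.coprime_dvd_left hdvd (Nat.Coprime.mul_left hcop hcop)

end Chi

/-- **LOC-UNIP-TRI.** -/
theorem h30t_unipTri : h14l_UnipTri := by
  intro p _ k _ _ _ ρbar q hunip hram
  obtain ⟨e, s₀, hs₀, h00, h01⟩ := h30t_exists_basis ρbar q hunip hram
  have htri := h30t_tri ρbar q hunip e s₀ hs₀ h00 h01
  refine ⟨e, h30t_Gamma0 ρbar q e htri, h30t_Gamma0_normal ρbar q e htri,
    h30t_Gamma0_isOpen ρbar q e htri, ?_, (h30t_Gamma0_index ρbar q e htri p).1,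
    (h30t_Gamma0_index ρbar q e htri p).2, ?_, ?_, ?_⟩
  · intro s hs
    have hprod : LinearMap.charpoly (h14l_locRho ρbar q s₀ * h14l_locRho ρbar q s) =
        ((X : k[X]) - 1) ^ 2 := by
      rw [← map_mul]
      exact hunip _ ((h14l_inert q).mul_mem hs₀ hs)
    obtain ⟨hfix, b, hb⟩ := h30t_kolchin e _ _ h00 h01 (hunip s hs) hprod
    rw [h30t_mem_Gamma0, hfix, hb]
    simp [Module.Basis.repr_self]
  · intro s
    exact ⟨_, h30t_rho_e0 ρbar q e htri s⟩
  · intro s hs
    have h1 := h30t_rho_e0 ρbar q e htri s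
    rw [((h30t_mem_Gamma0 ρbar q e htri s).1 hs).1, one_smul] at h1
    exact h1
  · intro s hs
    refine ⟨e.repr (h14l_locRho ρbar q s (e 1)) 0, ?_⟩
    have h1 := h30t_expand e (h14l_locRho ρbar q s (e 1))
    rw [((h30t_mem_Gamma0 ρbar q e htri s).1 hs).2, one_smul, add_comm] at h1
    exact h1

end Fermat.Agent.S56L
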