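import Fermat.Agent.S56L.Iface
import Fermat.Agent.S58.H98Odd

/-!
# S56, block LOC, row LOC-INFTY (helper33): `h14l_LocInfty`

`h33i_locInfty : h14l_LocInfty`: if `det ρbar` is the mod `p` cyclotomic character (`p` odd),
then every involution `c ≠ 1` of `G_ℚ` (a complex conjugation) has a one dimensional fixed space
on `ad⁰ ρbar`.

Proof.
* `c` inverts the `p`-th roots of unity (`h98r_galois_involution_apply_root`, helper98), so
  `det ρbar(c) = p - 1 = -1` in `k`;
* `T = ρbar(c)` satisfies `T² = 1`, `det T = -1`, so `tr T = 0` (Cayley–Hamilton, by hand on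
  `2 × 2` matrices) and every trace zero `m` with `T m T = m` is a multiple of `T`
  (`h33i_matrix`); so the fixed space is the line spanned by `T`.
-/

set_option autoImplicit false

open ExtCitation Polynomial

noncomputable section

namespace Fermat.Agent.S56L

open Fermat.Agent.PT

/-! ## `2 × 2` matrices -/

/-- `A² = 1`, `det A = -1` (`2 ≠ 0`): then `tr A = 0`, and a trace zero matrix `M` with
`A M A = M` is a multiple of `A`. -/
theorem h33i_matrix {k : Type*} [Field k] (h2 : (2 : k) ≠ 0) (A M : Matrix (Fin 2) (Fin 2) k)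
    (hA : A * A = 1) (hdet : A.det = -1) (hM : M.trace = 0) (hc : A * M * A = M) :
    A.trace = 0 ∧ M = (M 0 0 * A 0 0 + M 0 1 * A 1 0) • A := by
  have hcomm : A * M = M * A := by
    calc A * M = A * M * (A * A) := by rw [hA, mul_one]
      _ = A * M * A * A := by rw [← mul_assoc]
      _ = M * A := by rw [hc]
  have h00 : A 0 0 * A 0 0 + A 0 1 * A 1 0 = 1 := by
    have := congrFun (congrFun hA 0) 0
    simpa [Matrix.mul_apply, Fin.sum_univ_two] using this
  have h01 : A 0 0 * A 0 1 + A 0 1 * A 1 1 = 0 := by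
    have := congrFun (congrFun hA 0) 1
    simpa [Matrix.mul_apply, Fin.sum_univ_two] using this
  have hd : A 0 0 * A 1 1 - A 0 1 * A 1 0 = -1 := by
    rw [Matrix.det_fin_two] at hdet
    exact hdet
  have htr : A 0 0 + A 1 1 = 0 := by
    by_contra hne
    have ha : (A 0 0 + A 1 1) * A 0 0 = 0 := by linear_combination h00 + hd
    have hb : (A 0 0 + A 1 1) * A 0 1 = 0 := by linear_combination h01
    have ha0 : A 0 0 = 0 := (mul_eq_zero.mp ha).resolve_left hne
    have hb0 : A 0 1 = 0 := (mul_eq_zero.mp hb).resolve_left hne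
    rw [ha0, hb0] at h00
    simp at h00
  have hMtr : M 0 0 + M 1 1 = 0 := by
    rw [Matrix.trace_fin_two] at hM
    exact hM
  have e00 : A 0 0 * M 0 0 + A 0 1 * M 1 0 = M 0 0 * A 0 0 + M 0 1 * A 1 0 := by
    have := congrFun (congrFun hcomm 0) 0
    simpa [Matrix.mul_apply, Fin.sum_univ_two] using this
  have e01 : A 0 0 * M 0 1 + A 0 1 * M 1 1 = M 0 0 * A 0 1 + M 0 1 * A 1 1 := by
    have := congrFun (congrFun hcomm 0) 1
    simpa [Matrix.mul_apply, Fin.sum_univ_two] using this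
  have e10 : A 1 0 * M 0 0 + A 1 1 * M 1 0 = M 1 0 * A 0 0 + M 1 1 * A 1 0 := by
    have := congrFun (congrFun hcomm 1) 0
    simpa [Matrix.mul_apply, Fin.sum_univ_two] using this
  have E1 : A 0 0 * M 0 1 - A 0 1 * M 0 0 = 0 := by
    have h : (2 : k) * (A 0 0 * M 0 1 - A 0 1 * M 0 0) = 0 := by
      linear_combination e01 + M 0 1 * htr - A 0 1 * hMtr
    exact (mul_eq_zero.mp h).resolve_left h2
  have E2 : A 1 0 * M 0 0 - A 0 0 * M 1 0 = 0 := by
    have h : (2 : k) * (A 1 0 * M 0 0 - A 0 0 * M 1 0) = 0 := by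
      linear_combination e10 + A 1 0 * hMtr - M 1 0 * htr
    exact (mul_eq_zero.mp h).resolve_left h2
  have E0 : A 0 1 * M 1 0 - M 0 1 * A 1 0 = 0 := by linear_combination e00
  refine ⟨by rw [Matrix.trace_fin_two]; exact htr, ?_⟩
  ext i j
  rw [Matrix.smul_apply, smul_eq_mul]
  fin_cases i <;> fin_cases j
  · show M 0 0 = (M 0 0 * A 0 0 + M 0 1 * A 1 0) * A 0 0
    linear_combination (-M 0 0) * h00 - A 1 0 * E1
  · show M 0 1 = (M 0 0 * A 0 0 + M 0 1 * A 1 0) * A 0 1
    linear_combination (-M 0 1) * h00 + A 0 0 * E1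
  · show M 1 0 = (M 0 0 * A 0 0 + M 0 1 * A 1 0) * A 1 0
    linear_combination (-M 1 0) * h00 - A 0 0 * E2 + A 1 0 * E0
  · show M 1 1 = (M 0 0 * A 0 0 + M 0 1 * A 1 0) * A 1 1
    linear_combination hMtr + (M 0 0) * h00 + A 1 0 * E1
      - (M 0 0 * A 0 0 + M 0 1 * A 1 0) * htr

/-! ## Endomorphisms of a plane -/

/-- the same for endomorphisms of a two dimensional space. -/
theorem h33i_end {k V : Type*} [Field k] [AddCommGroup V] [Module k V] (h2 : (2 : k) ≠ 0)
    (hV : Module.finrank k V = 2) (T m : Module.End k V) (hT : T * T = 1)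
    (hdet : LinearMap.det T = -1) (hm : LinearMap.trace k V m = 0) (hc : T * m * T = m) :
    LinearMap.trace k V T = 0 ∧ ∃ β : k, m = β • T := by
  have : Module.Finite k V := Module.finite_of_finrank_eq_succ hV
  let b : Module.Basis (Fin 2) k V := Module.finBasisOfFinrankEq k V hV
  have hA : LinearMap.toMatrix b b T * LinearMap.toMatrix b b T = 1 := by
    rw [← LinearMap.toMatrix_mul, hT, LinearMap.toMatrix_one]
  have hdet' : (LinearMap.toMatrix b b T).det = -1 := by
    rw [LinearMap.det_toMatrix]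
    exact hdet
  have hM : (LinearMap.toMatrix b b m).trace = 0 := by
    rw [← LinearMap.trace_eq_matrix_trace k b]
    exact hm
  have hc' : LinearMap.toMatrix b b T * LinearMap.toMatrix b b m * LinearMap.toMatrix b b T
      = LinearMap.toMatrix b b m := by
    rw [← LinearMap.toMatrix_mul, ← LinearMap.toMatrix_mul, hc]
  obtain ⟨h1, h3⟩ := h33i_matrix h2 _ _ hA hdet' hM hc'
  have key : m = (LinearMap.toMatrix b b m 0 0 * LinearMap.toMatrix b b T 0 0 +
      LinearMap.toMatrix b b m 0 1 * LinearMap.toMatrix b b T 1 0) • T := by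
    apply (LinearMap.toMatrix b b).injective
    rw [map_smul]
    exact h3
  exact ⟨by rw [LinearMap.trace_eq_matrix_trace k b]; exact h1, _, key⟩

/-! ## LOC-∞ -/

/-- `det ρbar(c) = -1` for an involution `c ≠ 1`. -/
theorem h33i_det_conj (p : ℕ) [Fact p.Prime] (hp2 : p ≠ 2) (k : Type) [Field k] [CharP k p]
    (ρbar : ResidualGaloisRep k)
    (hdet : (GaloisRepAdic.ofResidualGaloisRep ρbar).DetIsCyclotomic p)
    (c : GQ) (hcc : c * c = 1) (hc1 : c ≠ 1) : LinearMap.det (ρbar.ρ c) = -1 := by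
  have hp : p.Prime := Fact.out
  have hodd : Odd p := hp.odd_of_ne_two hp2
  have h := hdet.2 1 c (p - 1) (fun μ hμ => by
    rw [pow_one] at hμ
    rw [Fermat.Agent.S58.h98r_galois_involution_apply_root c hcc hc1 p hodd μ hμ]
    symm
    apply eq_inv_of_mul_eq_one_left
    rw [← pow_succ, Nat.sub_add_cancel hp.one_le, hμ])
  have h0 : ((p ^ 1 : ℕ) : k) = 0 := by
    rw [pow_one]
    exact CharP.cast_eq_zero k p
  rw [h0, Ideal.span_singleton_eq_bot.mpr rfl, Ideal.mem_bot, sub_eq_zero] at h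
  have h1 : ((p - 1 : ℕ) : k) = -1 := by
    rw [Nat.cast_sub hp.one_le, CharP.cast_eq_zero k p, Nat.cast_one, zero_sub]
  rw [← h1]
  exact h

/-- **LOC-∞.** -/
theorem h33i_locInfty : h14l_LocInfty := by
  intro p _ hp2 k _ _ ρbar hdet c hcc hc1
  have hp : p.Prime := Fact.out
  have h2 : (2 : k) ≠ 0 := by
    intro h
    have h3 : ((2 : ℕ) : k) = 0 := by exact_mod_cast h
    rw [CharP.cast_eq_zero_iff k p] at h3
    exact hp2 ((Nat.prime_dvd_prime_iff_eq hp Nat.prime_two).1 h3)
  have hdetc := h33i_det_conj p hp2 k ρbar hdet c hcc hc1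
  have hinv : c⁻¹ = c := inv_eq_of_mul_eq_one_right hcc
  have hT : ρbar.ρ c * ρbar.ρ c = 1 := by rw [← map_mul, hcc, map_one]
  -- membership in the fixed space
  have hmem : ∀ m : ↥(h14l_sl ρbar),
      m ∈ LinearMap.ker (h14l_Ad0 ρbar c - LinearMap.id) ↔
        ρbar.ρ c * (m : Module.End k ρbar.V) * ρbar.ρ c = (m : Module.End k ρbar.V) := by
    intro m
    rw [LinearMap.mem_ker, LinearMap.sub_apply, LinearMap.id_apply, sub_eq_zero]
    constructor
    · intro h
      have h1 := congrArg (Subtype.val) h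
      rw [h14l_Ad0_coe, hinv] at h1
      exact h1
    · intro h
      apply Subtype.ext
      rw [h14l_Ad0_coe, hinv]
      exact h
  -- the trace of `T` is zero
  have htr : LinearMap.trace k ρbar.V (ρbar.ρ c) = 0 :=
    (h33i_end h2 ρbar.finrank_eq (ρbar.ρ c) 0 hT hdetc (map_zero _) (by simp)).1
  let T₀ : ↥(h14l_sl ρbar) := ⟨ρbar.ρ c, (h14l_mem_sl ρbar _).mpr htr⟩
  have hT₀ : T₀ ∈ LinearMap.ker (h14l_Ad0 ρbar c - LinearMap.id) := by
    rw [hmem]
    show ρbar.ρ c * ρbar.ρ c * ρbar.ρ c = ρbar.ρ c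
    rw [hT, one_mul]
  refine finrank_eq_one (⟨T₀, hT₀⟩ : ↥(LinearMap.ker (h14l_Ad0 ρbar c - LinearMap.id))) ?_ ?_
  · intro h0
    have h1 : (ρbar.ρ c : Module.End k ρbar.V) = 0 := by
      have := congrArg (fun x : ↥(LinearMap.ker (h14l_Ad0 ρbar c - LinearMap.id)) =>
        ((x : ↥(h14l_sl ρbar)) : Module.End k ρbar.V)) h0
      simpa [T₀] using this
    rw [h1, mul_zero] at hT
    have h3 : LinearMap.det (0 : Module.End k ρbar.V) = 1 := by rw [hT, map_one]
    rw [LinearMap.det_zero, ρbar.finrank_eq] at h3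
    simp at h3
  · rintro ⟨m, hm⟩
    obtain ⟨-, β, hβ⟩ := h33i_end h2 ρbar.finrank_eq (ρbar.ρ c) (m : Module.End k ρbar.V) hT
      hdetc ((h14l_mem_sl ρbar _).mp m.2) ((hmem m).mp hm)
    refine ⟨β, ?_⟩
    apply Subtype.ext
    apply Subtype.ext
    show β • (ρbar.ρ c : Module.End k ρbar.V) = (m : Module.End k ρbar.V)
    exact hβ.symm

end Fermat.Agent.S56L
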