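import Fermat.Agent.S56L.H33UnipTame
import Fermat.Agent.S56L.H14LocBasic

/-!
# S56, block LOC, row LOC-UNIP-ABS (helper33): `h14l_UnipAbs`

The matrix bridge: for `c` in `h14l_ZUnip ρbar q` the matrices `R(g)` of `ρbar(g)` and `C(g)` of
`c(g) ρbar(g)` in the basis `e` form the data `h33w_Coc` of the scalar core, and
`c ↦ (C(s0)₀₀, C(g1)₀₁, C(s0)₀₁)` is an injective linear map `ZUnip → k³`.
-/

set_option autoImplicit false

open ExtCitation

noncomputable section

namespace Fermat.Agent.S56L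

open Fermat.Agent.PT

/-! ## Restriction of level-constant functions -/

lemma h33w_isLC1_res {G : Type} [Group G] {L : Lev G} (Γ' : Subgroup G) {X : Type*} {f : G → X}
    (hf : IsLC1 L f) : IsLC1 (L.comap Γ'.subtype) (fun s : ↥Γ' => f s) := by
  obtain ⟨N, hN, h⟩ := hf
  exact ⟨N.comap Γ'.subtype, ⟨N, hN, rfl⟩, fun g s hs => h (g : G) (s : G) hs⟩

section Bridge

variable {k : Type} [Field k] (ρbar : ResidualGaloisRep k) (q : Nat.Primes)
  (e : Module.Basis (Fin 2) k ρbar.V)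

/-- the matrix of `ρbar(g)`. -/
def h33w_R (g : primeLocalGaloisGroup q) : Matrix (Fin 2) (Fin 2) k :=
  LinearMap.toMatrix e e (h14l_locRho ρbar q g)

/-- the matrix of `c(g) ρbar(g)`. -/
def h33w_C (c : primeLocalGaloisGroup q → ↥(h14l_sl ρbar)) (g : primeLocalGaloisGroup q) :
    Matrix (Fin 2) (Fin 2) k :=
  LinearMap.toMatrix e e ((c g : Module.End k ρbar.V) * h14l_locRho ρbar q g)

lemma h33w_R_one : h33w_R ρbar q e 1 = 1 := by
  rw [h33w_R, map_one, LinearMap.toMatrix_one]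

lemma h33w_R_mul (g h : primeLocalGaloisGroup q) :
    h33w_R ρbar q e (g * h) = h33w_R ρbar q e g * h33w_R ρbar q e h := by
  rw [h33w_R, map_mul, LinearMap.toMatrix_mul]
  rfl

lemma h33w_R_apply (g : primeLocalGaloisGroup q) (i j : Fin 2) :
    h33w_R ρbar q e g i j = e.repr (h14l_locRho ρbar q g (e j)) i := by
  rw [h33w_R, LinearMap.toMatrix_apply]

lemma h33w_locRho_inv_mul (g : primeLocalGaloisGroup q) :
    h14l_locRho ρbar q g⁻¹ * h14l_locRho ρbar q g = 1 := by
  rw [← map_mul, inv_mul_cancel, map_one]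

lemma h33w_locRho_mul_inv (g : primeLocalGaloisGroup q) :
    h14l_locRho ρbar q g * h14l_locRho ρbar q g⁻¹ = 1 := by
  rw [← map_mul, mul_inv_cancel, map_one]

lemma h33w_locRho_inv_mul_left (g : primeLocalGaloisGroup q) (x : Module.End k ρbar.V) :
    h14l_locRho ρbar q g⁻¹ * (h14l_locRho ρbar q g * x) = x := by
  rw [← mul_assoc, h33w_locRho_inv_mul, one_mul]

/-- the derivation identity. -/
lemma h33w_C_mul {c : primeLocalGaloisGroup q → ↥(h14l_sl ρbar)}
    (hc : c ∈ Z1 (h14l_lev q) (h14l_locAd0 ρbar q)) (g h : primeLocalGaloisGroup q) :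
    h33w_C ρbar q e c (g * h) =
      h33w_C ρbar q e c g * h33w_R ρbar q e h + h33w_R ρbar q e g * h33w_C ρbar q e c h := by
  have h1 := congrFun ((mem_Z1 _ _ _).1 hc).1 (g, h)
  simp only [d1_apply, Pi.zero_apply] at h1
  have h2 : (c (g * h) : Module.End k ρbar.V) =
      (c g : Module.End k ρbar.V) +
        h14l_locRho ρbar q g * (c h : Module.End k ρbar.V) * h14l_locRho ρbar q g⁻¹ := by
    have h3 := congrArg (fun m : ↥(h14l_sl ρbar) => (m : Module.End k ρbar.V)) h1
    simp only [Submodule.coe_add, Submodule.coe_sub, Submodule.coe_zero] at h3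
    have h4 : ((h14l_locAd0 ρbar q g (c h) : ↥(h14l_sl ρbar)) : Module.End k ρbar.V) =
        h14l_locRho ρbar q g * (c h : Module.End k ρbar.V) * h14l_locRho ρbar q g⁻¹ := by
      rw [h14l_locAd0, h14l_locRho]
      simp only [MonoidHom.comp_apply, h14l_Ad0_coe, map_inv]
    rw [h4, sub_add_eq_add_sub, sub_eq_zero] at h3
    rw [← h3, add_comm]
  have h5 : (c (g * h) : Module.End k ρbar.V) * h14l_locRho ρbar q (g * h) =
      (c g : Module.End k ρbar.V) * h14l_locRho ρbar q g * h14l_locRho ρbar q h +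
        h14l_locRho ρbar q g * ((c h : Module.End k ρbar.V) * h14l_locRho ρbar q h) := by
    rw [h2, map_mul, add_mul]
    simp only [mul_assoc, h33w_locRho_inv_mul_left]
  rw [h33w_C, h5]
  simp only [h33w_C, h33w_R, map_add, LinearMap.toMatrix_mul, mul_assoc]

variable {ρbar q e}
variable {Γ' : Subgroup (primeLocalGaloisGroup q)}

/-! ## The triangular shape -/

lemma h33w_R_10 (hTri : h14l_TriOn ρbar q e Γ') (g : primeLocalGaloisGroup q) :
    h33w_R ρbar q e g 1 0 = 0 := by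
  obtain ⟨a, ha⟩ := hTri.tri g
  rw [h33w_R_apply, ha]
  simp

lemma h33w_R_00 (hTri : h14l_TriOn ρbar q e Γ') {s : primeLocalGaloisGroup q} (hs : s ∈ Γ') :
    h33w_R ρbar q e s 0 0 = 1 := by
  rw [h33w_R_apply, hTri.unip0 s hs]
  simp

lemma h33w_R_11 (hTri : h14l_TriOn ρbar q e Γ') {s : primeLocalGaloisGroup q} (hs : s ∈ Γ') :
    h33w_R ρbar q e s 1 1 = 1 := by
  obtain ⟨b, hb⟩ := hTri.unip1 s hs
  rw [h33w_R_apply, hb]
  simp

/-- the upper right entry detects `ρbar(s) ≠ 1` on `Γ'`. -/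
lemma h33w_R_01_ne (hTri : h14l_TriOn ρbar q e Γ') {s : primeLocalGaloisGroup q} (hs : s ∈ Γ')
    (hne : h14l_locRho ρbar q s ≠ 1) : h33w_R ρbar q e s 0 1 ≠ 0 := by
  intro h0
  apply hne
  obtain ⟨b, hb⟩ := hTri.unip1 s hs
  have hb0 : b = 0 := by
    rw [h33w_R_apply, hb] at h0
    simpa using h0
  apply e.ext
  intro i
  fin_cases i
  · simpa using hTri.unip0 s hs
  · simpa [hb0] using hb

/-- the first diagonal character. -/
def h33w_chi1 (hTri : h14l_TriOn ρbar q e Γ') : primeLocalGaloisGroup q →* k where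
  toFun g := h33w_R ρbar q e g 0 0
  map_one' := by rw [h33w_R_one, Matrix.one_apply_eq]
  map_mul' g h := by
    rw [h33w_R_mul, Matrix.mul_apply, Fin.sum_univ_two, h33w_R_10 hTri h, mul_zero, add_zero]

/-- the second diagonal character. -/
def h33w_chi2 (hTri : h14l_TriOn ρbar q e Γ') : primeLocalGaloisGroup q →* k where
  toFun g := h33w_R ρbar q e g 1 1
  map_one' := by rw [h33w_R_one, Matrix.one_apply_eq]
  map_mul' g h := by
    rw [h33w_R_mul, Matrix.mul_apply, Fin.sum_univ_two, h33w_R_10 hTri g, zero_mul, zero_add]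

@[simp] lemma h33w_chi1_apply (hTri : h14l_TriOn ρbar q e Γ') (g : primeLocalGaloisGroup q) :
    h33w_chi1 hTri g = h33w_R ρbar q e g 0 0 := rfl

@[simp] lemma h33w_chi2_apply (hTri : h14l_TriOn ρbar q e Γ') (g : primeLocalGaloisGroup q) :
    h33w_chi2 hTri g = h33w_R ρbar q e g 1 1 := rfl

/-! ## Continuity -/

lemma h33w_exists_level (ρbar : ResidualGaloisRep k) (q : Nat.Primes) :
    ∃ N ∈ (h14l_lev q).sets, ∀ s ∈ N, h14l_locRho ρbar q s = 1 := by
  obtain ⟨N, hN, h⟩ := h14s_exists_level ρbar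
  exact ⟨N.comap (primeLocalToGlobal q), ⟨N, hN, rfl⟩, fun s hs => h _ hs⟩

lemma h33w_isLC1_rho (ρbar : ResidualGaloisRep k) (q : Nat.Primes) :
    IsLC1 (h14l_lev q) (fun g => h14l_locRho ρbar q g) := by
  obtain ⟨N, hN, h⟩ := h33w_exists_level ρbar q
  exact ⟨N, hN, fun g s hs => by simp only [map_mul, h s hs, mul_one]⟩

lemma h33w_isLC1_R (ρbar : ResidualGaloisRep k) (q : Nat.Primes)
    (e : Module.Basis (Fin 2) k ρbar.V) (i j : Fin 2) :
    IsLC1 (h14l_lev q) (fun g => h33w_R ρbar q e g i j) :=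
  (h33w_isLC1_rho ρbar q).comp (fun m => LinearMap.toMatrix e e m i j)

lemma h33w_isLC1_C (e : Module.Basis (Fin 2) k ρbar.V)
    {c : primeLocalGaloisGroup q → ↥(h14l_sl ρbar)}
    (hc : c ∈ Z1 (h14l_lev q) (h14l_locAd0 ρbar q)) (i j : Fin 2) :
    IsLC1 (h14l_lev q) (fun g => h33w_C ρbar q e c g i j) :=
  h33w_isLC1_map₂ ((mem_Z1 _ _ _).1 hc).2 (h33w_isLC1_rho ρbar q)
    (fun (m : ↥(h14l_sl ρbar)) (r : Module.End k ρbar.V) =>
      LinearMap.toMatrix e e ((m : Module.End k ρbar.V) * r) i j)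

/-! ## The data of the scalar core -/

theorem h33w_coc (hTri : h14l_TriOn ρbar q e Γ')
    {c : primeLocalGaloisGroup q → ↥(h14l_sl ρbar)} (hc : c ∈ h14l_ZUnip ρbar q) :
    h33w_Coc Γ' (h14l_inert q) (h14l_levSub q Γ') (h33w_chi1 hTri) (h33w_chi2 hTri)
      (fun g => h33w_R ρbar q e g 0 1) (fun g => h33w_C ρbar q e c g 0 0)
      (fun g => h33w_C ρbar q e c g 0 1) (fun g => h33w_C ρbar q e c g 1 0)
      (fun g => h33w_C ρbar q e c g 1 1) := by
  obtain ⟨hcz, hcu⟩ := hc
  have hmul := fun g h => h33w_C_mul ρbar q e hcz g h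
  exact
  { u1 := fun s hs => h33w_R_00 hTri hs
    u2 := fun s hs => h33w_R_11 hTri hs
    mβ := fun g h => by
      simp only [h33w_chi1_apply, h33w_chi2_apply]
      rw [h33w_R_mul, Matrix.mul_apply, Fin.sum_univ_two]
    dΓ := fun g h => by
      simp only [h33w_chi1_apply, h33w_chi2_apply]
      rw [hmul, Matrix.add_apply, Matrix.mul_apply, Matrix.mul_apply, Fin.sum_univ_two,
        Fin.sum_univ_two, h33w_R_10 hTri h, h33w_R_10 hTri g]
      ring
    dA := fun g h => by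
      simp only [h33w_chi1_apply]
      rw [hmul, Matrix.add_apply, Matrix.mul_apply, Matrix.mul_apply, Fin.sum_univ_two,
        Fin.sum_univ_two, h33w_R_10 hTri h]
      ring
    dD := fun g h => by
      simp only [h33w_chi2_apply]
      rw [hmul, Matrix.add_apply, Matrix.mul_apply, Matrix.mul_apply, Fin.sum_univ_two,
        Fin.sum_univ_two, h33w_R_10 hTri g]
      ring
    dB := fun g h => by
      simp only [h33w_chi1_apply, h33w_chi2_apply]
      rw [hmul, Matrix.add_apply, Matrix.mul_apply, Matrix.mul_apply, Fin.sum_univ_two,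
        Fin.sum_univ_two]
      ring
    tr := fun s hs => by
      have h0 : LinearMap.trace k ρbar.V (c s : Module.End k ρbar.V) = 0 :=
        (h14l_mem_sl ρbar _).1 (c s).2
      rw [LinearMap.trace_eq_matrix_trace k e, Matrix.trace_fin_two] at h0
      have hC : h33w_C ρbar q e c s =
          LinearMap.toMatrix e e (c s : Module.End k ρbar.V) * h33w_R ρbar q e s := by
        rw [h33w_C, LinearMap.toMatrix_mul]
        rfl
      simp only [hC, Matrix.mul_apply, Fin.sum_univ_two, h33w_R_10 hTri s, h33w_R_00 hTri hs,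
        h33w_R_11 hTri hs]
      linear_combination h0
    unip := fun s hs => by
      have h0 := hcu s hs
      rw [LinearMap.trace_eq_matrix_trace k e, Matrix.trace_fin_two] at h0
      exact h0
    Alc := h33w_isLC1_res Γ' (h33w_isLC1_C e hcz 0 0)
    Blc := h33w_isLC1_res Γ' (h33w_isLC1_C e hcz 0 1)
    Γlc := h33w_isLC1_res Γ' (h33w_isLC1_C e hcz 1 0)
    βlc := h33w_isLC1_res Γ' (h33w_isLC1_R ρbar q e 0 1) }

/-! ## The injection -/

/-- the entry `(i, j)` of the matrix of `c(g) ρbar(g)`, as a linear functional. -/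
def h33w_entry (ρbar : ResidualGaloisRep k) (q : Nat.Primes) (e : Module.Basis (Fin 2) k ρbar.V)
    (g : primeLocalGaloisGroup q) (i j : Fin 2) : ↥(h14l_ZUnip ρbar q) →ₗ[k] k :=
  (e.coord i) ∘ₗ (LinearMap.applyₗ (h14l_locRho ρbar q g (e j))) ∘ₗ (h14l_sl ρbar).subtype ∘ₗ
    (LinearMap.proj g) ∘ₗ (h14l_ZUnip ρbar q).subtype

lemma h33w_entry_apply (g : primeLocalGaloisGroup q) (i j : Fin 2)
    (c : ↥(h14l_ZUnip ρbar q)) :
    h33w_entry ρbar q e g i j c = h33w_C ρbar q e c.1 g i j := by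
  rw [h33w_C, LinearMap.toMatrix_apply]
  rfl

end Bridge

/-- **LOC-UNIP-ABS**: tame datum + triangular form `⇒ dim ZUnip ≤ 3`. -/
theorem h33w_unipAbs : h14l_UnipAbs := by
  intro p _ hp2 k _ _ _ ρbar q e Γ' hT hTri hram
  obtain ⟨ν, κ, hTk⟩ := h33w_tame_of_datum p hp2 k q Γ' hT
  obtain ⟨s0, hs0, hne⟩ := hram
  have hb0 : h33w_R ρbar q e s0 0 1 ≠ 0 := h33w_R_01_ne hTri (hT.inert_le hs0) hne
  obtain ⟨g1, hg1, hg1'⟩ := h33w_exists_g1 hTk (h33w_chi1 hTri) (h33w_chi2 hTri)
  refine ⟨LinearMap.pi ![h33w_entry ρbar q e s0 0 0, h33w_entry ρbar q e g1 0 1,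
    h33w_entry ρbar q e s0 0 1], ?_⟩
  rw [injective_iff_map_eq_zero]
  intro c hc
  have h0 := congrFun hc 0
  have h1 := congrFun hc 1
  have h2 := congrFun hc 2
  simp only [LinearMap.pi_apply, Matrix.cons_val_zero, Matrix.cons_val_one, Matrix.cons_val,
    h33w_entry_apply, Pi.zero_apply] at h0 h1 h2
  have hcore := fun g => h33w_core hTk (h33w_coc hTri c.2) hs0 hb0 hg1 hg1' h0 h1 h2 g
  apply Subtype.ext
  funext g
  obtain ⟨hA, hB, hΓ, hD⟩ := hcore g
  have hCz : h33w_C ρbar q e c.1 g = 0 := by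
    ext i j
    fin_cases i <;> fin_cases j
    · exact hA
    · exact hB
    · exact hΓ
    · exact hD
  have hz : (c.1 g : Module.End k ρbar.V) * h14l_locRho ρbar q g = 0 :=
    (LinearMap.toMatrix e e).injective (by rw [map_zero]; exact hCz)
  have hz' : (c.1 g : Module.End k ρbar.V) = 0 := by
    have h3 := congrArg (· * h14l_locRho ρbar q g⁻¹) hz
    simp only [mul_assoc, h33w_locRho_mul_inv, mul_one, zero_mul] at h3
    exact h3
  exact Subtype.ext hz'

end Fermat.Agent.S56L
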