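import Fermat.Agent.S56L.IfaceAbs
import Fermat.Agent.PT.Loc.H70InvOK
import Fermat.Agent.PT.Loc.H81H90
import Fermat.Agent.PT.Loc.H6ChiZeta
import Fermat.Agent.PT.Loc.Kum.H7KumClass

/-!
# S56, block LOC, leaf LOC-KUM (helper51): `h51k_kum : h14l_Kum`

`dim Z¹(G_p, k(ω)) ≤ 3` for the local group at `p` (`p` odd), `k` a finite field of
characteristic `p`, `ω` the mod `p` cyclotomic character.

* `h51k_qp_reps` (LOC-KUM-QP): every nonzero element of `ℚ_p` is `p ^ i (1 + p) ^ j y ^ p` with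
  `i, j < p` (Hensel + binomial congruence), so `ℚ_p^× / (ℚ_p^×)^p` has at most `p²` elements;
* `h51k_kummer` : a continuous twisted cocycle `c : G_p → 𝔽_p(ω)` is `g ↦ log_ζ (g a / a)`
  (Hilbert 90, landed `h81h_mcH90`), `a ^ p ∈ ℚ_p`;
* `h51k_card_le` : there are at most `p³` such cocycles (`a = ζ ^ m · y · r_{ij}`);
* `h51k_kum` : coordinates of `k` over `𝔽_p` + counting.
-/

set_option autoImplicit false
set_option linter.unusedSectionVars false
set_option linter.unusedVariables false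
set_option linter.style.haveILetI false

open ExtCitation

namespace Fermat.Agent.S56L

section Qp

variable {p : ℕ} [hp : Fact p.Prime]

/-- binomial congruence: `(1 + p t)^p ≡ 1 + p² t` modulo `p³`, for `p` odd. -/
theorem h51k_one_add_pow {R : Type*} [CommRing R] (hp2 : p ≠ 2) (t : R) :
    ∃ r : R, (1 + (p : R) * t) ^ p = 1 + (p : R) ^ 2 * t + (p : R) ^ 3 * r := by
  have hpp : p.Prime := hp.out
  have h3 : 3 ≤ p := by
    have := hpp.two_le
    omega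
  obtain ⟨n, rfl⟩ : ∃ n, p = n + 2 := ⟨p - 2, by omega⟩
  rw [add_comm (1 : R), add_pow]
  rw [Finset.sum_range_succ', Finset.sum_range_succ']
  simp only [one_pow, mul_one, pow_zero, Nat.choose_zero_right, Nat.cast_one, zero_add, pow_one,
    Nat.choose_one_right]
  have key : ∀ k ∈ Finset.range (n + 1), ∃ r : R,
      (((n + 2 : ℕ) : R) * t) ^ (k + 1 + 1) * (((n + 2).choose (k + 1 + 1) : ℕ) : R)
        = ((n + 2 : ℕ) : R) ^ 3 * r := by
    intro k hk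
    rw [Finset.mem_range] at hk
    by_cases hkn : k = n
    · subst hkn
      have : k + 1 + 1 = 3 + (k - 1) := by omega
      refine ⟨((k + 2 : ℕ) : R) ^ (k - 1) * t ^ (k + 1 + 1) * (((k + 2).choose (k + 1 + 1) : ℕ) : R), ?_⟩
      rw [mul_pow]
      conv_lhs => rw [this, pow_add]
      rw [← this]
      ring
    · have hlt : k + 1 + 1 < n + 2 := by omega
      have hdvd : (n + 2) ∣ (n + 2).choose (k + 1 + 1) :=
        hpp.dvd_choose_self (by omega) hlt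
      obtain ⟨c, hc⟩ := hdvd
      refine ⟨((n + 2 : ℕ) : R) ^ k * t ^ (k + 1 + 1) * (c : R), ?_⟩
      rw [hc, mul_pow]
      push_cast
      ring
  choose! r hr using key
  refine ⟨∑ k ∈ Finset.range (n + 1), r k, ?_⟩
  rw [Finset.mul_sum, ← Finset.sum_congr rfl hr]
  ring

/-- Hensel: the elements of `1 + p² ℤ_p` are `p`-th powers (`p` odd). -/
theorem h51k_exists_pow_eq (hp2 : p ≠ 2) (t : ℤ_[p]) :
    ∃ y : ℤ_[p], y ^ p = 1 + (p : ℤ_[p]) ^ 2 * t := by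
  have hpp : p.Prime := hp.out
  obtain ⟨r, hr⟩ := h51k_one_add_pow (p := p) hp2 t
  set a : ℤ_[p] := 1 + (p : ℤ_[p]) * t with ha
  set v : ℤ_[p] := 1 + (p : ℤ_[p]) ^ 2 * t with hv
  let F : Polynomial ℤ_[p] := Polynomial.X ^ p - Polynomial.C v
  have hF : Polynomial.aeval a F = (p : ℤ_[p]) ^ 3 * r := by
    simp only [F, map_sub, map_pow, Polynomial.aeval_X, Polynomial.aeval_C,
      Algebra.algebraMap_self, RingHom.id_apply]
    rw [hr, hv]
    ring
  have hF' : Polynomial.aeval a (Polynomial.derivative F) = (p : ℤ_[p]) * a ^ (p - 1) := by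
    simp only [F, Polynomial.derivative_sub, Polynomial.derivative_X_pow, Polynomial.derivative_C,
      sub_zero, map_mul, map_pow, Polynomial.aeval_X, map_natCast]
  have hnp : ‖(p : ℤ_[p])‖ = (p : ℝ)⁻¹ := PadicInt.norm_p
  have hp0 : (0 : ℝ) < p := by exact_mod_cast hpp.pos
  have hp1 : (1 : ℝ) < p := by exact_mod_cast hpp.one_lt
  have hpt : ‖(p : ℤ_[p]) * t‖ < 1 := by
    rw [norm_mul, hnp]
    calc (p : ℝ)⁻¹ * ‖t‖ ≤ (p : ℝ)⁻¹ * 1 := by
          gcongr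
          exact PadicInt.norm_le_one t
      _ < 1 := by rw [mul_one]; exact inv_lt_one_of_one_lt₀ hp1
  have hna : ‖a‖ = 1 := by
    rw [ha]
    have h1 : ‖(1 : ℤ_[p])‖ = 1 := norm_one
    have hne : ‖(1 : ℤ_[p])‖ ≠ ‖(p : ℤ_[p]) * t‖ := by
      rw [h1]; exact (ne_of_lt hpt).symm
    rw [PadicInt.norm_add_eq_max_of_ne hne, h1]
    exact max_eq_left (le_of_lt hpt)
  have hnorm : ‖Polynomial.aeval a F‖ < ‖Polynomial.aeval a (Polynomial.derivative F)‖ ^ 2 := by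
    rw [hF, hF', norm_mul, norm_mul, norm_pow, norm_pow, hna, one_pow, mul_one, hnp]
    calc ((p : ℝ)⁻¹) ^ 3 * ‖r‖ ≤ ((p : ℝ)⁻¹) ^ 3 * 1 := by
          gcongr
          exact PadicInt.norm_le_one r
      _ < ((p : ℝ)⁻¹) ^ 2 := by
          rw [mul_one]
          have h0 : (0 : ℝ) < (p : ℝ)⁻¹ := inv_pos.mpr hp0
          have h1 : (p : ℝ)⁻¹ < 1 := inv_lt_one_of_one_lt₀ hp1
          calc ((p : ℝ)⁻¹) ^ 3 = ((p : ℝ)⁻¹) ^ 2 * (p : ℝ)⁻¹ := by ring
            _ < ((p : ℝ)⁻¹) ^ 2 * 1 := by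
                apply mul_lt_mul_of_pos_left h1
                positivity
            _ = ((p : ℝ)⁻¹) ^ 2 := mul_one _
  obtain ⟨z, hz, -⟩ := hensels_lemma hnorm
  refine ⟨z, ?_⟩
  simp only [F, map_sub, map_pow, Polynomial.aeval_X, Polynomial.aeval_C,
    Algebra.algebraMap_self, RingHom.id_apply] at hz
  exact sub_eq_zero.mp hz

/-- `(1 + x) ^ j = 1 + j x + x² e`. -/
theorem h51k_one_add_pow_two {R : Type*} [CommRing R] (x : R) (j : ℕ) :
    ∃ e : R, (1 + x) ^ j = 1 + (j : R) * x + x ^ 2 * e := by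
  induction j with
  | zero => exact ⟨0, by simp⟩
  | succ j ih =>
    obtain ⟨e, he⟩ := ih
    refine ⟨(j : R) + e + x * e, ?_⟩
    rw [pow_succ, he]
    push_cast
    ring

/-- a unit of `ℤ_p` is `(1 + p) ^ j` times a `p`-th power, `j < p` (`p` odd). -/
theorem h51k_unit_reps (hp2 : p ≠ 2) (u : ℤ_[p]) (hu : ‖u‖ = 1) :
    ∃ j : ℕ, j < p ∧ ∃ y : ℤ_[p], ‖y‖ = 1 ∧ u = (1 + (p : ℤ_[p])) ^ j * y ^ p := by
  have hpp : p.Prime := hp.out
  have hunit : IsUnit u := PadicInt.isUnit_iff.mpr hu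
  -- Fermat
  have h1 : PadicInt.toZMod (u ^ (p - 1)) = 1 := by
    rw [map_pow]
    apply ZMod.pow_card_sub_one_eq_one
    exact (hunit.map (PadicInt.toZMod (p := p))).ne_zero
  have h2 : u ^ (p - 1) - 1 ∈ Ideal.span {(p : ℤ_[p])} := by
    rw [← PadicInt.maximalIdeal_eq_span_p, ← PadicInt.ker_toZMod, RingHom.mem_ker, map_sub, h1,
      map_one, sub_self]
  obtain ⟨s, hs⟩ := Ideal.mem_span_singleton'.mp h2
  -- the inverse of `w = u ^ (p - 1)`
  obtain ⟨w', hw'⟩ := (hunit.pow (p - 1)).exists_right_inv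
  -- `w' = 1 + p s'`
  have hw'1 : w' = 1 + (p : ℤ_[p]) * (-(w' * s)) := by
    have : u ^ (p - 1) = 1 + s * (p : ℤ_[p]) := by rw [hs]; ring
    rw [this] at hw'
    linear_combination hw'
  set s' : ℤ_[p] := -(w' * s) with hs'
  have hupow : u = u ^ p * w' := by
    have : u ^ p = u * u ^ (p - 1) := by
      rw [← pow_succ']
      congr 1
      have := hpp.pos
      omega
    rw [this, mul_assoc, hw', mul_one]
  -- the exponent `j`
  set j : ℕ := (PadicInt.toZMod s').val with hj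
  have hjp : j < p := ZMod.val_lt _
  have h3 : s' - (j : ℤ_[p]) ∈ Ideal.span {(p : ℤ_[p])} := by
    rw [← PadicInt.maximalIdeal_eq_span_p, ← PadicInt.ker_toZMod, RingHom.mem_ker, map_sub,
      map_natCast, hj, ZMod.natCast_zmod_val, sub_self]
  obtain ⟨s'', hs''⟩ := Ideal.mem_span_singleton'.mp h3
  obtain ⟨e, he⟩ := h51k_one_add_pow_two (p : ℤ_[p]) j
  -- `E = (1 + p) ^ j` is a unit
  have hE1 : PadicInt.toZMod ((1 + (p : ℤ_[p])) ^ j) = 1 := by
    rw [map_pow, map_add, map_one, map_natCast, ZMod.natCast_self, add_zero, one_pow]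
  have hEu : IsUnit ((1 + (p : ℤ_[p])) ^ j) := by
    rw [PadicInt.isUnit_iff]
    by_contra hcon
    have hlt : ‖(1 + (p : ℤ_[p])) ^ j‖ < 1 :=
      lt_of_le_of_ne (PadicInt.norm_le_one _) hcon
    have hmem : (1 + (p : ℤ_[p])) ^ j ∈ RingHom.ker (PadicInt.toZMod (p := p)) := by
      rw [PadicInt.ker_toZMod, IsLocalRing.mem_maximalIdeal, mem_nonunits_iff,
        PadicInt.isUnit_iff]
      exact hcon
    rw [RingHom.mem_ker, hE1] at hmem
    exact one_ne_zero hmem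
  obtain ⟨E', hE'⟩ := hEu.exists_right_inv
  -- `v = w' E' ∈ 1 + p² ℤ_p`
  have hv : w' * E' = 1 + (p : ℤ_[p]) ^ 2 * ((s'' - e) * E') := by
    have hw'2 : w' = 1 + (j : ℤ_[p]) * (p : ℤ_[p]) + (p : ℤ_[p]) ^ 2 * s'' := by
      have : s' = (j : ℤ_[p]) + s'' * (p : ℤ_[p]) := by rw [hs'']; ring
      rw [hw'1, this]
      ring
    have hdiff : w' - (1 + (p : ℤ_[p])) ^ j = (p : ℤ_[p]) ^ 2 * (s'' - e) := by
      rw [he]
      rw [hw'2]
      ring
    linear_combination E' * hdiff + hE'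
  obtain ⟨y₀, hy₀⟩ := h51k_exists_pow_eq (p := p) hp2 ((s'' - e) * E')
  have hw'3 : w' = (1 + (p : ℤ_[p])) ^ j * y₀ ^ p := by
    rw [hy₀, ← hv]
    linear_combination (-w') * hE'
  refine ⟨j, hjp, u * y₀, ?_, ?_⟩
  · rw [norm_mul, hu, one_mul]
    -- `y₀ ^ p` is a unit
    have h5 : IsUnit (y₀ ^ p) := by
      have h6 : IsUnit w' := by
        refine IsUnit.of_mul_eq_one (u ^ (p - 1)) ?_
        rw [mul_comm]; exact hw'
      rw [hw'3] at h6
      exact isUnit_of_mul_isUnit_right h6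
    have h7 : ‖y₀ ^ p‖ = 1 := PadicInt.isUnit_iff.mp h5
    rw [norm_pow] at h7
    have h8 : 0 ≤ ‖y₀‖ := norm_nonneg _
    exact (pow_eq_one_iff_of_nonneg h8 hpp.ne_zero).mp h7
  · rw [mul_pow]
    calc u = u ^ p * w' := hupow
      _ = (1 + (p : ℤ_[p])) ^ j * (u ^ p * y₀ ^ p) := by rw [hw'3]; ring

/-- **LOC-KUM-QP.**  Every nonzero element of `ℚ_p` is `p ^ i (1 + p) ^ j y ^ p` with `i, j < p`
(`p` odd): `ℚ_p^× / (ℚ_p^×)^p` has at most `p²` elements. -/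
theorem h51k_qp_reps (hp2 : p ≠ 2) (b : ℚ_[p]) (hb : b ≠ 0) :
    ∃ i j : ℕ, i < p ∧ j < p ∧ ∃ y : ℚ_[p], y ≠ 0 ∧
      b = (p : ℚ_[p]) ^ i * (1 + (p : ℚ_[p])) ^ j * y ^ p := by
  have hpp : p.Prime := hp.out
  have hp0 : (p : ℚ_[p]) ≠ 0 := by exact_mod_cast hpp.ne_zero
  have hpR : (0 : ℝ) < p := by exact_mod_cast hpp.pos
  set n : ℤ := b.valuation with hn
  have hnb : ‖b‖ = (p : ℝ) ^ (-n) := Padic.norm_eq_zpow_neg_valuation hb
  set u : ℚ_[p] := b * (p : ℚ_[p]) ^ (-n) with hu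
  have hun : ‖u‖ = 1 := by
    rw [hu, norm_mul, norm_zpow, hnb, Padic.norm_p, inv_zpow', neg_neg, ← zpow_add₀ hpR.ne']
    simp
  let u₀ : ℤ_[p] := ⟨u, le_of_eq hun⟩
  have hu₀ : ‖u₀‖ = 1 := hun
  obtain ⟨j, hjp, y₀, hy₀n, hy₀⟩ := h51k_unit_reps hp2 u₀ hu₀
  have hy₀' : u = (1 + (p : ℚ_[p])) ^ j * (y₀ : ℚ_[p]) ^ p := by
    have := congrArg (fun z : ℤ_[p] => (z : ℚ_[p])) hy₀
    simpa using this
  have hbu : b = u * (p : ℚ_[p]) ^ n := by
    rw [hu, mul_assoc, ← zpow_add₀ hp0]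
    simp
  have hpp0 : (p : ℤ) ≠ 0 := by exact_mod_cast hpp.ne_zero
  have hmod : n = (n % (p : ℤ)) + (p : ℤ) * (n / (p : ℤ)) := (Int.emod_add_mul_ediv n p).symm
  have hi0 : 0 ≤ n % (p : ℤ) := Int.emod_nonneg n hpp0
  have hi1 : n % (p : ℤ) < p := Int.emod_lt_of_pos n (by exact_mod_cast hpp.pos)
  obtain ⟨i, hi⟩ : ∃ i : ℕ, (i : ℤ) = n % (p : ℤ) := ⟨(n % (p : ℤ)).toNat, Int.toNat_of_nonneg hi0⟩
  have hip : i < p := by
    have : (i : ℤ) < p := by rw [hi]; exact hi1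
    exact_mod_cast this
  have hy₀0 : (y₀ : ℚ_[p]) ≠ 0 := by
    intro h0
    have : ‖(y₀ : ℚ_[p])‖ = 1 := hy₀n
    rw [h0, norm_zero] at this
    exact zero_ne_one this
  refine ⟨i, j, hip, hjp, (y₀ : ℚ_[p]) * (p : ℚ_[p]) ^ (n / (p : ℤ)), ?_, ?_⟩
  · exact mul_ne_zero hy₀0 (zpow_ne_zero _ hp0)
  · have hpn : (p : ℚ_[p]) ^ n = (p : ℚ_[p]) ^ i * ((p : ℚ_[p]) ^ (n / (p : ℤ))) ^ p := by
      conv_lhs => rw [hmod]
      rw [zpow_add₀ hp0, ← hi, zpow_natCast, mul_comm (p : ℤ), zpow_mul, zpow_natCast]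
    rw [hbu, hy₀', hpn, mul_pow]
    ring

end Qp

/-! ## Kummer theory of twisted cocycles -/

section Kummer

open Fermat.Agent.PT Fermat.Agent.PT.Loc

variable {p : ℕ} [hp : Fact p.Prime]

/-- twisted cocycles `G_p → 𝔽_p(ω)`. -/
def h51k_TCoc (c : Gq p → ZMod p) : Prop :=
  ∀ g h : Gq p, c (g * h) = chiL p p g * c h + c g

/-- **Kummer.**  A continuous twisted cocycle is `g ↦ log_ζ (g a / a)`. -/
theorem h51k_kummer (c : Gq p → ZMod p) (hc : h51k_TCoc c) (hcont : Cont1 (⊥ : LF p) c) :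
    ∃ a : (Om p)ˣ, ∀ g : Gq p, g (a : Om p) = zetaL p p ^ (c g).val * (a : Om p) := by
  obtain ⟨hprim, hU, hact⟩ := h6z_chiZeta p p
  have hζup : zetaU p p ^ p = 1 := by
    apply Units.ext
    rw [Units.val_pow_eq_pow_val, hU, hprim.pow_eq_one, Units.val_one]
  let x : Gq p → (Om p)ˣ := fun g => zetaU p p ^ (c g).val
  have hx1 : MCoc1 (⊥ : LF p) x := by
    intro g _ h _
    change zetaU p p ^ (c (g * h)).val = g • (zetaU p p ^ (c h).val) * zetaU p p ^ (c g).val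
    rw [smul_pow', hact g, hc g h, h70k_pow_val_add hζup, h70k_pow_val_mul hζup]
  have hx2 : Cont1 (⊥ : LF p) x := by
    obtain ⟨F, hF, hKF, hinv⟩ := hcont
    refine ⟨F, hF, hKF, ?_⟩
    intro g hg s hs
    change zetaU p p ^ (c (g * s)).val = zetaU p p ^ (c g).val
    rw [hinv g hg s hs]
  obtain ⟨a, ha⟩ := h81h_mcH90 p (⊥ : LF p) x hx1 hx2
  refine ⟨a, fun g => ?_⟩
  have hg : g ∈ GK (⊥ : LF p) := by
    change g ∈ (⊥ : IntermediateField ℚ_[p] (PadicAlgCl p)).fixingSubgroup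
    rw [IntermediateField.fixingSubgroup_bot]
    exact Subgroup.mem_top g
  have h1 : x g * a = g • a := by
    rw [ha g hg, div_mul_cancel]
  have h2 : ((x g * a : (Om p)ˣ) : Om p) = ((g • a : (Om p)ˣ) : Om p) := by rw [h1]
  have h3 : ((g • a : (Om p)ˣ) : Om p) = g (a : Om p) := rfl
  rw [← h3, ← h2, Units.val_mul]
  change (zetaU p p ^ (c g).val : (Om p)ˣ).val * (a : Om p) = _
  rw [Units.val_pow_eq_pow_val, hU]

/-- a `p`-th root of `p ^ i (1 + p) ^ j` in `ℚ̄_p`. -/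
noncomputable def h51k_rt (p : ℕ) [hp : Fact p.Prime] (i j : ℕ) : Om p :=
  Classical.choose
    (IsAlgClosed.exists_pow_nat_eq ((p : Om p) ^ i * (1 + (p : Om p)) ^ j) hp.out.pos)

theorem h51k_rt_pow (i j : ℕ) :
    h51k_rt p i j ^ p = (p : Om p) ^ i * (1 + (p : Om p)) ^ j :=
  Classical.choose_spec
    (IsAlgClosed.exists_pow_nat_eq ((p : Om p) ^ i * (1 + (p : Om p)) ^ j) hp.out.pos)

theorem h51k_rt_ne_zero (i j : ℕ) : h51k_rt p i j ≠ 0 := by
  intro h0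
  have h := h51k_rt_pow (p := p) i j
  rw [h0, zero_pow hp.out.ne_zero] at h
  have hp0 : (p : Om p) ≠ 0 := by exact_mod_cast hp.out.ne_zero
  have hp1 : (1 + (p : Om p)) ≠ 0 := by
    have : ((1 + p : ℕ) : Om p) ≠ 0 := by exact_mod_cast (Nat.succ_ne_zero p ∘ (by omega))
    simpa using this
  exact mul_ne_zero (pow_ne_zero i hp0) (pow_ne_zero j hp1) h.symm

/-- the shape of the Kummer generator: `a = ζ ^ m · y · r_{ij}`. -/
theorem h51k_code (hp2 : p ≠ 2) (c : Gq p → ZMod p) (hc : h51k_TCoc c)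
    (hcont : Cont1 (⊥ : LF p) c) :
    ∃ i j : ℕ, i < p ∧ j < p ∧ ∃ (m : ℕ) (y : ℚ_[p]), y ≠ 0 ∧ m < p ∧ ∀ g : Gq p,
      g (zetaL p p ^ m * algebraMap ℚ_[p] (Om p) y * h51k_rt p i j) =
        zetaL p p ^ (c g).val * (zetaL p p ^ m * algebraMap ℚ_[p] (Om p) y * h51k_rt p i j) := by
  obtain ⟨hprim, hU, hact⟩ := h6z_chiZeta p p
  obtain ⟨a, ha⟩ := h51k_kummer c hc hcont
  have ha0 : (a : Om p) ≠ 0 := a.ne_zero
  -- `a ^ p ∈ ℚ_p`
  have hfix : (a : Om p) ^ p ∈ (⊥ : LF p) := by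
    apply h7kc_mem_of_fixed
    intro g _
    rw [map_pow, ha g, mul_pow, ← pow_mul, mul_comm (c g).val p, pow_mul, hprim.pow_eq_one,
      one_pow, one_mul]
  obtain ⟨b, hb⟩ := IntermediateField.mem_bot.mp hfix
  have hb0 : b ≠ 0 := by
    rintro rfl
    rw [map_zero] at hb
    exact pow_ne_zero p ha0 hb.symm
  obtain ⟨i, j, hi, hj, y, hy0, hby⟩ := h51k_qp_reps hp2 b hb0
  have hyO : algebraMap ℚ_[p] (Om p) y ≠ 0 := by
    intro h0
    exact hy0 ((algebraMap ℚ_[p] (Om p)).injective (by rw [h0, map_zero]))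
  have hr0 := h51k_rt_ne_zero (p := p) i j
  -- `(a / (y r)) ^ p = 1`
  have hone : ((a : Om p) * (algebraMap ℚ_[p] (Om p) y * h51k_rt p i j)⁻¹) ^ p = 1 := by
    rw [mul_pow, inv_pow, mul_pow, h51k_rt_pow, ← hb, hby]
    simp only [map_mul, map_pow, map_add, map_one, map_natCast]
    have h1 : (algebraMap ℚ_[p] (Om p) y ^ p * ((p : Om p) ^ i * (1 + (p : Om p)) ^ j)) ≠ 0 := by
      rw [← h51k_rt_pow]
      exact mul_ne_zero (pow_ne_zero p hyO) (pow_ne_zero p hr0)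
    rw [mul_comm ((p : Om p) ^ i * (1 + (p : Om p)) ^ j)]
    exact mul_inv_cancel₀ h1
  obtain ⟨m, hm, hζm⟩ := hprim.eq_pow_of_pow_eq_one hone
  have haeq : (a : Om p) = zetaL p p ^ m * algebraMap ℚ_[p] (Om p) y * h51k_rt p i j := by
    rw [hζm, mul_assoc, inv_mul_cancel_right₀ (mul_ne_zero hyO hr0)]
  refine ⟨i, j, hi, hj, m, y, hy0, hm, fun g => ?_⟩
  rw [← haeq]
  exact ha g

/-- the code determines the cocycle. -/
theorem h51k_code_inj (c c' : Gq p → ZMod p) (i j m : ℕ) (y y' : ℚ_[p]) (hy : y ≠ 0)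
    (hy' : y' ≠ 0)
    (h : ∀ g : Gq p,
      g (zetaL p p ^ m * algebraMap ℚ_[p] (Om p) y * h51k_rt p i j) =
        zetaL p p ^ (c g).val * (zetaL p p ^ m * algebraMap ℚ_[p] (Om p) y * h51k_rt p i j))
    (h' : ∀ g : Gq p,
      g (zetaL p p ^ m * algebraMap ℚ_[p] (Om p) y' * h51k_rt p i j) =
        zetaL p p ^ (c' g).val *
          (zetaL p p ^ m * algebraMap ℚ_[p] (Om p) y' * h51k_rt p i j)) :
    c = c' := by
  obtain ⟨hprim, hU, hact⟩ := h6z_chiZeta p p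
  have hζ0 : zetaL p p ≠ 0 := hprim.ne_zero hp.out.ne_zero
  have hr0 := h51k_rt_ne_zero (p := p) i j
  have hyO : ∀ z : ℚ_[p], z ≠ 0 → algebraMap ℚ_[p] (Om p) z ≠ 0 := by
    intro z hz h0
    exact hz ((algebraMap ℚ_[p] (Om p)).injective (by rw [h0, map_zero]))
  set A : Om p := zetaL p p ^ m * h51k_rt p i j with hA
  have hA0 : A ≠ 0 := mul_ne_zero (pow_ne_zero m hζ0) hr0
  have key : ∀ (c₀ : Gq p → ZMod p) (z : ℚ_[p]), z ≠ 0 →
      (∀ g : Gq p,
        g (zetaL p p ^ m * algebraMap ℚ_[p] (Om p) z * h51k_rt p i j) =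
          zetaL p p ^ (c₀ g).val *
            (zetaL p p ^ m * algebraMap ℚ_[p] (Om p) z * h51k_rt p i j)) →
      ∀ g : Gq p, g A = zetaL p p ^ (c₀ g).val * A := by
    intro c₀ z hz hh g
    have h1 := hh g
    have h2 : zetaL p p ^ m * algebraMap ℚ_[p] (Om p) z * h51k_rt p i j
        = algebraMap ℚ_[p] (Om p) z * A := by rw [hA]; ring
    rw [h2, map_mul, AlgEquiv.commutes] at h1
    have h3 : algebraMap ℚ_[p] (Om p) z * g A
        = algebraMap ℚ_[p] (Om p) z * (zetaL p p ^ (c₀ g).val * A) := by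
      rw [h1]; ring
    exact mul_left_cancel₀ (hyO z hz) h3
  funext g
  have e1 := key c y hy h g
  have e2 := key c' y' hy' h' g
  have e3 : zetaL p p ^ (c g).val = zetaL p p ^ (c' g).val := by
    have : zetaL p p ^ (c g).val * A = zetaL p p ^ (c' g).val * A := by rw [← e1, ← e2]
    exact mul_right_cancel₀ hA0 this
  haveI : NeZero p := ⟨hp.out.ne_zero⟩
  have e4 : (c g).val = (c' g).val :=
    hprim.pow_inj (ZMod.val_lt _) (ZMod.val_lt _) e3
  exact ZMod.val_injective p e4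

/-- the set of continuous twisted cocycles. -/
def h51k_S (p : ℕ) [hp : Fact p.Prime] : Set (Gq p → ZMod p) :=
  {c | h51k_TCoc c ∧ Cont1 (⊥ : LF p) c}

/-- **counting**: there are at most `p ^ 3` continuous twisted cocycles. -/
theorem h51k_card_le (hp2 : p ≠ 2) :
    Finite (h51k_S p) ∧ Nat.card (h51k_S p) ≤ p ^ 3 := by
  classical
  haveI : NeZero p := ⟨hp.out.ne_zero⟩
  have hex : ∀ c : h51k_S p, ∃ t : Fin p × Fin p × Fin p, ∃ y : ℚ_[p], y ≠ 0 ∧ ∀ g : Gq p,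
      g (zetaL p p ^ (t.2.2 : ℕ) * algebraMap ℚ_[p] (Om p) y * h51k_rt p t.1 t.2.1) =
        zetaL p p ^ (c.1 g).val *
          (zetaL p p ^ (t.2.2 : ℕ) * algebraMap ℚ_[p] (Om p) y * h51k_rt p t.1 t.2.1) := by
    intro c
    obtain ⟨i, j, hi, hj, m, y, hy, hm, h⟩ := h51k_code hp2 c.1 c.2.1 c.2.2
    exact ⟨(⟨i, hi⟩, ⟨j, hj⟩, ⟨m, hm⟩), y, hy, h⟩
  choose f hf using hex
  have hinj : Function.Injective f := by
    intro c c' hcc
    obtain ⟨y, hy, h⟩ := hf c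
    obtain ⟨y', hy', h'⟩ := hf c'
    rw [← hcc] at h'
    exact Subtype.ext (h51k_code_inj c.1 c'.1 _ _ _ y y' hy hy' h h')
  haveI : Finite (h51k_S p) := Finite.of_injective f hinj
  refine ⟨inferInstance, ?_⟩
  have := Nat.card_le_card_of_injective f hinj
  simpa [Nat.card_prod, pow_succ, mul_assoc] using this

end Kummer

/-! ## The frozen leaf -/

section Final

open Fermat.Agent.PT Fermat.Agent.PT.Loc

/-- the `𝔽_p`-coordinates of a cocycle with values in `k(ω)` are continuous twisted cocycles. -/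
theorem h51k_coord_mem (k : Type) [Field k] (pp : Nat.Primes)
    [hp : Fact (pp : ℕ).Prime] [CharP k (pp : ℕ)]
    (c : primeLocalGaloisGroup pp → k)
    (hc : c ∈ Z1 (h14l_lev pp) (h14l_cycRep k (pp : ℕ) pp))
    (φ : k →+ ZMod (pp : ℕ))
    (hφ : ∀ (a : ZMod (pp : ℕ)) (x : k),
      φ (ZMod.castHom (dvd_refl (pp : ℕ)) k a * x) = a * φ x) :
    (fun g : Gq (pp : ℕ) => φ (c g)) ∈ h51k_S (pp : ℕ) := by
  obtain ⟨h1, h2⟩ := hc
  refine ⟨?_, ?_⟩
  · intro g h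
    have e : h14l_cycRep k (pp : ℕ) pp g (c h) - c (g * h) + c g = 0 :=
      congrFun (LinearMap.mem_ker.mp h1) ((g : primeLocalGaloisGroup pp), h)
    have e2 : h14l_cycRep k (pp : ℕ) pp g (c h)
        = ZMod.castHom (dvd_refl (pp : ℕ)) k (chiL (pp : ℕ) (pp : ℕ) g) * c h := rfl
    rw [e2] at e
    have e3 : c (g * h)
        = ZMod.castHom (dvd_refl (pp : ℕ)) k (chiL (pp : ℕ) (pp : ℕ) g) * c h + c g := by
      have := sub_eq_zero.mp (show (ZMod.castHom (dvd_refl (pp : ℕ)) k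
        (chiL (pp : ℕ) (pp : ℕ) g) * c h + c g) - c (g * h) = 0 by
          rw [← e]; ring)
      exact this.symm
    change φ (c (g * h)) = chiL (pp : ℕ) (pp : ℕ) g * φ (c h) + φ (c g)
    rw [e3, map_add, hφ]
  · have h3 : IsLC1 (levLoc (pp : ℕ)) (fun g : Gq (pp : ℕ) => φ (c g)) :=
      IsLC1.comp (L := levLoc (pp : ℕ)) (f := (c : Gq (pp : ℕ) → k)) h2 φ
    exact h70k_cont1_of_isLC1 _ h3

/-- **LOC-KUM.**  `dim Z¹(G_p, k(ω)) ≤ 3`. -/
theorem h51k_kum : h14l_Kum := by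
  intro p hp hp2 k _ _ _ pp hpp
  subst hpp
  classical
  letI : Algebra (ZMod (pp : ℕ)) k := ZMod.algebra k (pp : ℕ)
  haveI : Module.Finite (ZMod (pp : ℕ)) k := Module.Finite.of_finite
  set Z := Z1 (h14l_lev pp) (h14l_cycRep k (pp : ℕ) pp) with hZ
  let b := Module.finBasis (ZMod (pp : ℕ)) k
  set d := Module.finrank (ZMod (pp : ℕ)) k with hd
  obtain ⟨hSfin, hScard⟩ := h51k_card_le (p := (pp : ℕ)) hp2
  -- the coordinate map
  have hmem : ∀ (c : ↥Z) (i : Fin d),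
      (fun g : Gq (pp : ℕ) => b.repr (c.1 g) i) ∈ h51k_S (pp : ℕ) := by
    intro c i
    have := h51k_coord_mem k pp c.1 c.2 ((b.coord i : k →ₗ[ZMod (pp : ℕ)] ZMod (pp : ℕ)) : k →+ _)
      (by
        intro a x
        have h1 : ZMod.castHom (dvd_refl (pp : ℕ)) k a * x = a • x := by
          rw [Algebra.smul_def]
          rfl
        rw [h1]
        simp)
    exact this
  let Φ : ↥Z → (Fin d → ↥(h51k_S (pp : ℕ))) := fun c i => ⟨_, hmem c i⟩
  have hΦ : Function.Injective Φ := by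
    intro c c' h
    apply Subtype.ext
    funext g
    apply b.repr.injective
    ext i
    have h1 := congrArg (fun F => (F i).1 g) h
    exact h1
  haveI : Finite ↥Z := Finite.of_injective Φ hΦ
  have hcard1 : Nat.card ↥Z ≤ (pp : ℕ) ^ (3 * d) := by
    calc Nat.card ↥Z ≤ Nat.card (Fin d → ↥(h51k_S (pp : ℕ))) :=
          Nat.card_le_card_of_injective Φ hΦ
      _ = Nat.card ↥(h51k_S (pp : ℕ)) ^ d := by
          rw [Nat.card_fun, Nat.card_fin]
      _ ≤ ((pp : ℕ) ^ 3) ^ d := Nat.pow_le_pow_left hScard d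
      _ = (pp : ℕ) ^ (3 * d) := by rw [← pow_mul]
  have hk : Nat.card k = (pp : ℕ) ^ d := by
    rw [Module.natCard_eq_pow_finrank (K := ZMod (pp : ℕ)) (V := k), Nat.card_zmod]
  haveI : Module.Finite k ↥Z := Module.Finite.of_finite
  have hZc : Nat.card ↥Z = Nat.card k ^ Module.finrank k ↥Z :=
    Module.natCard_eq_pow_finrank (K := k) (V := ↥Z)
  have hk1 : 1 < Nat.card k := Finite.one_lt_card
  have hle : Module.finrank k ↥Z ≤ 3 := by
    have h1 : Nat.card k ^ Module.finrank k ↥Z ≤ Nat.card k ^ 3 := by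
      rw [← hZc, hk, ← pow_mul, mul_comm d 3]
      exact hcard1
    exact (Nat.pow_le_pow_iff_right hk1).mp h1
  have hle' : Module.finrank k ↥Z ≤ Module.finrank k (Fin 3 → k) := by
    rw [Module.finrank_fin_fun]
    exact hle
  exact finrank_le_iff_exists_linearMap.mp hle'

end Final

end Fermat.Agent.S56L
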