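import Fermat.Agent.S56L.Defs
import Fermat.Agent.S36.H81Cyc
import Fermat.Agent.PT.Bridge.DQGood
import Fermat.Agent.PT.Bridge.Inertia
import Fermat.Agent.PT.Loc.H6ChiZeta

/-!
# S56, block LOC, leaf LOC-CYCRAM (helper10): the mod `p` cyclotomic character is ramified at `p`

For `p` odd there is an element `s` of the local inertia group at `p` with `ω(s) ≠ 1`
(indeed with `ω(s) = 2`).

Proof: the inertia group of `padicPlace p` is transitive on the primitive `p`-th roots of unity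
(`h81c_transitive`, helper81: `(1 - ζ)^(p-1) = p · unit` and the value group of the inertia field
is generated by `v(p)`); every element of that inertia group comes from the local Galois group
(`h23b_mem_inertia_conj_iff`, helper23).
-/

set_option autoImplicit false
set_option linter.style.haveILetI false

open ExtCitation Polynomial
open scoped Pointwise

noncomputable section

namespace Fermat.Agent.S56L

open Fermat.Agent.PT Fermat.Agent.PT.Bridge Fermat.Agent.PT.Loc Fermat.Agent.S36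

/-- for every `b` prime to `p` there is a local element at `p`, in the inertia group, acting on
the `p`-th roots of unity by `ζ ↦ ζ ^ b`. -/
theorem h10c_exists_inert_cyc (p : ℕ) [Fact p.Prime] {b : ℕ} (hb : ¬ p ∣ b) :
    ∃ h : PadicAlgCl p ≃ₐ[ℚ_[p]] PadicAlgCl p,
      localGaloisToGlobal p h ∈ (padicPlace p).inertiaSubgroupIn ℚ ∧
      ((cycloChar p (localGaloisToGlobal p h) : (ZMod p)ˣ) : ZMod p) = (b : ZMod p) := by
  have hp : p.Prime := Fact.out
  have hξ : IsPrimitiveRoot (zetaG p) p := h6z_zetaG_primitive p hp.ne_zero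
  obtain ⟨σ, hσI, hσζ⟩ := h81c_transitive (A := padicPlace p) hξ hp
    (h23b_padicPlace_liesOver p) hb
  have h1 : σ ∈ ((1 : AlgebraicClosure ℚ ≃ₐ[ℚ] AlgebraicClosure ℚ)⁻¹ •
      padicPlace p).inertiaSubgroupIn ℚ := by
    rw [inv_one, one_smul]
    exact hσI
  obtain ⟨h, -, hσ⟩ := (h23b_mem_inertia_conj_iff p 1 σ).mp h1
  rw [inv_one, one_mul, mul_one] at hσ
  refine ⟨h, hσ ▸ hσI, ?_⟩
  rw [← hσ]
  exact h23b_cycloChar_eq_of_apply p hξ σ b hσζ

/-- **LOC-CYCRAM**, in terms of `cycloChar`. -/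
theorem h10c_cycRam_cycloChar (p : ℕ) [Fact p.Prime] (hp2 : p ≠ 2) (pp : Nat.Primes)
    (hpp : (pp : ℕ) = p) :
    ∃ s ∈ h14l_inert pp, cycloChar p (primeLocalToGlobal pp s) ≠ 1 := by
  have hp : p.Prime := Fact.out
  subst hpp
  have hb : ¬ (pp : ℕ) ∣ 2 := by
    intro hd
    exact hp2 ((Nat.prime_dvd_prime_iff_eq hp Nat.prime_two).mp hd)
  obtain ⟨h, hI, hc⟩ := h10c_exists_inert_cyc (pp : ℕ) hb
  refine ⟨h, hI, fun h1 => ?_⟩
  have h2 : ((cycloChar (pp : ℕ) (localGaloisToGlobal (pp : ℕ) h) : (ZMod (pp : ℕ))ˣ) :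
      ZMod (pp : ℕ)) = 1 := by
    have h3 : cycloChar (pp : ℕ) (localGaloisToGlobal (pp : ℕ) h) = 1 := h1
    rw [h3]
    rfl
  rw [hc] at h2
  have h4 : ((2 : ℕ) : ZMod (pp : ℕ)) = ((1 : ℕ) : ZMod (pp : ℕ)) := by
    rw [h2, Nat.cast_one]
  rw [ZMod.natCast_eq_natCast_iff'] at h4
  have h5 : (pp : ℕ) ≠ 1 := hp.one_lt.ne'
  have h6 : 3 ≤ (pp : ℕ) := by
    have := hp.two_le
    omega
  rw [Nat.mod_eq_of_lt (by omega : 2 < (pp : ℕ)), Nat.mod_eq_of_lt (by omega : 1 < (pp : ℕ))]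
    at h4
  omega

/-- **LOC-CYCRAM.**  For `p` odd the mod `p` cyclotomic character is ramified at `p`. -/
theorem h10c_cycRam (p : ℕ) [Fact p.Prime] (hp2 : p ≠ 2) (k : Type) [Field k] [CharP k p]
    (pp : Nat.Primes) (hpp : (pp : ℕ) = p) :
    ∃ s ∈ h14l_inert pp, h14l_locCyc k p pp s ≠ 1 := by
  obtain ⟨s, hs, hc⟩ := h10c_cycRam_cycloChar p hp2 pp hpp
  refine ⟨s, hs, fun h1 => hc ?_⟩
  unfold h14l_locCyc at h1
  have hinj : Function.Injective (ZMod.castHom (dvd_refl p) k) :=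
    (ZMod.castHom (dvd_refl p) k).injective
  have h2 : ((cycloChar p (primeLocalToGlobal pp s) : (ZMod p)ˣ) : ZMod p) = 1 := by
    apply hinj
    rw [h1, map_one]
  exact Units.ext h2

end Fermat.Agent.S56L
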