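import Fermat.Agent.S56L.H52StrUniq
import Fermat.Agent.S56L.H10CycRam

/-!
# S56, block LOC, leaf LOC-STRUNIQ (helper52): the unconditional frozen Prop

`h52l_strLineUnique : h14l_StrLineUnique`, from `h52l_strLineUnique_of` and the landed
LOC-CYCRAM (`h10c_cycRam`, helper10).
-/

set_option autoImplicit false

noncomputable section

namespace Fermat.Agent.S56L

/-- LOC-CYCRAM in the form used by `h52l_strLineUnique_of`. -/
theorem h52l_cycRam : h52l_CycRam :=
  fun p _ hp2 k _ _ pp hpp => h10c_cycRam p hp2 k pp hpp

/-- **LOC-STRUNIQ** (exact frozen Prop, unconditional). -/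
theorem h52l_strLineUnique : h14l_StrLineUnique :=
  h52l_strLineUnique_of h52l_cycRam

end Fermat.Agent.S56L
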