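import Fermat.Agent.S56L.IfaceAbs
import Fermat.Agent.PT.Glob.K.H65TameLoc
import Fermat.Agent.PT.Loc.H23KDim
import Fermat.Agent.PT.Loc.H48LocBase
import Fermat.Agent.PT.Loc.AdCyc99
import Fermat.Agent.PT.Bridge.RelDict
import Fermat.Agent.PT.Bridge.Unram

/-!
# S56, block LOC, row LOC-TAME (helper96): `h96t_tameExists : h14l_TameExists`

PT instantiation of the tame datum: below every open normal subgroup `Γ₀ ⊇ I_q` of the local
group at `q ≠ p` of index prime to `p` there is `Γ' = G_E` with a tame datum.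

* `E = Kur ⊥ n = ℚ_q(μ_{q^n - 1})`, `n = [G_q : Γ₀] · (p - 1)`: unramified of degree `n` prime to
  `p`, `μ_p ⊆ E` (`p ∣ q^n - 1`), `G_E ⊆ Γ₀` (`Γ₀ ⊇ I_q · G_F` for a finite `F`, hence
  `Γ₀ ⊇ G_{Kur ⊥ m}` for some `m`; `φ^n ∈ Γ₀` for a Frobenius element `φ`).
* `ν` = the index in `Gal(Kur E p / E) = ⟨φ_E⟩` (unramified, conjugation invariant because
  `Kur E p = Kur ⊥ (n p)` is cyclic over `ℚ_q`);  `κ` = the Kummer character of a `p`-th root of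
  a uniformizer of `E`.
* `ν ∪ κ` is not a coboundary: the tame symbol `h65t_tame_loc` (helper65).
* `Z¹(G_E, 𝔽_p)` has dimension `2` (`h23k_finrank_Z1`, `h48_h1DimRel`), `ν ≠ 0` and `κ` is not a
  multiple of `ν` (`ν ∪ ν = ∂(-ν²/2)` is a coboundary, `p` odd), so `ν`, `κ` span.
-/

set_option autoImplicit false
set_option linter.style.haveILetI false
set_option linter.unusedSectionVars false

open ExtCitation

noncomputable section

namespace Fermat.Agent.S56L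

open Fermat.Agent.PT Fermat.Agent.PT.Bridge Fermat.Agent.PT.Loc

/-! ## Arithmetic -/

/-- `p ∣ q ^ (m (p - 1)) - 1` for primes `q ≠ p`. -/
theorem h96t_dvd_pow_sub_one {p q : ℕ} (hp : p.Prime) (hq : q.Prime) (hqp : q ≠ p) (m : ℕ) :
    p ∣ q ^ (m * (p - 1)) - 1 := by
  have hcop : Nat.Coprime q p := (Nat.coprime_primes hq hp).2 hqp
  have h1 : q ^ (p - 1) ≡ 1 [MOD p] := by
    have := Nat.ModEq.pow_totient hcop
    rwa [Nat.totient_prime hp] at this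
  have h2 : q ^ (m * (p - 1)) ≡ 1 [MOD p] := by
    rw [mul_comm, pow_mul]
    simpa using h1.pow m
  exact (Nat.modEq_iff_dvd' (Nat.one_le_pow _ _ hq.pos)).1 h2.symm

/-- `n₀ (p - 1)` is prime to `p` if `n₀` is. -/
theorem h96t_coprime_mul {p n₀ : ℕ} (hp : p.Prime) (h : Nat.Coprime n₀ p) :
    Nat.Coprime (n₀ * (p - 1)) p := by
  refine Nat.Coprime.mul_left h ?_
  rw [Nat.coprime_comm, Nat.Prime.coprime_iff_not_dvd hp]
  intro hdvd
  have h1 : 0 < p - 1 := by have := hp.two_le; omega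
  have h2 := Nat.le_of_dvd h1 hdvd
  omega

/-! ## The unramified extensions of `ℚ_q` -/

section Field

variable {q : ℕ} [Fact q.Prime]

theorem h96t_resCard_bot : resCard (⊥ : LF q) = q := (h48f_lfBase q).2.1

theorem h96t_mem_GK_bot (g : Gq q) : g ∈ GK (⊥ : LF q) := by
  rw [IntermediateField.mem_fixingSubgroup_iff]
  intro x hx
  obtain ⟨a, rfl⟩ := IntermediateField.mem_bot.1 hx
  exact g.commutes a

/-- inertia fixes the unramified extensions. -/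
theorem h96t_inert_mem_GK_Kur {n : ℕ} (hn : 0 < n) {i : Gq q} (hi : IsInert (⊥ : LF q) i) :
    i ∈ GK (Kur (⊥ : LF q) n) := by
  rw [h66u_mem_GK_Kur]
  refine ⟨hi.1, fun w hw => hi.2 w (resCard (⊥ : LF q) ^ n - 1) ?_ ?_ hw⟩
  · rw [h96t_resCard_bot]
    exact h23b_pow_sub_one_pos q hn
  · rw [h96t_resCard_bot]
    exact h23b_not_dvd_pow_sub_one q hn

theorem h96t_finiteDimensional_Kur {n : ℕ} (hn : 0 < n) :
    FiniteDimensional ℚ_[q] (Kur (⊥ : LF q) n) :=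
  (h48f_urVal q (⊥ : LF q) n hn).1

theorem h96t_isCyc_Kur {n : ℕ} (hn : 0 < n) :
    ∃ φ : Gq q, IsFrob (⊥ : LF q) φ ∧ IsCyc (⊥ : LF q) (Kur (⊥ : LF q) n) n φ := by
  obtain ⟨φ, hφ⟩ := h48f_urFrob q (⊥ : LF q)
  exact ⟨φ, hφ, h48f_urCyc q (⊥ : LF q) n φ hn hφ⟩

theorem h96t_normal_GK_Kur {n : ℕ} (hn : 0 < n) : (GK (Kur (⊥ : LF q) n)).Normal := by
  obtain ⟨φ, -, hc⟩ := h96t_isCyc_Kur (q := q) hn
  exact ⟨fun s hs g => hc.normal g (h96t_mem_GK_bot g) s hs⟩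

theorem h96t_index_GK_Kur {n : ℕ} (hn : 0 < n) : (GK (Kur (⊥ : LF q) n)).index = n := by
  obtain ⟨φ, -, hc⟩ := h96t_isCyc_Kur (q := q) hn
  have h := h99ac_index hc
  have htop : GK (⊥ : LF q) = ⊤ := by
    ext g
    exact ⟨fun _ => Subgroup.mem_top g, fun _ => h96t_mem_GK_bot g⟩
  have h2 : (GK (Kur (⊥ : LF q) n)).relIndex (GK (⊥ : LF q)) = n := h
  rw [htop, Subgroup.relIndex_top_right] at h2
  exact h2

theorem h96t_zeta_mem (p : ℕ) [Fact p.Prime] {n : ℕ} (hdvd : p ∣ q ^ n - 1) :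
    zetaL p q ∈ Kur (⊥ : LF q) n := by
  apply h66u_mem_Kur_of_pow
  rw [h96t_resCard_bot]
  obtain ⟨c, hc⟩ := hdvd
  rw [hc, pow_mul, ((h48f_chiZeta q p).1).pow_eq_one, one_pow]

theorem h96t_isOpen_GK (E : LF q) [FiniteDimensional ℚ_[q] E] :
    (levFin.comap (localGaloisToGlobal q)).IsOpen (GK E) :=
  (h23b_isOpen_levLoc_iff q (GK E)).2 ⟨E, inferInstance, rfl⟩

/-- an open normal subgroup `Γ₀ ⊇ I_q` contains `G_{Kur ⊥ n}` for every multiple `n > 0` of its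
index. -/
theorem h96t_GK_Kur_le (Γ₀ : Subgroup (Gq q)) [Γ₀.Normal]
    (hopen : (levFin.comap (localGaloisToGlobal q)).IsOpen Γ₀)
    (hI : ∀ i, IsInert (⊥ : LF q) i → i ∈ Γ₀) {n : ℕ} (hn : 0 < n) (hdvd : Γ₀.index ∣ n) :
    GK (Kur (⊥ : LF q) n) ≤ Γ₀ := by
  obtain ⟨E0, hE0, hΓ⟩ := (h23b_isOpen_levLoc_iff q Γ₀).1 hopen
  haveI := hE0
  obtain ⟨m, hm, hlev⟩ := h36n_exists_level h48f_lfTeich (⊥ : LF q) E0
  have hm_le : GK (Kur (⊥ : LF q) m) ≤ Γ₀ := by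
    intro s hs
    obtain ⟨i, hi, hmem⟩ := hlev s hs
    have e : s = i * (i⁻¹ * s) := by group
    rw [e]
    refine mul_mem (hI i hi) ?_
    rw [hΓ]
    exact hmem
  obtain ⟨φ, hφ⟩ := h48f_urFrob q (⊥ : LF q)
  have hM : 0 < n * m := Nat.mul_pos hn hm
  have hcM := h48f_urCyc q (⊥ : LF q) (n * m) φ hM hφ
  have hcn := h48f_urCyc q (⊥ : LF q) n φ hn hφ
  intro s hs
  have hs0 : s ∈ GK (⊥ : LF q) := h96t_mem_GK_bot s
  have h1 : (φ ^ cycIdx (Kur (⊥ : LF q) (n * m)) φ (n * m) s)⁻¹ * s ∈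
      GK (Kur (⊥ : LF q) (n * m)) := h65_idx_mem hcM hs0
  generalize cycIdx (Kur (⊥ : LF q) (n * m)) φ (n * m) s = j at h1
  have h2 : (φ ^ j)⁻¹ * s ∈ Γ₀ :=
    hm_le (h36n_GK_Kur_anti _ (Dvd.intro_left n rfl) h1)
  have h3 : cycIdx (Kur (⊥ : LF q) n) φ n s = j % n :=
    h65_idx_eq_mod hcn hs0 (h36n_GK_Kur_anti _ (Dvd.intro m rfl) h1)
  have h4 : cycIdx (Kur (⊥ : LF q) n) φ n s = 0 := h65_idx_of_mem hcn hs
  have h5 : n ∣ j := Nat.dvd_of_mod_eq_zero (by rw [← h3, h4])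
  obtain ⟨d, hd⟩ := hdvd.trans h5
  have h6 : φ ^ j ∈ Γ₀ := by
    rw [hd, pow_mul]
    exact Subgroup.pow_mem _ (Subgroup.pow_index_mem Γ₀ φ) d
  have e : s = φ ^ j * ((φ ^ j)⁻¹ * s) := by group
  rw [e]
  exact mul_mem h6 h2

/-- commutators act trivially on a cyclic extension of `ℚ_q`. -/
theorem h96t_comm_mem {K₁ : LF q} {N : ℕ} {φ : Gq q} (hc : IsCyc (⊥ : LF q) K₁ N φ)
    (g s : Gq q) : g * s * g⁻¹ * s⁻¹ ∈ GK K₁ := by
  have hg := h96t_mem_GK_bot g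
  have hs := h96t_mem_GK_bot s
  have hgi := h96t_mem_GK_bot g⁻¹
  have hsi := h96t_mem_GK_bot s⁻¹
  have hx := h96t_mem_GK_bot (g * s * g⁻¹ * s⁻¹)
  have e1 := h57_cycIdx_mul hc (h96t_mem_GK_bot (g * s * g⁻¹)) hsi
  have e2 := h57_cycIdx_mul hc (h96t_mem_GK_bot (g * s)) hgi
  have e3 := h57_cycIdx_mul hc hg hs
  have e4 := h57_cycIdx_mul hc hg hgi
  have e5 := h57_cycIdx_mul hc hs hsi
  rw [mul_inv_cancel] at e4 e5
  have e6 : cycIdx K₁ φ N 1 = 0 := h65_idx_of_mem hc (one_mem _)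
  rw [e6, Nat.cast_zero] at e4 e5
  have e7 : ((cycIdx K₁ φ N (g * s * g⁻¹ * s⁻¹) : ℕ) : ZMod N) = 0 := by
    rw [e1, e2, e3]
    linear_combination (-1 : ZMod N) * e4 - e5
  have hlt := h65_idx_lt hc hx
  have e8 : cycIdx K₁ φ N (g * s * g⁻¹ * s⁻¹) = 0 :=
    Nat.eq_zero_of_dvd_of_lt ((ZMod.natCast_eq_zero_iff _ _).1 e7) hlt
  have h := h65_idx_mem hc hx
  rw [e8] at h
  simpa using h

end Field

/-! ## The two characters (relative language) -/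

section Chars

variable {q : ℕ} [Fact q.Prime]

/-- the unramified character `ν`, the Kummer character `κ` of a uniformizer, and the tame
symbol. -/
theorem h96t_chars (p : ℕ) [Fact p.Prime] (E : LF q) [FiniteDimensional ℚ_[q] E]
    (hζE : zetaL p q ∈ E) :
    ∃ (ν κ : Gq q → ZMod p) (φ : Gq q),
      ACoc1 E ν ∧ Cont1 E ν ∧ ACoc1 E κ ∧ Cont1 E κ ∧ φ ∈ GK E ∧ ν φ = 1 ∧
      (∀ s ∈ GK (Kur E p), ν s = 0) ∧ ¬ ACohom E (acup ν κ) 0 := by
  have hp : p.Prime := Fact.out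
  have hq : q.Prime := Fact.out
  have hζ : IsPrimitiveRoot (zetaL p q) p := (h48f_chiZeta q p).1
  obtain ⟨φ, hφ⟩ := h48f_urFrob q E
  have hc : IsCyc E (Kur E p) p φ := h48f_urCyc q E p φ hp.pos hφ
  obtain ⟨π, hπ⟩ := (h48f_lfUnif q E).1
  obtain ⟨B, hB⟩ := IsAlgClosed.exists_pow_nat_eq π hp.pos
  have hBunif : IsUnif E (B ^ p) := by
    rw [hB]
    exact hπ
  have hB0 : B ≠ 0 := by
    rintro rfl
    rw [zero_pow hp.ne_zero] at hB
    exact hπ.2.1 hB.symm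
  obtain ⟨hκ1, hκc, -⟩ := h48f_kumBasic q p E (zetaL p q) B hζE hζ hB0 hBunif.1
  have hνφ : ((cycIdx (Kur E p) φ p φ : ℕ) : ZMod p) = 1 := by
    rw [h57_cycIdx_self hc hp.one_lt, Nat.cast_one]
  have hvan : ∀ s ∈ GK (Kur E p), ((cycIdx (Kur E p) φ p s : ℕ) : ZMod p) = 0 := by
    intro s hs
    rw [h57_cycIdx_of_mem hc hs, Nat.cast_zero]
  refine ⟨fun g => (cycIdx (Kur E p) φ p g : ZMod p), kum p (zetaL p q) B, φ,
    h57_cycIdx_acoc1 hc, h57_cycIdx_cont1 hc, hκ1, hκc, hφ.1, hνφ, hvan, ?_⟩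
  refine h65t_tame_loc p E (zetaL p q) B _ φ hζE hζ hBunif hφ (h57_cycIdx_acoc1 hc)
    (h57_cycIdx_cont1 hc) ?_ ?_
  · intro i hi
    apply hvan
    obtain ⟨-, ⟨f, hf, hN⟩, -, -, -⟩ := h48f_lfTeich q E
    rw [h66u_mem_GK_Kur]
    refine ⟨hi.1, fun w hw => hi.2 w (resCard E ^ p - 1) ?_ ?_ hw⟩
    · have := h66u_two_le_pow hq hf hN hp.pos
      omega
    · exact h66u_not_dvd_pred hq hf hN hp.pos
  · show ((cycIdx (Kur E p) φ p φ : ℕ) : ZMod p) ≠ 0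
    rw [hνφ]
    exact one_ne_zero

/-- `ν ∪ (c ν)` is a coboundary (`p` odd). -/
theorem h96t_cup_self (p : ℕ) [Fact p.Prime] (hp2 : p ≠ 2) (E : LF q) (ν κ : Gq q → ZMod p)
    (hν1 : ACoc1 E ν) (hνc : Cont1 E ν) (c : ZMod p) (h : ∀ g ∈ GK E, κ g = c * ν g) :
    ACohom E (acup ν κ) 0 := by
  have hp : p.Prime := Fact.out
  have h2 : (2 : ZMod p) ≠ 0 := by
    intro h0
    have h1 : ((2 : ℕ) : ZMod p) = 0 := by exact_mod_cast h0
    rw [ZMod.natCast_eq_zero_iff] at h1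
    have := Nat.le_of_dvd (by norm_num) h1
    have := hp.two_le
    omega
  refine ⟨fun g => -(c * (2 : ZMod p)⁻¹) * ν g ^ 2,
    h65t_cont1_map (fun a : ZMod p => -(c * (2 : ZMod p)⁻¹) * a ^ 2) hνc, fun g hg g' hg' => ?_⟩
  have e1 := hν1 g hg g' hg'
  have e2 := h g' hg'
  have e3 : (2 : ZMod p) * (2 : ZMod p)⁻¹ = 1 := mul_inv_cancel₀ h2
  simp only [acup, acob, Pi.zero_apply, zero_add]
  rw [e1, e2]
  linear_combination (-(c * ν g * ν g')) * e3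

end Chars

/-! ## The frame form -/

section Frame

variable {q : ℕ} [Fact q.Prime]

/-- the tame datum of `G_E` in the frame language, for a finite extension `E ∋ ζ_p` of `ℚ_q`,
`q ≠ p`, `p` odd. -/
theorem h96t_gen (p : ℕ) [Fact p.Prime] (hp2 : p ≠ 2) (hqp : q ≠ p) (E : LF q)
    [FiniteDimensional ℚ_[q] E] (hζE : zetaL p q ∈ E) :
    ∃ ν κ : ↥(GK E) → ZMod p,
      ν ∈ Z1 (h23r_lev (GK E).subtype) (Representation.trivial (ZMod p) ↥(GK E) (ZMod p)) ∧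
      κ ∈ Z1 (h23r_lev (GK E).subtype) (Representation.trivial (ZMod p) ↥(GK E) (ZMod p)) ∧
      (∀ χ ∈ Z1 (h23r_lev (GK E).subtype) (Representation.trivial (ZMod p) ↥(GK E) (ZMod p)),
        ∃ a b : ZMod p, χ = a • ν + b • κ) ∧
      (∀ s : ↥(GK E), (s : Gq q) ∈ GK (Kur E p) → ν s = 0) ∧
      (∀ s t : ↥(GK E), ν (s * t) = ν s + ν t) ∧
      cup11 (LinearMap.mul (ZMod p) (ZMod p))
          (Representation.trivial (ZMod p) ↥(GK E) (ZMod p)) ν κ ∉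
        B2 (h23r_lev (GK E).subtype) (Representation.trivial (ZMod p) ↥(GK E) (ZMod p)) := by
  have hp : p.Prime := Fact.out
  have hζ : IsPrimitiveRoot (zetaL p q) p := (h48f_chiZeta q p).1
  obtain ⟨ν, κ, φ, hν1, hνc, hκ1, hκc, hφ, hνφ, hvan, hnot⟩ := h96t_chars p E hζE
  have hι : h23r_IsEmb (GK E).subtype E := h23r_isEmb_subtype E
  set ρ : Representation (ZMod p) ↥(GK E) (ZMod p) :=
    Representation.trivial (ZMod p) ↥(GK E) (ZMod p) with hρdef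
  have hρ : ∀ (h : ↥(GK E)) (v : ZMod p), ρ h v = v := fun _ _ => rfl
  have hνZ : h23r_pb1 (GK E).subtype ν ∈ Z1 (h23r_lev (GK E).subtype) ρ :=
    (h23r_mem_Z1_iff hι ρ hρ ν).2 ⟨hν1, hνc⟩
  have hκZ : h23r_pb1 (GK E).subtype κ ∈ Z1 (h23r_lev (GK E).subtype) ρ :=
    (h23r_mem_Z1_iff hι ρ hρ κ).2 ⟨hκ1, hκc⟩
  have hnotB : cup11 (LinearMap.mul (ZMod p) (ZMod p)) ρ (h23r_pb1 (GK E).subtype ν)
      (h23r_pb1 (GK E).subtype κ) ∉ B2 (h23r_lev (GK E).subtype) ρ := by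
    rw [h23r_cup11_pb ρ hρ ν κ, h23r_mem_B2_iff hι ρ hρ]
    exact hnot
  obtain ⟨hfin, hrank⟩ := h23k_finrank_Z1 h48_h1DimRel hι ρ hρ (zetaL p q) hζE hζ
  rw [if_neg hqp, add_zero] at hrank
  haveI := hfin
  -- linear independence
  set v₁ : ↥(Z1 (h23r_lev (GK E).subtype) ρ) := ⟨h23r_pb1 (GK E).subtype ν, hνZ⟩ with hv₁
  set v₂ : ↥(Z1 (h23r_lev (GK E).subtype) ρ) := ⟨h23r_pb1 (GK E).subtype κ, hκZ⟩ with hv₂
  have hv₁0 : v₁ ≠ 0 := by
    intro h0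
    have h1 : h23r_pb1 (GK E).subtype ν ⟨φ, hφ⟩ = 0 := by
      have := congrArg (fun v : ↥(Z1 (h23r_lev (GK E).subtype) ρ) =>
        (v : ↥(GK E) → ZMod p) ⟨φ, hφ⟩) h0
      simpa [hv₁] using this
    have h2 : ν φ = 0 := h1
    rw [hνφ] at h2
    exact one_ne_zero h2
  have hli : LinearIndependent (ZMod p) ![v₁, v₂] := by
    rw [LinearIndependent.pair_iff' hv₁0]
    intro c hc
    apply hnot
    refine h96t_cup_self p hp2 E ν κ hν1 hνc c fun g hg => ?_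
    have := congrArg (fun v : ↥(Z1 (h23r_lev (GK E).subtype) ρ) =>
      (v : ↥(GK E) → ZMod p) ⟨g, hg⟩) hc
    simp only [hv₁, hv₂, Submodule.coe_smul, Pi.smul_apply, smul_eq_mul] at this
    exact this.symm
  have hspan : Submodule.span (ZMod p) (Set.range ![v₁, v₂]) = ⊤ :=
    hli.span_eq_top_of_card_eq_finrank' (by rw [hrank]; rfl)
  refine ⟨h23r_pb1 (GK E).subtype ν, h23r_pb1 (GK E).subtype κ, hνZ, hκZ, ?_, ?_, ?_, hnotB⟩
  · intro χ hχ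
    have hmem : (⟨χ, hχ⟩ : ↥(Z1 (h23r_lev (GK E).subtype) ρ)) ∈
        Submodule.span (ZMod p) (Set.range ![v₁, v₂]) := by
      rw [hspan]
      exact Submodule.mem_top
    rw [Matrix.range_cons, Matrix.range_cons, Matrix.range_empty, Set.union_empty,
      Set.singleton_union, Submodule.mem_span_pair] at hmem
    obtain ⟨a, b, hab⟩ := hmem
    refine ⟨a, b, ?_⟩
    have := congrArg (fun v : ↥(Z1 (h23r_lev (GK E).subtype) ρ) =>
      (v : ↥(GK E) → ZMod p)) hab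
    simp only [hv₁, hv₂, Submodule.coe_add, Submodule.coe_smul] at this
    exact this.symm
  · intro s hs
    exact hvan s hs
  · intro s t
    exact hν1 s s.2 t t.2

end Frame

/-! ## The theorem -/

section Core

variable {q : ℕ} [Fact q.Prime]

/-- **LOC-TAME** in the language of the local Galois group `Gq q`. -/
theorem h96t_core (p : ℕ) [Fact p.Prime] (hp2 : p ≠ 2) (hqp : q ≠ p)
    (Γ₀ : Subgroup (Gq q)) (hN : Γ₀.Normal)
    (hopen : (levFin.comap (localGaloisToGlobal q)).IsOpen Γ₀)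
    (hI : ((padicPlace q).inertiaSubgroupIn ℚ).comap (localGaloisToGlobal q) ≤ Γ₀)
    (h0 : Γ₀.index ≠ 0) (hcop : Nat.Coprime Γ₀.index p) :
    ∃ Γ' : Subgroup (Gq q), Γ' ≤ Γ₀ ∧ Γ'.Normal ∧
      (levFin.comap (localGaloisToGlobal q)).IsOpen Γ' ∧
      ((padicPlace q).inertiaSubgroupIn ℚ).comap (localGaloisToGlobal q) ≤ Γ' ∧
      Γ'.index ≠ 0 ∧ Nat.Coprime Γ'.index p ∧
      ∃ ν κ : ↥Γ' → ZMod p,
        ν ∈ Z1 ((levFin.comap (localGaloisToGlobal q)).comap Γ'.subtype)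
          (Representation.trivial (ZMod p) ↥Γ' (ZMod p)) ∧
        κ ∈ Z1 ((levFin.comap (localGaloisToGlobal q)).comap Γ'.subtype)
          (Representation.trivial (ZMod p) ↥Γ' (ZMod p)) ∧
        (∀ χ ∈ Z1 ((levFin.comap (localGaloisToGlobal q)).comap Γ'.subtype)
            (Representation.trivial (ZMod p) ↥Γ' (ZMod p)),
          ∃ a b : ZMod p, χ = a • ν + b • κ) ∧
        (∀ s : ↥Γ', (s : Gq q) ∈
          ((padicPlace q).inertiaSubgroupIn ℚ).comap (localGaloisToGlobal q) → ν s = 0) ∧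
        (∀ (g : Gq q) (s : ↥Γ') (h : g * (s : Gq q) * g⁻¹ ∈ Γ'), ν ⟨_, h⟩ = ν s) ∧
        cup11 (LinearMap.mul (ZMod p) (ZMod p))
            (Representation.trivial (ZMod p) ↥Γ' (ZMod p)) ν κ ∉
          B2 ((levFin.comap (localGaloisToGlobal q)).comap Γ'.subtype)
            (Representation.trivial (ZMod p) ↥Γ' (ZMod p)) := by
  have hp : p.Prime := Fact.out
  have hq : q.Prime := Fact.out
  -- the degree
  have hn : 0 < Γ₀.index * (p - 1) := by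
    have h1 : 0 < p - 1 := by have := hp.two_le; omega
    exact Nat.mul_pos (Nat.pos_of_ne_zero h0) h1
  have hncop : Nat.Coprime (Γ₀.index * (p - 1)) p := h96t_coprime_mul hp hcop
  have hdvd : p ∣ q ^ (Γ₀.index * (p - 1)) - 1 := h96t_dvd_pow_sub_one hp hq hqp _
  -- the field
  haveI hEfin : FiniteDimensional ℚ_[q] (Kur (⊥ : LF q) (Γ₀.index * (p - 1))) :=
    h96t_finiteDimensional_Kur hn
  have hζE : zetaL p q ∈ Kur (⊥ : LF q) (Γ₀.index * (p - 1)) := h96t_zeta_mem p hdvd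
  have hIle : ∀ i : Gq q, IsInert (⊥ : LF q) i → i ∈ Γ₀ := by
    intro i hi
    apply hI
    exact ((h23b_isInert_iff q ⊥ i).1 hi).2
  have hle : GK (Kur (⊥ : LF q) (Γ₀.index * (p - 1))) ≤ Γ₀ :=
    h96t_GK_Kur_le Γ₀ hopen hIle hn (Dvd.intro _ rfl)
  obtain ⟨φ, -, hcyc⟩ := h96t_isCyc_Kur (q := q) (Nat.mul_pos hn hp.pos)
  have hbc : Kur (Kur (⊥ : LF q) (Γ₀.index * (p - 1))) p =
      Kur (⊥ : LF q) (Γ₀.index * (p - 1) * p) :=
    (h48f_urBaseChange q (⊥ : LF q)).2.1 _ _ hn hp.pos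
  obtain ⟨ν, κ, hνZ, hκZ, hspan, hvan, hadd, hnotB⟩ :=
    h96t_gen p hp2 hqp (Kur (⊥ : LF q) (Γ₀.index * (p - 1))) hζE
  refine ⟨GK (Kur (⊥ : LF q) (Γ₀.index * (p - 1))), hle, h96t_normal_GK_Kur hn,
    h96t_isOpen_GK _, ?_, ?_, ?_, ν, κ, hνZ, hκZ, hspan, ?_, ?_, hnotB⟩
  · intro i hi
    exact h96t_inert_mem_GK_Kur hn ((h23b_isInert_iff q ⊥ i).2 ⟨h96t_mem_GK_bot i, hi⟩)
  · rw [h96t_index_GK_Kur hn]
    exact hn.ne'
  · rw [h96t_index_GK_Kur hn]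
    exact hncop
  · intro s hs
    apply hvan
    rw [hbc]
    exact h96t_inert_mem_GK_Kur (Nat.mul_pos hn hp.pos)
      ((h23b_isInert_iff q ⊥ (s : Gq q)).2 ⟨h96t_mem_GK_bot _, hs⟩)
  · intro g s h
    have hc : g * (s : Gq q) * g⁻¹ * (s : Gq q)⁻¹ ∈
        GK (Kur (Kur (⊥ : LF q) (Γ₀.index * (p - 1))) p) := by
      rw [hbc]
      exact h96t_comm_mem hcyc g s
    have hcE : g * (s : Gq q) * g⁻¹ * (s : Gq q)⁻¹ ∈
        GK (Kur (⊥ : LF q) (Γ₀.index * (p - 1))) :=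
      IntermediateField.fixingSubgroup_antitone (h66u_le_Kur _ _) hc
    have e : (⟨g * (s : Gq q) * g⁻¹, h⟩ : ↥(GK (Kur (⊥ : LF q) (Γ₀.index * (p - 1))))) =
        ⟨g * (s : Gq q) * g⁻¹ * (s : Gq q)⁻¹, hcE⟩ * s := by
      apply Subtype.ext
      show g * (s : Gq q) * g⁻¹ = g * (s : Gq q) * g⁻¹ * (s : Gq q)⁻¹ * (s : Gq q)
      group
    rw [e, hadd, hvan _ hc, zero_add]

end Core

/-- **LOC-TAME** (exact frozen Prop of `S56L/IfaceAbs.lean`). -/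
theorem h96t_tameExists : h14l_TameExists := by
  intro p _ hp2 q hqp Γ₀ hN hopen hI h0 hcop
  haveI : Fact (q : ℕ).Prime := ⟨q.2⟩
  obtain ⟨Γ', hle, hn, ho, hi, h0', hc', ν, κ, h1, h2, h3, h4, h5, h6⟩ :=
    h96t_core (q := (q : ℕ)) p hp2 hqp Γ₀ hN hopen hI h0 hcop
  exact ⟨Γ', hle, ⟨hn, ho, hi, h0', hc', ν, κ, h1, h2, h3, h4, h5, h6⟩⟩

end Fermat.Agent.S56L
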