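import Fermat.Agent.S56L.Iface

/-!
# S56, block LOC (architect helper14): frozen interface, part 2 (what SEL needs at good primes)

The Greenberg–Wiles inequality `H47GW` is applied to a set `S''` which may contain primes where
nothing is ramified (the auxiliary set `T₀`).  At these primes the local condition is the space
`h14l_ZUnr` of unramified cocycles.

* `h14l_LocUnrBound` : if `ρbar` is trivial on the inertia group at `q`, the unramified cocycles
                       contain the coboundaries and span a space of dimension `≤ 3`;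
* `h14l_UnrOfLift`   : the cocycle of a lift unramified at `q` is unramified at `q`
                       (and `ρbar` is trivial on the local inertia group);
* `h14l_UnrOfLiftGlob` : the same at every place above `q` (global form);
* `h14l_LevQOfCoc`   : a continuous cocycle which, together with `ρbar`, is trivial on every
                       inertia group outside `T`, is continuous for the levels unramified
                       outside `T`.
-/

set_option autoImplicit false

open ExtCitation Polynomial

noncomputable section

namespace Fermat.Agent.S56L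

open Fermat.Agent.PT

/-- **LOC-UNR**: at a prime `q` where `ρbar` is unramified, the unramified cocycles contain the
coboundaries and span a space of dimension `≤ 3 = dim B¹ + h⁰`. -/
def h14l_LocUnrBound : Prop :=
  ∀ (k : Type) [Field k] [Finite k] (ρbar : ResidualGaloisRep k) (q : Nat.Primes),
    (∀ s ∈ h14l_inert q, h14l_locRho ρbar q s = 1) →
    B1 (h14l_locAd0 ρbar q) ≤ h14l_ZUnr ρbar q ∧
    ∃ f : ↥(h14l_ZUnr ρbar q) →ₗ[k] (Fin 3 → k), Function.Injective f

/-- **LOC-UNRLIFT** (local form): a lift which is unramified at `q` has `ρbar` trivial on the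
local inertia group and its local cocycle in `h14l_ZUnr`. -/
def h14l_UnrOfLift : Prop :=
  ∀ (k : Type) [Field k] (ρbar : ResidualGaloisRep k) (ρA : GaloisRepAdic (DualNumber k))
    (c : GQ → ↥(h14l_sl ρbar)) (q : Nat.Primes),
    h14l_IsCocycleOf ρbar ρA c → c ∈ Z1 levFin (h14l_Ad0 ρbar) →
    ρA.IsUnramifiedAt (q : ℕ) →
    (∀ s ∈ h14l_inert q, h14l_locRho ρbar q s = 1) ∧
    (fun s => c (primeLocalToGlobal q s)) ∈ h14l_ZUnr ρbar q

/-- **LOC-UNRLIFT** (global form): a lift which is unramified at `q` has `ρbar` and its cocycle
trivial on every inertia group above `q`. -/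
def h14l_UnrOfLiftGlob : Prop :=
  ∀ (k : Type) [Field k] (ρbar : ResidualGaloisRep k) (ρA : GaloisRepAdic (DualNumber k))
    (c : GQ → ↥(h14l_sl ρbar)) (q : ℕ),
    h14l_IsCocycleOf ρbar ρA c → ρA.IsUnramifiedAt q →
    ∀ P : ValuationSubring (AlgebraicClosure ℚ), P.LiesOverPrime q →
      ∀ s ∈ P.inertiaSubgroupIn ℚ, ρbar.ρ s = 1 ∧ c s = 0

/-- **LOC-LEVQ**: a continuous cocycle of `ad⁰ ρbar` which, together with `ρbar`, is trivial on
every inertia group at the primes outside `T`, is continuous for the levels unramified outside
`T`. -/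
def h14l_LevQOfCoc : Prop :=
  ∀ (k : Type) [Field k] [Finite k] (ρbar : ResidualGaloisRep k) (T : Finset Nat.Primes)
    (c : GQ → ↥(h14l_sl ρbar)),
    c ∈ Z1 levFin (h14l_Ad0 ρbar) →
    (∀ q : Nat.Primes, q ∉ T → ∀ P : ValuationSubring (AlgebraicClosure ℚ),
      P.LiesOverPrime (q : ℕ) → ∀ s ∈ P.inertiaSubgroupIn ℚ, ρbar.ρ s = 1 ∧ c s = 0) →
    c ∈ Z1 (levQ T) (h14l_Ad0 ρbar)

end Fermat.Agent.S56L
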