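import Fermat.Agent.S56L.IfaceAbs
import Fermat.Agent.S56L.IfaceSel
import Fermat.Agent.S56L.H14StrLift
import Fermat.Agent.S56L.H14DetCyc
import Fermat.Agent.S56L.H14UnrLift
import Fermat.Agent.S56L.H14LevQ
import Fermat.Agent.S56L.H30StrAbs
import Fermat.Agent.S56L.H30UnipTri
import Fermat.Agent.S56L.H33Infty
import Fermat.Agent.S56L.H33UnipAbs
import Fermat.Agent.S56L.H51Kum
import Fermat.Agent.S56L.H52ResRam
import Fermat.Agent.S56L.H52StrUniqFinal
import Fermat.Agent.S56L.H52UnipLift
import Fermat.Agent.S56L.H72QFinal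
import Fermat.Agent.S56L.H96Tame

/-!
# S56, block LOC (architect helper14): the package, UNCONDITIONAL

`h14l_locPackage : h14l_LocPackage` — every frozen Prop of `S56L/Iface.lean` is proved.

Leaves: LOC-UNIP-TRI (helper30), LOC-TAME (helper96), LOC-UNIP-ABS (helper33), LOC-KUM (helper51),
LOC-STR-ABS (helper30), LOC-Q (helper72), LOC-∞ (helper33), LOC-DETCYC (helper14),
LOC-UNIPLIFT (helper52), LOC-RESRAM (helper52), LOC-STRUNIQ (helper52, helper10),
LOC-STRLIFT (helper14).
-/

set_option autoImplicit false

noncomputable section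

namespace Fermat.Agent.S56L

/-- **LOC-UNIP**, unconditional. -/
theorem h14l_locUnipBound : h14l_LocUnipBound :=
  h14l_locUnipBound_of h30t_unipTri h96t_tameExists h33w_unipAbs

/-- **LOC-p-STR**, unconditional. -/
theorem h14l_locStrBound : h14l_LocStrBound :=
  h14l_locStrBound_of h51k_kum h30s_strAbs

/-- **The LOC package**, unconditional. -/
theorem h14l_locPackage : h14l_LocPackage where
  unip := h14l_locUnipBound
  str := h14l_locStrBound
  tw := h72q_locQBound
  infty := h33i_locInfty
  detCyc := h14d_detCyc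
  unipOfLift := h52l_unipOfLift
  resUnip := h52l_resUnip
  resRam := h52l_resRam
  strUnique := h52l_strLineUnique
  strOfLift := h14s_strOfLift

end Fermat.Agent.S56L
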