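import Fermat.Agent.S56L.Defs

/-!
# S56, block LOC (architect helper14): frozen interface

The local inputs of the Greenberg–Wiles count for `M = ad⁰ ρbar`.  For every place `v` a
`k`-subspace `𝓩_v` of the continuous local cocycles, containing the coboundaries and every
cocycle of a lift satisfying the frozen local condition, with `dim 𝓩_v ≤ 3 + δ_v`
(equivalently `dim 𝓩_v / B¹ ≤ h⁰(G_v, M) + δ_v`, because `dim B¹ = 3 - h⁰`):

* `q ∈ Smin`, `q ≠ p` : `𝓩 = h14l_ZUnip`, `δ = 0`   (`h14l_LocUnipBound`);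
* `v = p`, strict     : `𝓩 = h14l_ZStr L`, `δ = 1`  (`h14l_LocStrBound`);
* `q ∈ Q`             : `𝓩 = Z¹`, `δ = 1`, and the restriction to inertia has rank `≤ 1`
                         (`h14l_LocQBound`);
* `v = ∞`             : `h⁰(G_ℝ, M) = 1`             (`h14l_LocInfty`).

Dictionary (frozen condition on a lift `⇒` elementary condition on its cocycle):
`h14l_UnipOfLift`, `h14l_StrOfLift`, `h14l_StrLineUnique`, `h14l_ResUnip`, `h14l_ResRam`,
`h14l_DetCyc`.
-/

set_option autoImplicit false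

open ExtCitation Polynomial

noncomputable section

namespace Fermat.Agent.S56L

open Fermat.Agent.PT

/-! ## Dimension bounds -/

/-- **LOC-UNIP** (`q ∈ Smin`, `q ≠ p`): if `ρbar` is unipotent and ramified on the inertia group
at `q`, the cocycles of the unipotent lifts span a space of dimension `≤ 3 = dim B¹ + h⁰`. -/
def h14l_LocUnipBound : Prop :=
  ∀ (p : ℕ) [Fact p.Prime], p ≠ 2 → ∀ (k : Type) [Field k] [Finite k] [CharP k p]
    (ρbar : ResidualGaloisRep k) (q : Nat.Primes), (q : ℕ) ≠ p →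
    (∀ s ∈ h14l_inert q, LinearMap.charpoly (h14l_locRho ρbar q s) = (X - 1) ^ 2) →
    (∃ s ∈ h14l_inert q, h14l_locRho ρbar q s ≠ 1) →
    ∃ f : ↥(h14l_ZUnip ρbar q) →ₗ[k] (Fin 3 → k), Function.Injective f

/-- **LOC-p-STR**: the cocycles of the strict ordinary lifts at `p` span a space of dimension
`≤ 4 = dim B¹ + h⁰ + 1`. -/
def h14l_LocStrBound : Prop :=
  ∀ (p : ℕ) [Fact p.Prime], p ≠ 2 → ∀ (k : Type) [Field k] [Finite k] [CharP k p]
    (ρbar : ResidualGaloisRep k) (pp : Nat.Primes), (pp : ℕ) = p →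
    ∀ L : Submodule k ρbar.V, h14l_StrLine p ρbar pp L →
    ∃ f : ↥(h14l_ZStr ρbar pp L) →ₗ[k] (Fin 4 → k), Function.Injective f

/-- **LOC-Q** (Taylor–Wiles primes): `q ≡ 1 mod p`, `ρbar` unramified at `q` with distinct
Frobenius eigenvalues.  All continuous cocycles span a space of dimension
`≤ 4 = dim B¹ + h⁰ + 1`, and the restriction to the inertia group has rank `≤ 1`. -/
def h14l_LocQBound : Prop :=
  ∀ (p : ℕ) [Fact p.Prime], p ≠ 2 → ∀ (k : Type) [Field k] [Finite k] [CharP k p]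
    (ρbar : ResidualGaloisRep k) (q : Nat.Primes), (q : ℕ) ≠ p → (((q : ℕ) : k) = 1) →
    (∀ s ∈ h14l_inert q, h14l_locRho ρbar q s = 1) →
    (∃ φ : primeLocalGaloisGroup q,
      (primeLocalPlace q).IsFrobeniusAt (primeLocalToGlobal q φ) (q : ℕ) ∧
      ∃ α β : k, α ≠ β ∧
        LinearMap.charpoly (h14l_locRho ρbar q φ) = (X - C α) * (X - C β)) →
    (∃ f : ↥(Z1 (h14l_lev q) (h14l_locAd0 ρbar q)) →ₗ[k] (Fin 4 → k), Function.Injective f) ∧
    ∃ g : ↥(Z1 (h14l_lev q) (h14l_locAd0 ρbar q)) →ₗ[k] k,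
      ∀ c, g c = 0 → ∀ s ∈ h14l_inert q, (c : primeLocalGaloisGroup q → ↥(h14l_sl ρbar)) s = 0

/-- **LOC-∞**: `ρbar` is odd, so every complex conjugation has a one dimensional fixed space
on `ad⁰ ρbar`. -/
def h14l_LocInfty : Prop :=
  ∀ (p : ℕ) [Fact p.Prime], p ≠ 2 → ∀ (k : Type) [Field k] [CharP k p]
    (ρbar : ResidualGaloisRep k),
    (GaloisRepAdic.ofResidualGaloisRep ρbar).DetIsCyclotomic p →
    ∀ c : GQ, c * c = 1 → c ≠ 1 →
      Module.finrank k ↥(LinearMap.ker (h14l_Ad0 ρbar c - LinearMap.id)) = 1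

/-! ## Dictionary: frozen conditions on lifts versus conditions on cocycles -/

/-- The determinant of `ρbar` is the mod `p` cyclotomic character. -/
def h14l_DetCyc : Prop :=
  ∀ (p : ℕ) [Fact p.Prime] (k : Type) [Field k] [CharP k p] (ρbar : ResidualGaloisRep k),
    (GaloisRepAdic.ofResidualGaloisRep ρbar).DetIsCyclotomic p →
    ∀ σ : GQ, LinearMap.det (ρbar.ρ σ) =
      ZMod.castHom (dvd_refl p) k ((cycloChar p σ : (ZMod p)ˣ) : ZMod p)

/-- A lift which is unipotent on inertia at `q` has its local cocycle in `h14l_ZUnip`. -/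
def h14l_UnipOfLift : Prop :=
  ∀ (k : Type) [Field k] (ρbar : ResidualGaloisRep k) (ρA : GaloisRepAdic (DualNumber k))
    (c : GQ → ↥(h14l_sl ρbar)) (q : Nat.Primes),
    h14l_IsCocycleOf ρbar ρA c → c ∈ Z1 levFin (h14l_Ad0 ρbar) →
    ρA.IsUnipotentOnInertiaAt (q : ℕ) →
    (fun s => c (primeLocalToGlobal q s)) ∈ h14l_ZUnip ρbar q

/-- If some lift is unipotent on inertia at `q`, then so is `ρbar` (local form). -/
def h14l_ResUnip : Prop :=
  ∀ (k : Type) [Field k] (ρbar : ResidualGaloisRep k) (ρA : GaloisRepAdic (DualNumber k))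
    (c : GQ → ↥(h14l_sl ρbar)) (q : Nat.Primes),
    h14l_IsCocycleOf ρbar ρA c → ρA.IsUnipotentOnInertiaAt (q : ℕ) →
    ∀ s ∈ h14l_inert q, LinearMap.charpoly (h14l_locRho ρbar q s) = (X - 1) ^ 2

/-- `ρbar` ramified at `q` (frozen form) gives a ramified element of the local inertia group,
and `ρbar` unramified at `q` (frozen form) is trivial on the local inertia group. -/
def h14l_ResRam : Prop :=
  ∀ (k : Type) [Field k] (ρbar : ResidualGaloisRep k) (q : Nat.Primes),
    (¬ ρbar.IsUnramifiedAt (q : ℕ) → ∃ s ∈ h14l_inert q, h14l_locRho ρbar q s ≠ 1) ∧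
    (ρbar.IsUnramifiedAt (q : ℕ) → ∀ s ∈ h14l_inert q, h14l_locRho ρbar q s = 1)

/-- The line of a strict ordinary residual representation is unique. -/
def h14l_StrLineUnique : Prop :=
  ∀ (p : ℕ) [Fact p.Prime], p ≠ 2 → ∀ (k : Type) [Field k] [CharP k p]
    (ρbar : ResidualGaloisRep k) (pp : Nat.Primes), (pp : ℕ) = p →
    ∀ L L' : Submodule k ρbar.V, h14l_StrLine p ρbar pp L → h14l_StrLine p ρbar pp L' → L = L'

/-- A strict ordinary lift (with trace zero cocycle) produces the line `L` and its local cocycle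
at `p` lies in `h14l_ZStr L`. -/
def h14l_StrOfLift : Prop :=
  ∀ (p : ℕ) [Fact p.Prime], p ≠ 2 → ∀ (k : Type) [Field k] [CharP k p]
    (ρbar : ResidualGaloisRep k) (ρA : GaloisRepAdic (DualNumber k))
    (c : GQ → ↥(h14l_sl ρbar)) (pp : Nat.Primes), (pp : ℕ) = p →
    h14l_IsCocycleOf ρbar ρA c → c ∈ Z1 levFin (h14l_Ad0 ρbar) →
    ρA.IsStrictOrdinaryAt p →
    ∃ L : Submodule k ρbar.V, h14l_StrLine p ρbar pp L ∧
      (fun s => c (primeLocalToGlobal pp s)) ∈ h14l_ZStr ρbar pp L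

/-! ## The package -/

/-- Everything LOC delivers to the assembly (the flat block of helper97 is separate). -/
structure h14l_LocPackage : Prop where
  unip : h14l_LocUnipBound
  str : h14l_LocStrBound
  tw : h14l_LocQBound
  infty : h14l_LocInfty
  detCyc : h14l_DetCyc
  unipOfLift : h14l_UnipOfLift
  resUnip : h14l_ResUnip
  resRam : h14l_ResRam
  strUnique : h14l_StrLineUnique
  strOfLift : h14l_StrOfLift

end Fermat.Agent.S56L
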