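import Mathlib
import Fermat.Prelude.Def_GaloisRep_Residual
import Fermat.Prelude.Def_GaloisRep_LocalConditions
import Fermat.Prelude.Def_GaloisRep_StrictOrdinary
import Fermat.Prelude.Def_ExtEndgame_ProductionDatum
import Fermat.Agent.PT.Iface

/-!
# S56, block LOC (architect helper14): the shared cocycle vocabulary

`ρbar : ResidualGaloisRep k`, `k` a field of characteristic `p`.

* `h14l_Ad ρbar`   : the adjoint representation of `G_ℚ` on `End_k V` (conjugation);
* `h14l_sl ρbar`   : the trace zero endomorphisms, `h14l_Ad0 ρbar` the representation on them;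
* local frame at a prime `q` = the frame of `PT.DQ` (S55): group `primeLocalGaloisGroup q`,
  levels `levFin.comap (primeLocalToGlobal q)`, `h14l_locAd0 ρbar q`, inertia `h14l_inert q`;
* `h14l_IsCocycleOf ρbar ρA c` : the lift `ρA` over the dual numbers is `(1 + ε c) ρbar` in a
  pair of compatible bases (dictionary between DEF and LOC);
* the local conditions, as `k`-subspaces of local cocycles:
  `h14l_ZUnip` (unipotent on inertia, `q ≠ p`), `h14l_ZStr` (strict ordinary at `p`),
  `h14l_ZUnr` (unramified cocycles).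
-/

set_option autoImplicit false

open ExtCitation Polynomial

noncomputable section

namespace Fermat.Agent.S56L

open Fermat.Agent.PT

variable {k : Type} [Field k]

/-! ## The adjoint representation -/

/-- `ρbar.ρ σ⁻¹` is a left inverse of `ρbar.ρ σ`. -/
lemma h14l_rho_inv_mul (ρbar : ResidualGaloisRep k) (σ : GQ) :
    ρbar.ρ σ⁻¹ * ρbar.ρ σ = 1 := by
  rw [← map_mul, inv_mul_cancel, map_one]

/-- `ρbar.ρ σ⁻¹` is a right inverse of `ρbar.ρ σ`. -/
lemma h14l_rho_mul_inv (ρbar : ResidualGaloisRep k) (σ : GQ) :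
    ρbar.ρ σ * ρbar.ρ σ⁻¹ = 1 := by
  rw [← map_mul, mul_inv_cancel, map_one]

/-- The adjoint representation of `G_ℚ` on `End_k V`: `σ · m = ρ(σ) m ρ(σ)⁻¹`. -/
def h14l_Ad (ρbar : ResidualGaloisRep k) : Representation k GQ (Module.End k ρbar.V) where
  toFun σ := (LinearMap.mulLeft k (ρbar.ρ σ)).comp (LinearMap.mulRight k (ρbar.ρ σ⁻¹))
  map_one' := by
    ext m : 1
    simp
  map_mul' σ τ := by
    ext m : 1
    simp [mul_assoc]

@[simp] lemma h14l_Ad_apply (ρbar : ResidualGaloisRep k) (σ : GQ) (m : Module.End k ρbar.V) :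
    h14l_Ad ρbar σ m = ρbar.ρ σ * m * ρbar.ρ σ⁻¹ := by
  simp [h14l_Ad, mul_assoc]

/-- The trace zero endomorphisms. -/
def h14l_sl (ρbar : ResidualGaloisRep k) : Submodule k (Module.End k ρbar.V) :=
  LinearMap.ker (LinearMap.trace k ρbar.V)

lemma h14l_mem_sl (ρbar : ResidualGaloisRep k) (m : Module.End k ρbar.V) :
    m ∈ h14l_sl ρbar ↔ LinearMap.trace k ρbar.V m = 0 := LinearMap.mem_ker

lemma h14l_Ad_mem_sl (ρbar : ResidualGaloisRep k) (σ : GQ) {m : Module.End k ρbar.V}
    (hm : m ∈ h14l_sl ρbar) : h14l_Ad ρbar σ m ∈ h14l_sl ρbar := by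
  rw [h14l_mem_sl] at hm ⊢
  rw [h14l_Ad_apply, LinearMap.trace_mul_comm, ← mul_assoc, h14l_rho_inv_mul, one_mul, hm]

/-- The adjoint representation on the trace zero endomorphisms (`ad⁰ ρbar`). -/
def h14l_Ad0 (ρbar : ResidualGaloisRep k) : Representation k GQ ↥(h14l_sl ρbar) where
  toFun σ := (h14l_Ad ρbar σ).restrict (fun _ hm => h14l_Ad_mem_sl ρbar σ hm)
  map_one' := by
    ext m : 2
    simp
  map_mul' σ τ := by
    ext m : 2
    simp [mul_assoc]

@[simp] lemma h14l_Ad0_coe (ρbar : ResidualGaloisRep k) (σ : GQ) (m : ↥(h14l_sl ρbar)) :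
    ((h14l_Ad0 ρbar σ m : ↥(h14l_sl ρbar)) : Module.End k ρbar.V) =
      ρbar.ρ σ * (m : Module.End k ρbar.V) * ρbar.ρ σ⁻¹ := by
  simp [h14l_Ad0]

/-! ## The local frame at a prime `q` (= the frame of `PT.DQ`) -/

/-- The local levels: pulled back from all finite levels of `G_ℚ`. -/
abbrev h14l_lev (q : Nat.Primes) : Lev (primeLocalGaloisGroup q) :=
  levFin.comap (primeLocalToGlobal q)

/-- `ρbar` restricted to the local group at `q`. -/
def h14l_locRho (ρbar : ResidualGaloisRep k) (q : Nat.Primes) :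
    primeLocalGaloisGroup q →* Module.End k ρbar.V :=
  ρbar.ρ.comp (primeLocalToGlobal q)

/-- `ad⁰ ρbar` restricted to the local group at `q`. -/
def h14l_locAd0 (ρbar : ResidualGaloisRep k) (q : Nat.Primes) :
    Representation k (primeLocalGaloisGroup q) ↥(h14l_sl ρbar) :=
  (h14l_Ad0 ρbar).comp (primeLocalToGlobal q)

/-- The inertia subgroup of the local group at `q`. -/
def h14l_inert (q : Nat.Primes) : Subgroup (primeLocalGaloisGroup q) :=
  ((primeLocalPlace q).inertiaSubgroupIn ℚ).comap (primeLocalToGlobal q)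

/-- The mod `p` cyclotomic character on the local group at `q`, with values in `k`. -/
def h14l_locCyc (k : Type) [Field k] (p : ℕ) [Fact p.Prime] [CharP k p] (q : Nat.Primes)
    (s : primeLocalGaloisGroup q) : k :=
  ZMod.castHom (dvd_refl p) k ((cycloChar p (primeLocalToGlobal q s) : (ZMod p)ˣ) : ZMod p)

/-! ## The dictionary between lifts and cocycles -/

/-- `ρA = (1 + ε c) ρbar` in a pair of compatible bases: the matrix of `ρA σ` is
`[ρbar σ] + ε [c σ ∘ ρbar σ]`. -/
def h14l_IsCocycleOf (ρbar : ResidualGaloisRep k) (ρA : GaloisRepAdic (DualNumber k))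
    (c : GQ → ↥(h14l_sl ρbar)) : Prop :=
  ∃ (e : Module.Basis (Fin 2) (DualNumber k) ρA.V) (eb : Module.Basis (Fin 2) k ρbar.V),
    ∀ (σ : GQ) (i j : Fin 2),
      LinearMap.toMatrix e e (ρA.ρ σ) i j =
        TrivSqZeroExt.inl (LinearMap.toMatrix eb eb (ρbar.ρ σ) i j) +
        TrivSqZeroExt.inr
          (LinearMap.toMatrix eb eb ((c σ : Module.End k ρbar.V) * ρbar.ρ σ) i j)

/-! ## The local conditions -/

/-- The unipotent condition at `q` (`q ≠ p`, `ρbar` unipotent and ramified on inertia): the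
cocycles `c` with `tr (c(s) ρbar(s)) = 0` for all `s` in the inertia group. -/
def h14l_ZUnip (ρbar : ResidualGaloisRep k) (q : Nat.Primes) :
    Submodule k (primeLocalGaloisGroup q → ↥(h14l_sl ρbar)) where
  carrier := {c | c ∈ Z1 (h14l_lev q) (h14l_locAd0 ρbar q) ∧
    ∀ s ∈ h14l_inert q,
      LinearMap.trace k ρbar.V ((c s : Module.End k ρbar.V) * h14l_locRho ρbar q s) = 0}
  add_mem' := by
    rintro c c' ⟨hc, h⟩ ⟨hc', h'⟩
    refine ⟨add_mem hc hc', fun s hs => ?_⟩
    simp only [Pi.add_apply, Submodule.coe_add, add_mul, map_add, h s hs, h' s hs, add_zero]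
  zero_mem' := by
    refine ⟨zero_mem _, fun s _ => ?_⟩
    simp
  smul_mem' := by
    rintro a c ⟨hc, h⟩
    refine ⟨Submodule.smul_mem _ a hc, fun s hs => ?_⟩
    simp only [Pi.smul_apply, Submodule.coe_smul, smul_mul_assoc, map_smul, h s hs, smul_zero]

/-- The unramified cocycles at `q`: they vanish on the inertia group. -/
def h14l_ZUnr (ρbar : ResidualGaloisRep k) (q : Nat.Primes) :
    Submodule k (primeLocalGaloisGroup q → ↥(h14l_sl ρbar)) where
  carrier := {c | c ∈ Z1 (h14l_lev q) (h14l_locAd0 ρbar q) ∧ ∀ s ∈ h14l_inert q, c s = 0}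
  add_mem' := by
    rintro c c' ⟨hc, h⟩ ⟨hc', h'⟩
    refine ⟨add_mem hc hc', fun s hs => ?_⟩
    simp only [Pi.add_apply, h s hs, h' s hs, add_zero]
  zero_mem' := ⟨zero_mem _, fun _ _ => rfl⟩
  smul_mem' := by
    rintro a c ⟨hc, h⟩
    refine ⟨Submodule.smul_mem _ a hc, fun s hs => ?_⟩
    simp only [Pi.smul_apply, h s hs, smul_zero]

/-- The nilpotent line `Hom(V/L, L)` of a line `L ⊆ V`, inside the trace zero endomorphisms. -/
def h14l_nil (ρbar : ResidualGaloisRep k) (L : Submodule k ρbar.V) :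
    Submodule k ↥(h14l_sl ρbar) where
  carrier := {m | (∀ v, (m : Module.End k ρbar.V) v ∈ L) ∧
    ∀ v ∈ L, (m : Module.End k ρbar.V) v = 0}
  add_mem' := by
    rintro m m' ⟨h1, h2⟩ ⟨h1', h2'⟩
    refine ⟨fun v => ?_, fun v hv => ?_⟩
    · simpa using add_mem (h1 v) (h1' v)
    · simp [h2 v hv, h2' v hv]
  zero_mem' := ⟨fun v => by simp, fun v _ => by simp⟩
  smul_mem' := by
    rintro a m ⟨h1, h2⟩
    refine ⟨fun v => ?_, fun v hv => ?_⟩
    · simpa using Submodule.smul_mem L a (h1 v)
    · simp [h2 v hv]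

/-- The strict ordinary condition at `p` with respect to the line `L`: the cocycles which are
cohomologous to a cocycle with values in the nilpotent line `Hom(V/L, L)`. -/
def h14l_ZStr (ρbar : ResidualGaloisRep k) (q : Nat.Primes) (L : Submodule k ρbar.V) :
    Submodule k (primeLocalGaloisGroup q → ↥(h14l_sl ρbar)) :=
  (Z1 (h14l_lev q) (h14l_locAd0 ρbar q) ⊓
      Submodule.pi Set.univ (fun _ => h14l_nil ρbar L)) ⊔
    B1 (h14l_locAd0 ρbar q)

/-- The hypotheses on the line `L` at `p` (all of them follow from the existence of one strict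
ordinary lift): `L` is a line stable under the local group, inertia acts trivially on `V/L`,
and the local group acts on `Hom(V/L, L)` through the cyclotomic character. -/
structure h14l_StrLine (p : ℕ) [Fact p.Prime] [CharP k p] (ρbar : ResidualGaloisRep k)
    (q : Nat.Primes) (L : Submodule k ρbar.V) : Prop where
  finrank_eq : Module.finrank k L = 1
  stable : ∀ (s : primeLocalGaloisGroup q), ∀ v ∈ L, h14l_locRho ρbar q s v ∈ L
  inert : ∀ s ∈ h14l_inert q, ∀ v : ρbar.V, h14l_locRho ρbar q s v - v ∈ L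
  ratio : ∀ (s : primeLocalGaloisGroup q), ∀ m ∈ h14l_nil ρbar L,
    h14l_locAd0 ρbar q s m = h14l_locCyc k p q s • m

end Fermat.Agent.S56L
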