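import Fermat.Agent.S56L.H14LevQ
import Fermat.Agent.S56.SelIface

/-!
# S56 (helper14): the dictionary `levQ T` versus `levFin` + unramified outside `T`

For a representation `ρ` of `G_ℚ` which is trivial on a finite level and on every inertia group
outside `T` (`h14w_UnrRep ρ T`):

* `h14w_exists_levQ`, `h14w_isDisc_levQ` : `ρ` is trivial on a level of `levQ T`;
* `h14w_Z1_levQ` : `Z1 (levQ T) ρ = Z1 levFin ρ ⊓ h14w_unr k V T` (the cocycles continuous for the
  levels unramified outside `T` are the continuous cocycles vanishing on the inertia groups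
  outside `T`);
* `h14w_unrRep_Ad0`, `h14w_unrRep_Ad0tw` : the hypothesis for `ad⁰ ρbar` and `ad⁰ ρbar (1)`;
* `h14w_Z1_levQ_Ad0`, `h14w_Z1_levQ_Ad0tw` : the dictionary in the vocabulary of
  `S56/SelIface.lean` (`h56s_unr`).
-/

set_option autoImplicit false
set_option linter.style.haveILetI false

open ExtCitation

noncomputable section

namespace Fermat.Agent.S56L

open Fermat.Agent.PT Fermat.Agent.S56

variable {k : Type} [Field k] {V : Type} [AddCommGroup V] [Module k V]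

/-- the cochains which vanish on every inertia group at the primes outside `T`. -/
def h14w_unr (k : Type) [Field k] (V : Type) [AddCommGroup V] [Module k V]
    (T : Finset Nat.Primes) : Submodule k (GQ → V) where
  carrier := {c | ∀ q : Nat.Primes, q ∉ T →
    ∀ P : ValuationSubring (AlgebraicClosure ℚ), P.LiesOverPrime (q : ℕ) →
      ∀ s ∈ P.inertiaSubgroupIn ℚ, c s = 0}
  add_mem' := by
    intro c c' h h' q hq P hP s hs
    simp only [Pi.add_apply, h q hq P hP s hs, h' q hq P hP s hs, add_zero]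
  zero_mem' := fun _ _ _ _ _ _ => rfl
  smul_mem' := by
    intro a c h q hq P hP s hs
    simp only [Pi.smul_apply, h q hq P hP s hs, smul_zero]

theorem h14w_mem_unr (T : Finset Nat.Primes) (c : GQ → V) :
    c ∈ h14w_unr k V T ↔ ∀ q : Nat.Primes, q ∉ T →
      ∀ P : ValuationSubring (AlgebraicClosure ℚ), P.LiesOverPrime (q : ℕ) →
        ∀ s ∈ P.inertiaSubgroupIn ℚ, c s = 0 := Iff.rfl

/-- the vocabulary of `S56/SelIface.lean`. -/
theorem h14w_unr_eq (ρbar : ResidualGaloisRep k) (T : Finset Nat.Primes) :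
    h56s_unr ρbar T = h14w_unr k ↥(h14l_sl ρbar) T := rfl

/-- `ρ` is trivial on a finite level and on every inertia group outside `T`. -/
structure h14w_UnrRep (ρ : Representation k GQ V) (T : Finset Nat.Primes) : Prop where
  isOpen : ∃ N ∈ levFin.sets, ∀ s ∈ N, ρ s = 1
  unr : ∀ q : Nat.Primes, q ∉ T → ∀ P : ValuationSubring (AlgebraicClosure ℚ),
    P.LiesOverPrime (q : ℕ) → ∀ s ∈ P.inertiaSubgroupIn ℚ, ρ s = 1

/-- the subgroup on which `ρ` and the cocycle `c` are trivial. -/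
def h14w_ker (ρ : Representation k GQ V) (c : GQ → V) (hd : d1 ρ c = 0) : Subgroup GQ where
  carrier := {σ | ρ σ = 1 ∧ c σ = 0}
  one_mem' := ⟨map_one _, h14v_coc_one _ hd⟩
  mul_mem' := by
    rintro a b ⟨ha1, ha2⟩ ⟨hb1, hb2⟩
    refine ⟨by rw [map_mul, ha1, hb1, mul_one], ?_⟩
    rw [h14v_coc _ hd, ha2, hb2, map_zero, add_zero]
  inv_mem' := by
    rintro a ⟨ha1, ha2⟩
    have h1 : ρ a⁻¹ = 1 := by
      have : ρ a⁻¹ * ρ a = 1 := by rw [← map_mul, inv_mul_cancel, map_one]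
      rwa [ha1, mul_one] at this
    refine ⟨h1, ?_⟩
    have := h14v_coc _ hd a⁻¹ a
    rw [inv_mul_cancel, h14v_coc_one _ hd, ha2, map_zero, add_zero] at this
    exact this.symm

theorem h14w_ker_normal (ρ : Representation k GQ V) (c : GQ → V) (hd : d1 ρ c = 0) :
    (h14w_ker ρ c hd).Normal where
  conj_mem n hn g := by
    obtain ⟨hn1, hn2⟩ := hn
    refine ⟨by rw [map_mul, map_mul, hn1, mul_one, ← map_mul, mul_inv_cancel, map_one], ?_⟩
    rw [mul_assoc, h14v_coc _ hd g, h14v_coc _ hd n, hn2, zero_add, hn1, Module.End.one_apply,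
      ← h14v_coc _ hd, mul_inv_cancel, h14v_coc_one _ hd]

/-- a cocycle continuous for `levFin` which vanishes, together with `ρ`, on the inertia groups
outside `T`, is trivial on a level of `levQ T` on which `ρ` is trivial. -/
theorem h14w_exists_level (ρ : Representation k GQ V) (T : Finset Nat.Primes)
    (hρ : h14w_UnrRep ρ T) (c : GQ → V) (hc : c ∈ Z1 levFin ρ) (hu : c ∈ h14w_unr k V T) :
    ∃ N ∈ (levQ T).sets, ∀ s ∈ N, ρ s = 1 ∧ c s = 0 := by
  rw [mem_Z1] at hc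
  obtain ⟨hd, N₁, ⟨F₁, hF₁fin, -, rfl⟩, hlc⟩ := hc
  obtain ⟨N₂, ⟨F₂, hF₂fin, -, rfl⟩, h2⟩ := hρ.isOpen
  haveI := h14w_ker_normal ρ c hd
  obtain ⟨F, hFur, hFgal, hFfix⟩ := pt79_level_of_normal T (h14w_ker ρ c hd)
    ⟨F₁ ⊔ F₂, by
        haveI := hF₁fin
        haveI := hF₂fin
        exact IntermediateField.finiteDimensional_sup F₁ F₂, by
      intro s hs
      rw [IntermediateField.fixingSubgroup_sup] at hs
      refine ⟨h2 s hs.2, ?_⟩
      have := hlc 1 s hs.1
      rw [one_mul, h14v_coc_one _ hd] at this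
      exact this⟩
    (fun q hq A hA s hs => ⟨hρ.unr q hq A hA s hs, hu q hq A hA s hs⟩)
  haveI := hFgal
  refine ⟨F.fixingSubgroup, ⟨F, hFur, inferInstance, rfl⟩, fun s hs => ?_⟩
  rw [hFfix] at hs
  exact hs

/-- `ρ` is trivial on a level of `levQ T`. -/
theorem h14w_exists_levQ (ρ : Representation k GQ V) (T : Finset Nat.Primes)
    (hρ : h14w_UnrRep ρ T) : ∃ N ∈ (levQ T).sets, ∀ s ∈ N, ρ s = 1 := by
  obtain ⟨N, hN, h⟩ := h14w_exists_level ρ T hρ 0 (zero_mem _) (zero_mem _)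
  exact ⟨N, hN, fun s hs => (h s hs).1⟩

theorem h14w_isDisc_levQ (ρ : Representation k GQ V) (T : Finset Nat.Primes)
    (hρ : h14w_UnrRep ρ T) : IsDisc (levQ T) ρ := by
  intro v
  obtain ⟨N, hN, h⟩ := h14w_exists_levQ ρ T hρ
  exact ⟨N, hN, fun s hs => by rw [h s hs, Module.End.one_apply]⟩

theorem h14w_isDisc_levFin (ρ : Representation k GQ V) (T : Finset Nat.Primes)
    (hρ : h14w_UnrRep ρ T) : IsDisc levFin ρ := by
  intro v
  obtain ⟨N, hN, h⟩ := hρ.isOpen
  exact ⟨N, hN, fun s hs => by rw [h s hs, Module.End.one_apply]⟩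

/-- the levels of `levQ T` are levels of `levFin`. -/
theorem h14w_levQ_sets_subset (T : Finset Nat.Primes) : (levQ T).sets ⊆ levFin.sets := by
  rintro N ⟨F, hF, hn, rfl⟩
  exact ⟨F, hF.1, hn, rfl⟩

/-- **the dictionary**: the cocycles continuous for the levels unramified outside `T` are the
continuous cocycles vanishing on the inertia groups outside `T`. -/
theorem h14w_Z1_levQ (ρ : Representation k GQ V) (T : Finset Nat.Primes)
    (hρ : h14w_UnrRep ρ T) : Z1 (levQ T) ρ = Z1 levFin ρ ⊓ h14w_unr k V T := by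
  ext c
  rw [Submodule.mem_inf]
  constructor
  · intro hc
    rw [mem_Z1] at hc
    obtain ⟨hd, N, hN, hlc⟩ := hc
    refine ⟨(mem_Z1 _ _ _).2 ⟨hd, N, h14w_levQ_sets_subset T hN, hlc⟩, ?_⟩
    intro q hq P hP s hs
    obtain ⟨F, hF, -, rfl⟩ := hN
    have hsF : s ∈ F.fixingSubgroup := hF.2 q hq P hP hs
    have := hlc 1 s hsF
    rw [one_mul, h14v_coc_one _ hd] at this
    exact this
  · rintro ⟨hc, hu⟩
    obtain ⟨N, hN, h⟩ := h14w_exists_level ρ T hρ c hc hu
    rw [mem_Z1] at hc ⊢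
    refine ⟨hc.1, N, hN, fun g s hs => ?_⟩
    rw [h14v_coc _ hc.1, (h s hs).2, map_zero, add_zero]

/-! ## The adjoint representation and its twist -/

/-- `ad⁰ ρbar` is trivial on a finite level and unramified outside `T`. -/
theorem h14w_unrRep_Ad0 (ρbar : ResidualGaloisRep k) (T : Finset Nat.Primes)
    (hur : ∀ q : Nat.Primes, q ∉ T → ρbar.IsUnramifiedAt (q : ℕ)) :
    h14w_UnrRep (h14l_Ad0 ρbar) T where
  isOpen := by
    obtain ⟨N, hN, h⟩ := h14s_exists_level ρbar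
    exact ⟨N, hN, fun s hs => LinearMap.ext fun m => h14s_Ad0_eq_of_rho_eq_one ρbar (h s hs) m⟩
  unr := fun q hq P hP s hs =>
    LinearMap.ext fun m => h14s_Ad0_eq_of_rho_eq_one ρbar (hur q hq P hP s hs) m

/-- `ad⁰ ρbar (1)` is trivial where `ρbar` and the cyclotomic character are trivial. -/
theorem h14w_Ad0tw_eq_one (p : ℕ) [Fact p.Prime] [CharP k p] (ρbar : ResidualGaloisRep k)
    {σ : GQ} (h1 : ρbar.ρ σ = 1) (h2 : cycloChar p σ = 1) : h56c_Ad0tw p ρbar σ = 1 := by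
  ext m : 1
  rw [h56c_Ad0tw_apply, h14s_Ad0_eq_of_rho_eq_one ρbar h1, h56c_cyc_apply, h2]
  simp

/-- `ad⁰ ρbar (1)` is trivial on a finite level and unramified outside `T ∋ p`. -/
theorem h14w_unrRep_Ad0tw (p : ℕ) [Fact p.Prime] [CharP k p] (ρbar : ResidualGaloisRep k)
    (T : Finset Nat.Primes) (hp : pPrime p ∈ T)
    (hur : ∀ q : Nat.Primes, q ∉ T → ρbar.IsUnramifiedAt (q : ℕ)) :
    h14w_UnrRep (h56c_Ad0tw p ρbar) T where
  isOpen := by
    obtain ⟨N₁, hN₁, h1⟩ := h14s_exists_level ρbar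
    obtain ⟨F, hF, hle⟩ := pt79_cycloChar_open p
    haveI := hF
    have hN₂ : (pt79_galClosure F).fixingSubgroup ∈ levFin.sets :=
      ⟨pt79_galClosure F, pt79_galClosure_finiteDimensional F, pt79_galClosure_normal F, rfl⟩
    obtain ⟨N, hN, hle'⟩ := levFin.directed N₁ hN₁ _ hN₂
    refine ⟨N, hN, fun s hs => h14w_Ad0tw_eq_one p ρbar (h1 s (hle' hs).1) ?_⟩
    have hs2 : s ∈ F.fixingSubgroup :=
      IntermediateField.fixingSubgroup_antitone (pt79_le_galClosure F) (hle' hs).2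
    exact MonoidHom.mem_ker.1 (hle hs2)
  unr := fun q hq P hP s hs =>
    h14w_Ad0tw_eq_one p ρbar (hur q hq P hP s hs)
      (pt79_cycloChar_inertia p q (fun h => hq (h ▸ hp)) P hP s hs)

/-- the dictionary for `ad⁰ ρbar`, in the vocabulary of `S56/SelIface.lean`. -/
theorem h14w_Z1_levQ_Ad0 (ρbar : ResidualGaloisRep k) (T : Finset Nat.Primes)
    (hur : ∀ q : Nat.Primes, q ∉ T → ρbar.IsUnramifiedAt (q : ℕ)) :
    Z1 (levQ T) (h14l_Ad0 ρbar) = Z1 levFin (h14l_Ad0 ρbar) ⊓ h56s_unr ρbar T :=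
  h14w_Z1_levQ _ T (h14w_unrRep_Ad0 ρbar T hur)

/-- the dictionary for `ad⁰ ρbar (1)`, in the vocabulary of `S56/SelIface.lean`. -/
theorem h14w_Z1_levQ_Ad0tw (p : ℕ) [Fact p.Prime] [CharP k p] (ρbar : ResidualGaloisRep k)
    (T : Finset Nat.Primes) (hp : pPrime p ∈ T)
    (hur : ∀ q : Nat.Primes, q ∉ T → ρbar.IsUnramifiedAt (q : ℕ)) :
    Z1 (levQ T) (h56c_Ad0tw p ρbar) = Z1 levFin (h56c_Ad0tw p ρbar) ⊓ h56s_unr ρbar T :=
  h14w_Z1_levQ _ T (h14w_unrRep_Ad0tw p ρbar T hp hur)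

end Fermat.Agent.S56L
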