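import Fermat.Agent.S56L.FpFrame
import Fermat.Agent.S56L.LevQDict
import Fermat.Agent.S56L.H33Infty
import Fermat.Agent.S56.H30ChebH0
import Fermat.Agent.S56G.Defs
import Fermat.Agent.S58.H98Hres

/-!
# S56 (helper14): `ad⁰ ρbar` as a representation over `𝔽_p` (foundation of SEL-GW, part 2)

* `h14g_V p ρbar`, `h14g_Ad0 p ρbar` : `sl` and `ad⁰ ρbar` over `ZMod p`;
* `h14g_finite_V`, `h14g_finrank_V` : `dim_{𝔽_p} sl = 3 [k : 𝔽_p]`;
* `h14g_isDisc_levFin`, `h14g_isDisc_levQ` : discreteness;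
* `h14g_detIsCyc_of` : the determinant hypothesis of `h56c_Hyp` gives the frozen
  `DetIsCyclotomic`;
* `h14g_finrank_cFix` : `dim_{𝔽_p} (ad⁰)^{c = 1} = [k : 𝔽_p]`;
* `h14g_invariants_eq_bot`, `h14g_finrank_invariants` : `H⁰(G_ℚ, ad⁰) = 0`;
* `h14g_Z1_levQ`, `h14g_Z1_levQ_tw` : Selmer dictionary over `𝔽_p`.
-/

set_option autoImplicit false
set_option linter.style.haveILetI false

open ExtCitation

noncomputable section

namespace Fermat.Agent.S56L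

open Fermat.Agent.PT Fermat.Agent.S56 Fermat.Agent.S56G

variable {k : Type} [Field k]

/-- `sl` over `𝔽_p`. -/
abbrev h14g_V (p : ℕ) (ρbar : ResidualGaloisRep k) : Type := h14g_R p k ↥(h14l_sl ρbar)

/-- `ad⁰ ρbar` over `𝔽_p`. -/
abbrev h14g_Ad0 (p : ℕ) [Fact p.Prime] [CharP k p] (ρbar : ResidualGaloisRep k) :
    Representation (ZMod p) GQ (h14g_V p ρbar) :=
  h14g_rep p (h14l_Ad0 ρbar)

/-- `ad⁰ ρbar (1)` over `𝔽_p`. -/
abbrev h14g_Ad0tw (p : ℕ) [Fact p.Prime] [CharP k p] (ρbar : ResidualGaloisRep k) :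
    Representation (ZMod p) GQ (h14g_V p ρbar) :=
  h14g_rep p (h56c_Ad0tw p ρbar)

section

variable (p : ℕ) [Fact p.Prime] [CharP k p] (ρbar : ResidualGaloisRep k)

theorem h14g_finite_V [Finite k] : Module.Finite (ZMod p) (h14g_V p ρbar) :=
  h14g_finite_R ↥(h14l_sl ρbar)

theorem h14g_finrank_V : Module.finrank (ZMod p) (h14g_V p ρbar) = h14g_deg p k * 3 := by
  rw [h14g_finrank_R, h30h_finrank_sl]

theorem h14g_isDisc_levFin : IsDisc levFin (h14g_Ad0 p ρbar) :=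
  (h14g_isDisc_iff p levFin (h14l_Ad0 ρbar)).2 (h14s_isDisc_Ad0 ρbar)

theorem h14g_isDisc_levQ (T : Finset Nat.Primes)
    (hur : ∀ q : Nat.Primes, q ∉ T → ρbar.IsUnramifiedAt (q : ℕ)) :
    IsDisc (levQ T) (h14g_Ad0 p ρbar) :=
  (h14g_isDisc_iff p (levQ T) (h14l_Ad0 ρbar)).2
    (h14w_isDisc_levQ _ T (h14w_unrRep_Ad0 ρbar T hur))

theorem h14g_isDisc_levQ_tw (T : Finset Nat.Primes) (hp : pPrime p ∈ T)
    (hur : ∀ q : Nat.Primes, q ∉ T → ρbar.IsUnramifiedAt (q : ℕ)) :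
    IsDisc (levQ T) (h14g_Ad0tw p ρbar) :=
  (h14g_isDisc_iff p (levQ T) (h56c_Ad0tw p ρbar)).2
    (h14w_isDisc_levQ _ T (h14w_unrRep_Ad0tw p ρbar T hp hur))

/-- Selmer dictionary over `𝔽_p`, for `ad⁰`. -/
theorem h14g_Z1_levQ (T : Finset Nat.Primes)
    (hur : ∀ q : Nat.Primes, q ∉ T → ρbar.IsUnramifiedAt (q : ℕ)) :
    Z1 (levQ T) (h14g_Ad0 p ρbar) =
      h14g_fun p (Z1 levFin (h14l_Ad0 ρbar) ⊓ h56s_unr ρbar T) := by
  rw [h14g_Z1_eq, h14w_Z1_levQ_Ad0 ρbar T hur]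

/-- Selmer dictionary over `𝔽_p`, for `ad⁰(1)`. -/
theorem h14g_Z1_levQ_tw (T : Finset Nat.Primes) (hp : pPrime p ∈ T)
    (hur : ∀ q : Nat.Primes, q ∉ T → ρbar.IsUnramifiedAt (q : ℕ)) :
    Z1 (levQ T) (h14g_Ad0tw p ρbar) =
      h14g_fun p (Z1 levFin (h56c_Ad0tw p ρbar) ⊓ h56s_unr ρbar T) := by
  rw [h14g_Z1_eq, h14w_Z1_levQ_Ad0tw p ρbar T hp hur]

/-- the determinant hypothesis of `h56c_Hyp` gives the frozen `DetIsCyclotomic`. -/
theorem h14g_detIsCyc_of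
    (hdet : ∀ σ : GQ, LinearMap.det (ρbar.ρ σ) = h56c_cyc k p σ) :
    (GaloisRepAdic.ofResidualGaloisRep ρbar).DetIsCyclotomic p := by
  have hp : p.Prime := Fact.out
  have hp0 : ((p : ℕ) : k) = 0 := CharP.cast_eq_zero k p
  refine ⟨?_, fun n σ a ha => ?_⟩
  · rw [hp0]
    exact zero_mem _
  · rcases Nat.eq_zero_or_pos n with hn | hn
    · subst hn
      rw [pow_zero, Nat.cast_one, Ideal.span_singleton_one]
      exact Submodule.mem_top
    · have h0 : ((p ^ n : ℕ) : k) = 0 := by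
        rw [Nat.cast_pow, hp0, zero_pow hn.ne']
      rw [h0, Ideal.span_singleton_eq_bot.mpr rfl, Ideal.mem_bot, sub_eq_zero]
      obtain ⟨ζ, hζ⟩ := pt79_exists_primitiveRoot p
      have hζn : ζ ^ p ^ n = 1 := by
        obtain ⟨m, rfl⟩ : ∃ m, n = m + 1 := ⟨n - 1, by omega⟩
        rw [pow_succ', pow_mul, hζ.pow_eq_one, one_pow]
      have h1 := ha ζ hζn
      have h2 := pt79_cycloChar_spec p σ ζ hζ.pow_eq_one
      rw [h1] at h2
      have h3 : a ≡ ((cycloChar p σ : (ZMod p)ˣ) : ZMod p).val [MOD p] :=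
        Fermat.Agent.S29.CycChar.modEq_of_pow_eq hζ hp.pos h2
      have h4 : ((a : ℕ) : k) = ((((cycloChar p σ : (ZMod p)ˣ) : ZMod p).val : ℕ) : k) :=
        (CharP.natCast_eq_natCast k p).mpr h3
      change LinearMap.det (ρbar.ρ σ) = (a : k)
      rw [hdet σ, h56c_cyc_apply, h4, ZMod.castHom_apply, ZMod.natCast_val]

/-- `dim_{𝔽_p} (ad⁰)^{c = 1} = [k : 𝔽_p]`. -/
theorem h14g_finrank_cFix (hp2 : p ≠ 2)
    (hdet : ∀ σ : GQ, LinearMap.det (ρbar.ρ σ) = h56c_cyc k p σ) :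
    Module.finrank (ZMod p) ↥(h47g_cFix (h14g_Ad0 p ρbar)) = h14g_deg p k := by
  have h1 := h33i_locInfty p hp2 k ρbar (h14g_detIsCyc_of p ρbar hdet) complexConjugation
    complexConjugation_mul_self Fermat.Agent.S58.h98r_complexConjugation_ne_one
  have h2 := h14g_finrank_of_carrier (p := p) (k := k) (X := h14g_V p ρbar)
    (LinearMap.ker (h14l_Ad0 ρbar complexConjugation - LinearMap.id))
    (h47g_cFix (h14g_Ad0 p ρbar)) (by
      ext x
      simp only [SetLike.mem_coe, h47g_cFix, LinearMap.mem_ker, LinearMap.sub_apply,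
        LinearMap.id_apply, Module.End.one_apply]
      rfl)
  refine h2.trans ?_
  have h3 : ∀ n : ℕ, n = 1 → h14g_deg p k * n = h14g_deg p k := fun n hn => by
    rw [hn, mul_one]
  exact h3 _ h1

/-- `H⁰(G_ℚ, ad⁰ ρbar) = 0` (`k`-frame). -/
theorem h14g_inv_eq_zero [Finite k] (hIrr : H56SlIrr) (hyp : h56c_Hyp p ρbar)
    (X : ↥(h14l_sl ρbar)) (hX : ∀ σ : GQ, h14l_Ad0 ρbar σ X = X) : X = 0 := by
  have hstab : ∀ σ : GQ, ∀ Y ∈ Submodule.span k {X}, h14l_Ad0 ρbar σ Y ∈ Submodule.span k {X} := by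
    intro σ Y hY
    obtain ⟨a, rfl⟩ := Submodule.mem_span_singleton.1 hY
    rw [map_smul, hX σ]
    exact Submodule.smul_mem _ _ (Submodule.mem_span_singleton_self X)
  rcases hIrr p k ρbar hyp _ hstab with h | h
  · exact (Submodule.span_singleton_eq_bot).1 h
  · exfalso
    have h3 : Module.finrank k ↥(Submodule.span k {X}) ≤ 1 :=
      (finrank_span_le_card ({X} : Set _)).trans (by simp)
    rw [h, finrank_top, h30h_finrank_sl] at h3
    omega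

/-- `H⁰(G_ℚ, ad⁰ ρbar) = 0` (`𝔽_p`-frame). -/
theorem h14g_invariants_eq_bot [Finite k] (hIrr : H56SlIrr) (hyp : h56c_Hyp p ρbar) :
    (h14g_Ad0 p ρbar).invariants = ⊥ := by
  rw [eq_bot_iff]
  intro X hX
  rw [Submodule.mem_bot]
  exact h14g_inv_eq_zero p ρbar hIrr hyp X (fun σ => hX σ)

theorem h14g_finrank_invariants [Finite k] (hIrr : H56SlIrr) (hyp : h56c_Hyp p ρbar) :
    Module.finrank (ZMod p) ↥(h14g_Ad0 p ρbar).invariants = 0 := by
  rw [h14g_invariants_eq_bot p ρbar hIrr hyp, finrank_bot]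

end

end Fermat.Agent.S56L
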