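import Mathlib
import Fermat.Agent.PT.Defs

/-!
# S56 (helper14): restriction of scalars from a finite field `k` to `𝔽_p` (foundation of SEL-GW)

The Greenberg–Wiles inequality `H47GW` is stated for representations over `ZMod p`; the Selmer
interface `S56/SelIface.lean` is `k`-linear.  This file is the dictionary.

* `h14g_R p k V`      : type synonym of the `k`-vector space `V`, with its structure of
                        `ZMod p`-vector space (`a • x = (a : k) • x`) and its `k`-structure;
* `h14g_rep p ρ`      : a `k`-linear representation as a `ZMod p`-linear one (same maps);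
* `h14g_mem_Z1_iff`, `h14g_mem_B1_iff`, `h14g_mem_Z2_iff`, `h14g_isDisc_iff` : cocycles,
                        coboundaries and discreteness do not see the scalars;
* `h14g_fun p W`      : a `k`-subspace of a function space as a `ZMod p`-subspace (same carrier);
* `h14g_deg p k`      : `[k : 𝔽_p]`;
* `h14g_finrank_of_carrier` : **instance agnostic**: if `X` carries a `k`-structure and ANY
                        `ZMod p`-structure, a `k`-subspace `W` and a `ZMod p`-subspace `W'` with
                        the same carrier satisfy `finrank_{𝔽_p} W' = [k : 𝔽_p] * finrank_k W`.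
-/

set_option autoImplicit false
set_option linter.style.haveILetI false

noncomputable section

namespace Fermat.Agent.S56L

open Fermat.Agent.PT

/-- restriction of scalars to `𝔽_p`: a type synonym of `V`. -/
def h14g_R (_p : ℕ) (_k : Type) (V : Type) : Type := V

section Synonym

variable (p : ℕ) (k : Type) (V : Type)

instance h14g_R_addCommGroup [AddCommGroup V] : AddCommGroup (h14g_R p k V) :=
  inferInstanceAs (AddCommGroup V)

instance h14g_R_module [Field k] [AddCommGroup V] [Module k V] : Module k (h14g_R p k V) :=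
  inferInstanceAs (Module k V)

instance h14g_R_zmodModule [Fact p.Prime] [Field k] [CharP k p] [AddCommGroup V] [Module k V] :
    Module (ZMod p) (h14g_R p k V) :=
  Module.compHom V (ZMod.castHom (dvd_refl p) k)

/-- the identity, from `V` to its synonym. -/
def h14g_to : V → h14g_R p k V := fun x => x

/-- the identity, from the synonym to `V`. -/
def h14g_of : h14g_R p k V → V := fun x => x

variable {p k V}

theorem h14g_smul_def [Fact p.Prime] [Field k] [CharP k p] [AddCommGroup V] [Module k V]
    (a : ZMod p) (x : h14g_R p k V) :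
    a • x = (ZMod.castHom (dvd_refl p) k a) • x := rfl

end Synonym

/-! ## Compatibility of an arbitrary `ZMod p`-structure -/

section Compat

variable {p : ℕ} [Fact p.Prime] {k : Type} [Field k] [CharP k p]

/-- any `ZMod p`-structure on a `k`-vector space is the restriction of the `k`-structure. -/
theorem h14g_compat {X : Type} [AddCommGroup X] [Module k X] [Module (ZMod p) X]
    (a : ZMod p) (x : X) : a • x = (ZMod.castHom (dvd_refl p) k a) • x := by
  obtain ⟨n, rfl⟩ := ZMod.natCast_zmod_surjective a
  rw [map_natCast, Nat.cast_smul_eq_nsmul, Nat.cast_smul_eq_nsmul]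

end Compat

/-! ## Subspaces of function spaces -/

section Sub

variable (p : ℕ) [Fact p.Prime] {k : Type} [Field k] [CharP k p]
variable {ι : Type} {V : Type} [AddCommGroup V] [Module k V]

/-- a `k`-subspace of a function space as a `ZMod p`-subspace (same carrier). -/
def h14g_fun (W : Submodule k (ι → V)) : Submodule (ZMod p) (ι → h14g_R p k V) where
  carrier := {f | (f : ι → V) ∈ W}
  add_mem' := fun {a b} ha hb => W.add_mem ha hb
  zero_mem' := W.zero_mem
  smul_mem' := fun a f hf => W.smul_mem (ZMod.castHom (dvd_refl p) k a) hf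

@[simp] theorem h14g_mem_fun (W : Submodule k (ι → V)) (f : ι → h14g_R p k V) :
    f ∈ h14g_fun p W ↔ (f : ι → V) ∈ W := Iff.rfl

theorem h14g_mem_fun' (W : Submodule k (ι → V)) (f : ι → V) :
    @Membership.mem (ι → h14g_R p k V) _ _ (h14g_fun p W) f ↔ f ∈ W := Iff.rfl

theorem h14g_fun_mono {W W' : Submodule k (ι → V)} (h : W ≤ W') :
    h14g_fun p W ≤ h14g_fun p W' := fun _ hf => h hf

theorem h14g_fun_le_iff {W W' : Submodule k (ι → V)} :
    h14g_fun p W ≤ h14g_fun p W' ↔ W ≤ W' := Iff.rfl

theorem h14g_fun_inf (W W' : Submodule k (ι → V)) :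
    h14g_fun p (W ⊓ W') = h14g_fun p W ⊓ h14g_fun p W' := rfl

/-- a `k`-subspace as a `ZMod p`-subspace of the synonym (same carrier). -/
def h14g_sub (W : Submodule k V) : Submodule (ZMod p) (h14g_R p k V) where
  carrier := {x | (x : V) ∈ W}
  add_mem' := fun {a b} ha hb => W.add_mem ha hb
  zero_mem' := W.zero_mem
  smul_mem' := fun a x hx => W.smul_mem (ZMod.castHom (dvd_refl p) k a) hx

@[simp] theorem h14g_mem_sub (W : Submodule k V) (x : h14g_R p k V) :
    x ∈ h14g_sub p W ↔ (x : V) ∈ W := Iff.rfl

end Sub

/-! ## Representations -/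

section Rep

variable (p : ℕ) [Fact p.Prime] {k : Type} [Field k] [CharP k p]
variable {G : Type} [Group G] {V : Type} [AddCommGroup V] [Module k V]

/-- a `k`-linear map as a `ZMod p`-linear map of the synonyms. -/
def h14g_lin (f : V →ₗ[k] V) : h14g_R p k V →ₗ[ZMod p] h14g_R p k V where
  toFun := f
  map_add' := map_add f
  map_smul' a x := map_smul f (ZMod.castHom (dvd_refl p) k a) x

@[simp] theorem h14g_lin_apply (f : V →ₗ[k] V) (x : h14g_R p k V) :
    h14g_lin p f x = f x := rfl

/-- a `k`-linear representation as a `ZMod p`-linear one (same underlying maps). -/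
def h14g_rep (ρ : Representation k G V) : Representation (ZMod p) G (h14g_R p k V) where
  toFun g := h14g_lin p (ρ g)
  map_one' := by
    ext x
    simp
  map_mul' g h := by
    ext x
    simp

@[simp] theorem h14g_rep_apply (ρ : Representation k G V) (g : G) (x : h14g_R p k V) :
    h14g_rep p ρ g x = ρ g x := rfl

theorem h14g_d0_apply (ρ : Representation k G V) (x : h14g_R p k V) (g : G) :
    d0 (h14g_rep p ρ) x g = d0 ρ x g := rfl

theorem h14g_d1_apply (ρ : Representation k G V) (f : G → h14g_R p k V) (x : G × G) :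
    d1 (h14g_rep p ρ) f x = d1 ρ f x := rfl

theorem h14g_d2_apply (ρ : Representation k G V) (f : G × G → h14g_R p k V) (x : G × G × G) :
    d2 (h14g_rep p ρ) f x = d2 ρ f x := rfl

/-- continuous cocycles do not see the scalars. -/
theorem h14g_Z1_eq (L : Lev G) (ρ : Representation k G V) :
    Z1 L (h14g_rep p ρ) = h14g_fun p (Z1 L ρ) := by
  ext f
  constructor
  · rintro ⟨h1, h2⟩
    refine (h14g_mem_fun' p _ f).2 ⟨LinearMap.mem_ker.2 ?_, h2⟩
    have h3 := LinearMap.mem_ker.1 h1
    funext x
    exact congrFun h3 x
  · intro h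
    obtain ⟨h1, h2⟩ := (h14g_mem_fun' p _ f).1 h
    refine ⟨LinearMap.mem_ker.2 ?_, h2⟩
    have h3 := LinearMap.mem_ker.1 h1
    funext x
    exact congrFun h3 x

/-- coboundaries do not see the scalars. -/
theorem h14g_B1_eq (ρ : Representation k G V) :
    B1 (h14g_rep p ρ) = h14g_fun p (B1 ρ) := by
  ext f
  constructor
  · rintro ⟨v, hv⟩
    exact (h14g_mem_fun' p _ f).2 ⟨v, hv⟩
  · intro h
    obtain ⟨v, hv⟩ := (h14g_mem_fun' p _ f).1 h
    exact ⟨v, hv⟩

/-- continuous `2`-cocycles do not see the scalars. -/
theorem h14g_Z2_eq (L : Lev G) (ρ : Representation k G V) :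
    Z2 L (h14g_rep p ρ) = h14g_fun p (Z2 L ρ) := by
  ext f
  constructor
  · rintro ⟨h1, h2⟩
    refine (h14g_mem_fun' p _ f).2 ⟨LinearMap.mem_ker.2 ?_, h2⟩
    have h3 := LinearMap.mem_ker.1 h1
    funext x
    exact congrFun h3 x
  · intro h
    obtain ⟨h1, h2⟩ := (h14g_mem_fun' p _ f).1 h
    refine ⟨LinearMap.mem_ker.2 ?_, h2⟩
    have h3 := LinearMap.mem_ker.1 h1
    funext x
    exact congrFun h3 x

/-- continuous `2`-coboundaries do not see the scalars. -/
theorem h14g_B2_eq (L : Lev G) (ρ : Representation k G V) :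
    B2 L (h14g_rep p ρ) = h14g_fun p (B2 L ρ) := by
  ext f
  constructor
  · intro h
    obtain ⟨x, hx, hv⟩ := (mem_B2 L (h14g_rep p ρ) f).1 h
    exact (h14g_mem_fun' p _ f).2 ((mem_B2 L ρ f).2 ⟨x, hx, hv⟩)
  · intro h
    obtain ⟨x, hx, hv⟩ := (mem_B2 L ρ f).1 ((h14g_mem_fun' p _ f).1 h)
    exact (mem_B2 L (h14g_rep p ρ) f).2 ⟨x, hx, hv⟩

/-- restriction of cochains commutes with the restriction of scalars. -/
theorem h14g_comap_res1 {H : Type} [Group H] (f : H →* G) (W : Submodule k (H → V)) :
    (h14g_fun p W).comap (res1 (ZMod p) (h14g_R p k V) f) =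
      h14g_fun p (W.comap (res1 k V f)) := rfl

/-- discreteness does not see the scalars. -/
theorem h14g_isDisc_iff (L : Lev G) (ρ : Representation k G V) :
    IsDisc L (h14g_rep p ρ) ↔ IsDisc L ρ := Iff.rfl

/-- the restriction to a subgroup commutes with the restriction of scalars. -/
theorem h14g_rep_comp {H : Type} [Group H] (ρ : Representation k G V) (f : H →* G) :
    (h14g_rep p ρ).comp f = h14g_rep p (ρ.comp f) := rfl

end Rep

/-! ## Dimensions -/

section Dim

variable (p : ℕ) [Fact p.Prime] (k : Type) [Field k] [CharP k p]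

/-- `[k : 𝔽_p]`. -/
def h14g_deg : ℕ :=
  letI := ZMod.algebra k p
  Module.finrank (ZMod p) k

theorem h14g_deg_pos [Finite k] : 0 < h14g_deg p k := by
  letI := ZMod.algebra k p
  exact Module.finrank_pos

variable {p k}

/-- **instance agnostic dimension formula**: a `k`-subspace `W` and a `ZMod p`-subspace `W'`
with the same carrier satisfy `finrank_{𝔽_p} W' = [k : 𝔽_p] * finrank_k W`. -/
theorem h14g_finrank_of_carrier {X : Type} [AddCommGroup X] [Module k X] [Module (ZMod p) X]
    (W : Submodule k X) (W' : Submodule (ZMod p) X) (h : (W' : Set X) = (W : Set X)) :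
    Module.finrank (ZMod p) ↥W' = h14g_deg p k * Module.finrank k ↥W := by
  letI := ZMod.algebra k p
  haveI : IsScalarTower (ZMod p) k (h14g_R p k ↥W) :=
    ⟨fun a b x => by
      rw [h14g_smul_def, Algebra.smul_def, mul_smul]
      rfl⟩
  have hmem : ∀ x : X, x ∈ W' ↔ x ∈ W := fun x => by
    rw [← SetLike.mem_coe, h, SetLike.mem_coe]
  let e : ↥W' ≃ₗ[ZMod p] h14g_R p k ↥W :=
    { toFun := fun x => ⟨x.1, (hmem _).1 x.2⟩
      invFun := fun x => ⟨x.1, (hmem _).2 x.2⟩
      left_inv := fun x => rfl
      right_inv := fun x => rfl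
      map_add' := fun x y => rfl
      map_smul' := fun a x => by
        apply Subtype.ext
        change a • (x : X) = (ZMod.castHom (dvd_refl p) k a) • (x : X)
        exact h14g_compat a (x : X) }
  rw [e.finrank_eq]
  exact (Module.finrank_mul_finrank (ZMod p) k (h14g_R p k ↥W)).symm

/-- the dimension formula for `h14g_fun`. -/
theorem h14g_finrank_fun {ι V : Type} [AddCommGroup V] [Module k V] (W : Submodule k (ι → V)) :
    Module.finrank (ZMod p) ↥(h14g_fun p W) = h14g_deg p k * Module.finrank k ↥W :=
  h14g_finrank_of_carrier (X := ι → h14g_R p k V) W (h14g_fun p W) rfl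

/-- the dimension formula for `h14g_sub`. -/
theorem h14g_finrank_sub {V : Type} [AddCommGroup V] [Module k V] (W : Submodule k V) :
    Module.finrank (ZMod p) ↥(h14g_sub p W) = h14g_deg p k * Module.finrank k ↥W :=
  h14g_finrank_of_carrier (X := h14g_R p k V) W (h14g_sub p W) rfl

/-- the dimension of the synonym. -/
theorem h14g_finrank_R (V : Type) [AddCommGroup V] [Module k V] :
    Module.finrank (ZMod p) (h14g_R p k V) = h14g_deg p k * Module.finrank k V := by
  have h1 := h14g_finrank_of_carrier (p := p) (k := k) (X := h14g_R p k V) ⊤ ⊤ rfl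
  rw [finrank_top, finrank_top] at h1
  exact h1

/-- finiteness passes to the restriction of scalars (`k` finite). -/
theorem h14g_finite_fun [Finite k] {ι V : Type} [AddCommGroup V] [Module k V]
    (W : Submodule k (ι → V)) [Module.Finite k ↥W] : Module.Finite (ZMod p) ↥(h14g_fun p W) := by
  haveI : Finite ↥W := Module.finite_of_finite k
  haveI : Finite ↥(h14g_fun p W) := ‹Finite ↥W›
  exact Module.Finite.of_finite

/-- finiteness comes back from the restriction of scalars. -/
theorem h14g_finite_of_fun {ι V : Type} [AddCommGroup V] [Module k V]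
    (W : Submodule k (ι → V)) (h : Module.Finite (ZMod p) ↥(h14g_fun p W)) :
    Module.Finite k ↥W := by
  haveI := h
  haveI : Finite ↥(h14g_fun p W) := Module.finite_of_finite (ZMod p)
  haveI : Finite ↥W := ‹Finite ↥(h14g_fun p W)›
  exact Module.Finite.of_finite

/-- the synonym of a finite dimensional space is finite dimensional (`k` finite). -/
theorem h14g_finite_R [Finite k] (V : Type) [AddCommGroup V] [Module k V] [Module.Finite k V] :
    Module.Finite (ZMod p) (h14g_R p k V) := by
  haveI : Finite V := Module.finite_of_finite k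
  haveI : Finite (h14g_R p k V) := ‹Finite V›
  exact Module.Finite.of_finite

end Dim

end Fermat.Agent.S56L
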