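import Fermat.Agent.S56L.IfaceAbs

/-!
# S56, block LOC, row LOC-UNIP-ABS (helper33): the scalar core

Pure group theory.  `G` a group, `Γ' ⊴ G` of index prime to the characteristic, `I ≤ Γ'`,
`R = [[χ1, β], [0, χ2]]` a triangular representation, unipotent on `Γ'`, and
`C = [[A, B], [Γc, D]]` a derivation (`C(gh) = C(g) R(h) + R(g) C(h)`), i.e. `C = c R` for a
cocycle `c` with values in the adjoint representation.  With the `k`-valued tame datum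
`h33w_Tame` of `Γ'` (the continuous additive functions are spanned by `ν`, `κ`, and `ν ∪ κ` is
not a coboundary), a derivation which is of trace zero on `Γ'`, has `tr C = 0` on `I`, and
vanishes in three explicit entries, is zero.
-/

set_option autoImplicit false

noncomputable section

namespace Fermat.Agent.S56L

open Fermat.Agent.PT

/-! ## Level-constant functions -/

lemma h33w_isLC1_map₂ {G : Type} [Group G] {L : Lev G} {X Y Z : Type*} {f : G → X} {g : G → Y}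
    (hf : IsLC1 L f) (hg : IsLC1 L g) (φ : X → Y → Z) :
    IsLC1 L (fun s => φ (f s) (g s)) := by
  obtain ⟨N₁, h₁, hf⟩ := hf
  obtain ⟨N₂, h₂, hg⟩ := hg
  obtain ⟨N, hN, hle⟩ := L.directed N₁ h₁ N₂ h₂
  exact ⟨N, hN, fun a s hs => by simp only [hf a s (hle hs).1, hg a s (hle hs).2]⟩

/-! ## The two structures -/

/-- The `k`-valued tame datum of a normal subgroup `Γ'` of finite index prime to the
characteristic, with a subgroup `I ≤ Γ'`. -/
structure h33w_Tame {G : Type} [Group G] {k : Type} [Field k] (Γ' I : Subgroup G)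
    (L' : Lev ↥Γ') (ν κ : ↥Γ' → k) : Prop where
  normal : Γ'.Normal
  le : I ≤ Γ'
  pow_mem : ∀ g : G, g ^ Γ'.index ∈ Γ'
  index_ne : (Γ'.index : k) ≠ 0
  two_ne : (2 : k) ≠ 0
  νadd : ∀ s t, ν (s * t) = ν s + ν t
  κadd : ∀ s t, κ (s * t) = κ s + κ t
  νlc : IsLC1 L' ν
  κlc : IsLC1 L' κ
  νI : ∀ s : ↥Γ', (s : G) ∈ I → ν s = 0
  νconj : ∀ (g : G) (s : ↥Γ') (h : g * (s : G) * g⁻¹ ∈ Γ'), ν ⟨_, h⟩ = ν s
  span : ∀ f : ↥Γ' → k, IsLC1 L' f → (∀ s t, f (s * t) = f s + f t) →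
    ∃ x y : k, ∀ s, f s = x * ν s + y * κ s
  tame : ∀ (x : k) (F : ↥Γ' → k), IsLC1 L' F →
    (∀ s t, x * (ν s * κ t) = F t - F (s * t) + F s) → x = 0

/-- A triangular representation `[[χ1, β], [0, χ2]]`, unipotent on `Γ'`, with a derivation
`[[A, B], [Γc, D]]`, of trace zero on `Γ'` and with `tr C = 0` on `I`. -/
structure h33w_Coc {G : Type} [Group G] {k : Type} [Field k] (Γ' I : Subgroup G)
    (L' : Lev ↥Γ') (χ1 χ2 : G →* k) (β A B Γc D : G → k) : Prop where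
  u1 : ∀ s ∈ Γ', χ1 s = 1
  u2 : ∀ s ∈ Γ', χ2 s = 1
  mβ : ∀ g h, β (g * h) = χ1 g * β h + β g * χ2 h
  dΓ : ∀ g h, Γc (g * h) = Γc g * χ1 h + χ2 g * Γc h
  dA : ∀ g h, A (g * h) = A g * χ1 h + χ1 g * A h + β g * Γc h
  dD : ∀ g h, D (g * h) = Γc g * β h + D g * χ2 h + χ2 g * D h
  dB : ∀ g h, B (g * h) = A g * β h + B g * χ2 h + χ1 g * B h + β g * D h
  tr : ∀ s ∈ Γ', A s + D s = Γc s * β s
  unip : ∀ s ∈ I, A s + D s = 0
  Alc : IsLC1 L' (fun s : ↥Γ' => A s)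
  Blc : IsLC1 L' (fun s : ↥Γ' => B s)
  Γlc : IsLC1 L' (fun s : ↥Γ' => Γc s)
  βlc : IsLC1 L' (fun s : ↥Γ' => β s)

section Core

variable {G : Type} [Group G] {k : Type} [Field k] {Γ' I : Subgroup G} {L' : Lev ↥Γ'}
  {ν κ : ↥Γ' → k} {χ1 χ2 : G →* k} {β A B Γc D : G → k}

/-! ## Elementary facts -/

lemma h33w_chi_mul_inv (χ : G →* k) (g : G) : χ g * χ g⁻¹ = 1 := by
  rw [← map_mul, mul_inv_cancel, map_one]

lemma h33w_chi_ne_zero (χ : G →* k) (g : G) : χ g ≠ 0 := by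
  intro h
  have := h33w_chi_mul_inv χ g
  rw [h, zero_mul] at this
  exact zero_ne_one this

/-- an additive function vanishing on `Γ'` vanishes. -/
lemma h33w_hom_eq_zero (hT : h33w_Tame Γ' I L' ν κ) (a : G → k)
    (hadd : ∀ g h, a (g * h) = a g + a h) (h0 : ∀ s ∈ Γ', a s = 0) (g : G) : a g = 0 := by
  have hpow : ∀ m : ℕ, a (g ^ m) = m * a g := by
    intro m
    induction m with
    | zero =>
      have h1 : a 1 = 0 := by
        have := hadd 1 1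
        rw [mul_one] at this
        linear_combination -this
      simp [h1]
    | succ m ih =>
      rw [pow_succ, hadd, ih]
      push_cast
      ring
  have h := hpow Γ'.index
  rw [h0 _ (hT.pow_mem g)] at h
  rcases mul_eq_zero.1 h.symm with h | h
  · exact absurd h hT.index_ne
  · exact h

/-- the `κ`-coefficient is detected at `s0`. -/
lemma h33w_coeff (hT : h33w_Tame Γ' I L' ν κ) {s0 : ↥Γ'} (hs0 : (s0 : G) ∈ I)
    (hκ0 : κ s0 ≠ 0) {f : ↥Γ' → k} {x y : k} (hf : ∀ s, f s = x * ν s + y * κ s)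
    (h0 : f s0 = 0) : y = 0 := by
  have h := hf s0
  rw [h0, hT.νI s0 hs0, mul_zero, zero_add] at h
  rcases mul_eq_zero.1 h.symm with h | h
  · exact h
  · exact absurd h hκ0

lemma h33w_nu_ne_zero (hT : h33w_Tame Γ' I L' ν κ) : ∃ s, ν s ≠ 0 := by
  by_contra hcon
  push Not at hcon
  have h1 : (1 : k) = 0 := by
    refine hT.tame 1 (fun _ => 0) (isLC1_const L' (0 : k)) (fun s t => ?_)
    rw [hcon s]
    ring
  exact one_ne_zero h1

/-! ## The restriction to `Γ'` -/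

lemma h33w_beta_add (hC : h33w_Coc Γ' I L' χ1 χ2 β A B Γc D) (s t : ↥Γ') :
    β ((s * t : ↥Γ') : G) = β s + β t := by
  rw [Subgroup.coe_mul, hC.mβ, hC.u1 _ s.2, hC.u2 _ t.2]
  ring

lemma h33w_gamma_add (hC : h33w_Coc Γ' I L' χ1 χ2 β A B Γc D) (s t : ↥Γ') :
    Γc ((s * t : ↥Γ') : G) = Γc s + Γc t := by
  rw [Subgroup.coe_mul, hC.dΓ, hC.u1 _ t.2, hC.u2 _ s.2]
  ring

/-- `β = x ν + y κ` on `Γ'` with `y ≠ 0`, `κ(s0) ≠ 0`. -/
lemma h33w_beta_span (hT : h33w_Tame Γ' I L' ν κ) (hC : h33w_Coc Γ' I L' χ1 χ2 β A B Γc D)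
    {s0 : G} (hs0 : s0 ∈ I) (hb0 : β s0 ≠ 0) :
    ∃ x y : k, y ≠ 0 ∧ κ ⟨s0, hT.le hs0⟩ ≠ 0 ∧ ∀ s : ↥Γ', β s = x * ν s + y * κ s := by
  obtain ⟨x, y, hb⟩ := hT.span (fun s => β s) hC.βlc (h33w_beta_add hC)
  have h := hb ⟨s0, hT.le hs0⟩
  rw [hT.νI ⟨s0, hT.le hs0⟩ hs0, mul_zero, zero_add] at h
  have h' : y * κ ⟨s0, hT.le hs0⟩ ≠ 0 := by
    rw [← h]
    exact hb0
  exact ⟨x, y, left_ne_zero_of_mul h', right_ne_zero_of_mul h', hb⟩

/-- Step A: the lower left entry vanishes on `Γ'`. -/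
lemma h33w_stepA (hT : h33w_Tame Γ' I L' ν κ) (hC : h33w_Coc Γ' I L' χ1 χ2 β A B Γc D)
    {s0 : G} (hs0 : s0 ∈ I) (hb0 : β s0 ≠ 0) : ∀ s ∈ Γ', Γc s = 0 := by
  obtain ⟨x, y, hy, hκ0, hb⟩ := h33w_beta_span hT hC hs0 hb0
  -- `Γc` vanishes at `s0`
  have hΓ0 : Γc s0 = 0 := by
    have h1 := hC.tr s0 (hT.le hs0)
    rw [hC.unip s0 hs0] at h1
    rcases mul_eq_zero.1 h1.symm with h | h
    · exact h
    · exact absurd h hb0
  obtain ⟨x2, y2, hΓ⟩ := hT.span (fun s => Γc s) hC.Γlc (h33w_gamma_add hC)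
  have hy2 : y2 = 0 := h33w_coeff hT (s0 := ⟨s0, hT.le hs0⟩) hs0 hκ0 hΓ hΓ0
  subst hy2
  have hAeq : ∀ s t : ↥Γ', A ((s * t : ↥Γ') : G) = A s + A t + β s * Γc t := by
    intro s t
    rw [Subgroup.coe_mul, hC.dA, hC.u1 _ s.2, hC.u1 _ t.2]
    ring
  have hlc : IsLC1 L' (fun s : ↥Γ' => 2 * A s - x * x2 * ν s ^ 2 - 2 * (y * x2) * (ν s * κ s)) := by
    have h1 := h33w_isLC1_map₂ hT.νlc hT.κlc (fun a b : k => (a, b))
    exact h33w_isLC1_map₂ hC.Alc h1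
      (fun a b => 2 * a - x * x2 * b.1 ^ 2 - 2 * (y * x2) * (b.1 * b.2))
  have h0 : 2 * (y * x2) = 0 := by
    refine hT.tame _ _ hlc (fun s t => ?_)
    have e1 := hAeq s t
    have e2 := hb s
    have e3 := hΓ t
    rw [hT.νadd, hT.κadd]
    linear_combination (2 : k) * e1 + (2 * Γc t) * e2 + (2 * (x * ν s + y * κ s)) * e3
  have hx2 : x2 = 0 := by
    rcases mul_eq_zero.1 h0 with h | h
    · exact absurd h hT.two_ne
    · rcases mul_eq_zero.1 h with h | h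
      · exact absurd h hy
      · exact h
  intro s hs
  have := hΓ ⟨s, hs⟩
  rw [this, hx2]
  ring

/-- Step B: the diagonal entries vanish on `Γ'`. -/
lemma h33w_stepB (hT : h33w_Tame Γ' I L' ν κ) (hC : h33w_Coc Γ' I L' χ1 χ2 β A B Γc D)
    {s0 : G} (hs0 : s0 ∈ I) (hb0 : β s0 ≠ 0) (hA0 : A s0 = 0) :
    ∀ s ∈ Γ', A s = 0 ∧ D s = 0 := by
  have hΓ := h33w_stepA hT hC hs0 hb0
  obtain ⟨x, y, hy, hκ0, hb⟩ := h33w_beta_span hT hC hs0 hb0
  have hD : ∀ s ∈ Γ', D s = - A s := by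
    intro s hs
    have := hC.tr s hs
    rw [hΓ s hs] at this
    linear_combination this
  have hAadd : ∀ s t : ↥Γ', A ((s * t : ↥Γ') : G) = A s + A t := by
    intro s t
    rw [Subgroup.coe_mul, hC.dA, hC.u1 _ s.2, hC.u1 _ t.2, hΓ _ t.2]
    ring
  obtain ⟨x0, y0, hA⟩ := hT.span (fun s => A s) hC.Alc hAadd
  have hy0 : y0 = 0 := h33w_coeff hT (s0 := ⟨s0, hT.le hs0⟩) hs0 hκ0 hA hA0
  subst hy0
  have hBeq : ∀ s t : ↥Γ', B ((s * t : ↥Γ') : G) = B s + B t + A s * β t - β s * A t := by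
    intro s t
    rw [Subgroup.coe_mul, hC.dB, hC.u1 _ s.2, hC.u2 _ t.2, hD _ t.2]
    ring
  have hlc : IsLC1 L' (fun s : ↥Γ' => B s - (- x0 * y) * (ν s * κ s)) := by
    have h1 := h33w_isLC1_map₂ hT.νlc hT.κlc (fun a b : k => (a, b))
    exact h33w_isLC1_map₂ hC.Blc h1 (fun a b => a - (- x0 * y) * (b.1 * b.2))
  have h0 : 2 * (- x0 * y) = 0 := by
    refine hT.tame _ _ hlc (fun s t => ?_)
    have e1 := hBeq s t
    have e2 := hb s
    have e3 := hb t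
    have e4 := hA s
    have e5 := hA t
    rw [hT.νadd, hT.κadd]
    linear_combination e1 + (A s) * e3 - (A t) * e2
      + (x * ν t + y * κ t) * e4 - (x * ν s + y * κ s) * e5
  have hx0 : x0 = 0 := by
    rcases mul_eq_zero.1 h0 with h | h
    · exact absurd h hT.two_ne
    · rcases mul_eq_zero.1 h with h | h
      · exact neg_eq_zero.1 h
      · exact absurd h hy
  intro s hs
  have h1 : A s = 0 := by
    have := hA ⟨s, hs⟩
    rw [this, hx0]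
    ring
  exact ⟨h1, by rw [hD s hs, h1, neg_zero]⟩

/-- Step C: the upper right entry is a multiple of `ν` on `Γ'`. -/
lemma h33w_stepC (hT : h33w_Tame Γ' I L' ν κ) (hC : h33w_Coc Γ' I L' χ1 χ2 β A B Γc D)
    {s0 : G} (hs0 : s0 ∈ I) (hb0 : β s0 ≠ 0) (hA0 : A s0 = 0) (hB0 : B s0 = 0) :
    ∃ x1 : k, ∀ s : ↥Γ', B s = x1 * ν s := by
  have hAD := h33w_stepB hT hC hs0 hb0 hA0
  obtain ⟨x, y, hy, hκ0, hb⟩ := h33w_beta_span hT hC hs0 hb0
  have hBadd : ∀ s t : ↥Γ', B ((s * t : ↥Γ') : G) = B s + B t := by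
    intro s t
    rw [Subgroup.coe_mul, hC.dB, hC.u1 _ s.2, hC.u2 _ t.2, (hAD _ s.2).1, (hAD _ t.2).2]
    ring
  obtain ⟨x1, y1, hB⟩ := hT.span (fun s => B s) hC.Blc hBadd
  have hy1 : y1 = 0 := h33w_coeff hT (s0 := ⟨s0, hT.le hs0⟩) hs0 hκ0 hB hB0
  subst hy1
  exact ⟨x1, fun s => by rw [hB s]; ring⟩

/-- Step D: the lower left and the diagonal entries vanish on `G`. -/
lemma h33w_stepD (hT : h33w_Tame Γ' I L' ν κ) (hC : h33w_Coc Γ' I L' χ1 χ2 β A B Γc D)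
    {s0 : G} (hs0 : s0 ∈ I) (hb0 : β s0 ≠ 0) (hA0 : A s0 = 0) :
    ∀ g, Γc g = 0 ∧ A g = 0 ∧ D g = 0 := by
  have hAD := h33w_stepB hT hC hs0 hb0 hA0
  have hΓ' := h33w_stepA hT hC hs0 hb0
  have hΓ : ∀ g, Γc g = 0 := by
    intro g
    have hn : g * s0 * g⁻¹ ∈ Γ' := hT.normal.conj_mem s0 (hT.le hs0) g
    have e1 := hC.dD g s0
    have e2 := hC.dD (g * s0 * g⁻¹) g
    rw [inv_mul_cancel_right] at e2
    rw [hC.u2 _ (hT.le hs0), (hAD _ (hT.le hs0)).2] at e1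
    rw [hC.u2 _ hn, (hAD _ hn).2, hΓ' _ hn] at e2
    have e3 : Γc g * β s0 = 0 := by linear_combination e2 - e1
    rcases mul_eq_zero.1 e3 with h | h
    · exact h
    · exact absurd h hb0
  have hA : ∀ g, A g = 0 := by
    intro g
    have h := h33w_hom_eq_zero hT (fun g => A g * χ1 g⁻¹) (fun g h => ?_)
      (fun s hs => by simp only [(hAD s hs).1, zero_mul]) g
    · have h2 := h33w_chi_mul_inv χ1 g
      have : A g = A g * χ1 g⁻¹ * χ1 g := by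
        rw [mul_assoc, mul_comm (χ1 g⁻¹), h2, mul_one]
      rw [this, h, zero_mul]
    · rw [hC.dA, hΓ h, mul_inv_rev, map_mul]
      have h1 := h33w_chi_mul_inv χ1 g
      have h2 := h33w_chi_mul_inv χ1 h
      linear_combination (A g * χ1 g⁻¹) * h2 + (A h * χ1 h⁻¹) * h1
  have hD : ∀ g, D g = 0 := by
    intro g
    have h := h33w_hom_eq_zero hT (fun g => D g * χ2 g⁻¹) (fun g h => ?_)
      (fun s hs => by simp only [(hAD s hs).2, zero_mul]) g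
    · have h2 := h33w_chi_mul_inv χ2 g
      have : D g = D g * χ2 g⁻¹ * χ2 g := by
        rw [mul_assoc, mul_comm (χ2 g⁻¹), h2, mul_one]
      rw [this, h, zero_mul]
    · rw [hC.dD, hΓ g, mul_inv_rev, map_mul]
      have h1 := h33w_chi_mul_inv χ2 g
      have h2 := h33w_chi_mul_inv χ2 h
      linear_combination (D g * χ2 g⁻¹) * h2 + (D h * χ2 h⁻¹) * h1
  exact fun g => ⟨hΓ g, hA g, hD g⟩

/-- a twisted homomorphism vanishing on `Γ'` vanishes on the kernel of `χ1 / χ2`. -/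
lemma h33w_B_ker (hT : h33w_Tame Γ' I L' ν κ)
    (hBeq : ∀ g h, B (g * h) = B g * χ2 h + χ1 g * B h) (hB' : ∀ s ∈ Γ', B s = 0)
    {g : G} (hg : χ1 g = χ2 g) : B g = 0 := by
  have hinv := h33w_chi_mul_inv χ1 g
  have hpow : ∀ m : ℕ, B (g ^ m) * χ1 g⁻¹ ^ m = m * (B g * χ1 g⁻¹) := by
    intro m
    induction m with
    | zero =>
      have h1 : B 1 = 0 := by
        have := hBeq 1 1
        rw [mul_one, map_one, map_one] at this
        linear_combination -this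
      simp [h1]
    | succ m ih =>
      have hm : (χ1 g * χ1 g⁻¹) ^ m = 1 := by rw [hinv, one_pow]
      rw [mul_pow] at hm
      rw [pow_succ, hBeq, ← hg, map_pow, pow_succ]
      push_cast
      linear_combination (χ1 g * χ1 g⁻¹) * ih + (B g * χ1 g⁻¹) * hm
        + (m * (B g * χ1 g⁻¹)) * hinv
  have h := hpow Γ'.index
  rw [hB' _ (hT.pow_mem g), zero_mul] at h
  rcases mul_eq_zero.1 h.symm with h | h
  · exact absurd h hT.index_ne
  · have : B g = B g * χ1 g⁻¹ * χ1 g := by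
      rw [mul_assoc, mul_comm (χ1 g⁻¹), hinv, mul_one]
    rw [this, h, zero_mul]

/-- Step E: the upper right entry vanishes on `G`. -/
lemma h33w_stepE (hT : h33w_Tame Γ' I L' ν κ) (hC : h33w_Coc Γ' I L' χ1 χ2 β A B Γc D)
    {s0 : G} (hs0 : s0 ∈ I) (hb0 : β s0 ≠ 0) (hA0 : A s0 = 0) (hB0 : B s0 = 0)
    {g1 : G} (hg1 : (∀ g, χ1 g = χ2 g) → ∃ h : g1 ∈ Γ', ν ⟨g1, h⟩ ≠ 0)
    (hg1' : (¬ ∀ g, χ1 g = χ2 g) → χ1 g1 ≠ χ2 g1) (hB1 : B g1 = 0) :
    ∀ g, B g = 0 := by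
  have hGAD := h33w_stepD hT hC hs0 hb0 hA0
  obtain ⟨x1, hB⟩ := h33w_stepC hT hC hs0 hb0 hA0 hB0
  have hBeq : ∀ g h, B (g * h) = B g * χ2 h + χ1 g * B h := by
    intro g h
    rw [hC.dB, (hGAD g).2.1, (hGAD h).2.2]
    ring
  by_cases hcase : ∀ g, χ1 g = χ2 g
  · obtain ⟨h1, hν1⟩ := hg1 hcase
    have hx1 : x1 = 0 := by
      have := hB ⟨g1, h1⟩
      rw [hB1] at this
      rcases mul_eq_zero.1 this.symm with h | h
      · exact h
      · exact absurd h hν1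
    have hB' : ∀ s ∈ Γ', B s = 0 := fun s hs => by
      have := hB ⟨s, hs⟩
      rw [this, hx1, zero_mul]
    exact fun g => h33w_B_ker hT hBeq hB' (hcase g)
  · have hne := hg1' hcase
    obtain ⟨s, hs⟩ := h33w_nu_ne_zero hT
    have hn : g1 * (s : G) * g1⁻¹ ∈ Γ' := hT.normal.conj_mem s s.2 g1
    have hx1 : x1 = 0 := by
      have e1 := hBeq g1 s
      have e2 := hBeq (g1 * s * g1⁻¹) g1
      rw [inv_mul_cancel_right] at e2
      rw [hB1, hC.u2 _ s.2, hB s] at e1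
      rw [hB1, hC.u1 _ hn, hB ⟨_, hn⟩, hT.νconj g1 s hn] at e2
      have e3 : (χ1 g1 - χ2 g1) * (x1 * ν s) = 0 := by linear_combination e2 - e1
      rcases mul_eq_zero.1 e3 with h | h
      · exact absurd (sub_eq_zero.1 h) hne
      · rcases mul_eq_zero.1 h with h | h
        · exact h
        · exact absurd h hs
    have hB' : ∀ s ∈ Γ', B s = 0 := fun s hs => by
      have := hB ⟨s, hs⟩
      rw [this, hx1, zero_mul]
    intro g
    have hz : ∀ χ : G →* k, χ (g * g1 * g⁻¹ * g1⁻¹) = 1 := by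
      intro χ
      rw [map_mul, map_mul, map_mul]
      have h1 := h33w_chi_mul_inv χ g
      have h2 := h33w_chi_mul_inv χ g1
      linear_combination (χ g1 * χ g1⁻¹) * h1 + h2
    have hBz : B (g * g1 * g⁻¹ * g1⁻¹) = 0 :=
      h33w_B_ker hT hBeq hB' (by rw [hz χ1, hz χ2])
    have e1 := hBeq (g * g1 * g⁻¹ * g1⁻¹) (g1 * g)
    have e2 := hBeq g g1
    have e3 := hBeq g1 g
    have e0 : g * g1 * g⁻¹ * g1⁻¹ * (g1 * g) = g * g1 := by group
    rw [e0, hBz, hz χ1, e3, hB1] at e1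
    rw [hB1] at e2
    have e4 : (χ2 g1 - χ1 g1) * B g = 0 := by linear_combination e1 - e2
    rcases mul_eq_zero.1 e4 with h | h
    · exact absurd (sub_eq_zero.1 h).symm hne
    · exact h

/-- **The scalar core**: a derivation in `h33w_Coc` whose entries `A(s0)`, `B(g1)`, `B(s0)`
vanish is zero. -/
theorem h33w_core (hT : h33w_Tame Γ' I L' ν κ) (hC : h33w_Coc Γ' I L' χ1 χ2 β A B Γc D)
    {s0 : G} (hs0 : s0 ∈ I) (hb0 : β s0 ≠ 0)
    {g1 : G} (hg1 : (∀ g, χ1 g = χ2 g) → ∃ h : g1 ∈ Γ', ν ⟨g1, h⟩ ≠ 0)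
    (hg1' : (¬ ∀ g, χ1 g = χ2 g) → χ1 g1 ≠ χ2 g1)
    (hA0 : A s0 = 0) (hB1 : B g1 = 0) (hB0 : B s0 = 0) (g : G) :
    A g = 0 ∧ B g = 0 ∧ Γc g = 0 ∧ D g = 0 := by
  have h1 := h33w_stepD hT hC hs0 hb0 hA0 g
  exact ⟨h1.2.1, h33w_stepE hT hC hs0 hb0 hA0 hB0 hg1 hg1' hB1 g, h1.1, h1.2.2⟩

/-- the choice of `g1`. -/
lemma h33w_exists_g1 (hT : h33w_Tame Γ' I L' ν κ) (χ1 χ2 : G →* k) :
    ∃ g1 : G, ((∀ g, χ1 g = χ2 g) → ∃ h : g1 ∈ Γ', ν ⟨g1, h⟩ ≠ 0) ∧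
      ((¬ ∀ g, χ1 g = χ2 g) → χ1 g1 ≠ χ2 g1) := by
  by_cases hcase : ∀ g, χ1 g = χ2 g
  · obtain ⟨s, hs⟩ := h33w_nu_ne_zero hT
    exact ⟨s, fun _ => ⟨s.2, hs⟩, fun h => absurd hcase h⟩
  · have hcase' := hcase
    push Not at hcase'
    obtain ⟨g1, hg1⟩ := hcase'
    exact ⟨g1, fun h => absurd h hcase, fun _ => hg1⟩

end Core

end Fermat.Agent.S56L
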