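import Fermat.Agent.S56L.H33UnipCore

/-!
# S56, block LOC, row LOC-UNIP-ABS (helper33): from `𝔽_p` to `k`

The tame datum `h14l_TameDatum` speaks of `𝔽_p`-valued characters.  For a finite field `k` of
characteristic `p` it gives the `k`-valued tame datum `h33w_Tame` of the scalar core.
-/

set_option autoImplicit false

open ExtCitation

noncomputable section

namespace Fermat.Agent.S56L

open Fermat.Agent.PT

section FpToK

variable {H : Type} [Group H] {L' : Lev H} {p : ℕ} [Fact p.Prime]

lemma h33w_mem_Z1_triv (f : H → ZMod p) :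
    f ∈ Z1 L' (Representation.trivial (ZMod p) H (ZMod p)) ↔
      (∀ s t, f (s * t) = f s + f t) ∧ IsLC1 L' f := by
  rw [mem_Z1]
  constructor
  · rintro ⟨h1, h2⟩
    refine ⟨fun s t => ?_, h2⟩
    have := congrFun h1 (s, t)
    simp only [d1_apply, Representation.trivial_apply, Pi.zero_apply] at this
    linear_combination -this
  · rintro ⟨h1, h2⟩
    refine ⟨?_, h2⟩
    funext ⟨s, t⟩
    simp only [d1_apply, Representation.trivial_apply, Pi.zero_apply, h1 s t]
    ring

variable {k : Type} [Field k] [Finite k] [CharP k p]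

/-- every continuous additive `k`-valued function is a `k`-combination of `ν` and `κ`. -/
lemma h33w_span_k (ν κ : H → ZMod p)
    (hgen : ∀ χ ∈ Z1 L' (Representation.trivial (ZMod p) H (ZMod p)),
      ∃ a b : ZMod p, χ = a • ν + b • κ)
    (f : H → k) (hlc : IsLC1 L' f) (hadd : ∀ s t, f (s * t) = f s + f t) :
    ∃ x y : k, ∀ s, f s = x * ZMod.castHom (dvd_refl p) k (ν s) +
      y * ZMod.castHom (dvd_refl p) k (κ s) := by
  let _ : Algebra (ZMod p) k := ZMod.algebra k p
  have : Module.Finite (ZMod p) k := Module.Finite.of_finite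
  let bs := Module.finBasis (ZMod p) k
  have hcoord : ∀ i, ∃ a b : ZMod p, ∀ s, bs.repr (f s) i = a * ν s + b * κ s := by
    intro i
    have hmem : (fun s => bs.repr (f s) i) ∈
        Z1 L' (Representation.trivial (ZMod p) H (ZMod p)) := by
      rw [h33w_mem_Z1_triv]
      refine ⟨fun s t => ?_, hlc.comp (fun x => bs.repr x i)⟩
      rw [hadd, map_add]
      rfl
    obtain ⟨a, b, hab⟩ := hgen _ hmem
    exact ⟨a, b, fun s => by
      have := congrFun hab s
      simpa using this⟩
  choose a b hab using hcoord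
  refine ⟨∑ i, a i • bs i, ∑ i, b i • bs i, fun s => ?_⟩
  have hι : algebraMap (ZMod p) k = ZMod.castHom (dvd_refl p) k := rfl
  conv_lhs => rw [← bs.sum_repr (f s)]
  simp only [hab, Finset.sum_mul, ← Finset.sum_add_distrib]
  refine Finset.sum_congr rfl fun i _ => ?_
  simp only [Algebra.smul_def, map_add, map_mul, hι]
  ring

/-- `ν ∪ κ` is not a `k`-valued coboundary up to a nonzero scalar. -/
lemma h33w_tame_k (ν κ : H → ZMod p)
    (hnb : cup11 (LinearMap.mul (ZMod p) (ZMod p))
      (Representation.trivial (ZMod p) H (ZMod p)) ν κ ∉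
      B2 L' (Representation.trivial (ZMod p) H (ZMod p)))
    (x : k) (F : H → k) (hlc : IsLC1 L' F)
    (h : ∀ s t, x * (ZMod.castHom (dvd_refl p) k (ν s) * ZMod.castHom (dvd_refl p) k (κ t)) =
      F t - F (s * t) + F s) : x = 0 := by
  by_contra hx
  let _ : Algebra (ZMod p) k := ZMod.algebra k p
  have hι : algebraMap (ZMod p) k = ZMod.castHom (dvd_refl p) k := rfl
  obtain ⟨ℓ0, hℓ0⟩ : ∃ ℓ : Module.Dual (ZMod p) k, ℓ x ≠ 0 := by
    by_contra hcon
    push Not at hcon
    exact hx ((Module.forall_dual_apply_eq_zero_iff (ZMod p) x).1 hcon)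
  apply hnb
  rw [mem_B2]
  refine ⟨fun s => (ℓ0 x)⁻¹ * ℓ0 (F s), hlc.comp (fun y => (ℓ0 x)⁻¹ * ℓ0 y), ?_⟩
  funext ⟨s, t⟩
  simp only [d1_apply, cup11_apply, Representation.trivial_apply, LinearMap.mul_apply']
  have h1 := congrArg ℓ0 (h s t)
  have h2 : x * (ZMod.castHom (dvd_refl p) k (ν s) * ZMod.castHom (dvd_refl p) k (κ t)) =
      (ν s * κ t) • x := by
    rw [Algebra.smul_def, map_mul, hι]
    ring
  rw [h2, map_smul, map_add, map_sub, smul_eq_mul] at h1
  field_simp
  linear_combination -h1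

end FpToK

/-- The `k`-valued tame datum of a subgroup with a tame datum. -/
theorem h33w_tame_of_datum (p : ℕ) [Fact p.Prime] (hp2 : p ≠ 2) (k : Type) [Field k] [Finite k]
    [CharP k p] (q : Nat.Primes) (Γ' : Subgroup (primeLocalGaloisGroup q))
    (hT : h14l_TameDatum p q Γ') :
    ∃ ν κ : ↥Γ' → k, h33w_Tame Γ' (h14l_inert q) (h14l_levSub q Γ') ν κ := by
  obtain ⟨ν, κ, hν, hκ, hgen, hνI, hνc, hnb⟩ := hT.gen
  rw [h33w_mem_Z1_triv] at hν hκ
  have hp : p.Prime := Fact.out
  have hn := hT.normal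
  refine ⟨fun s => ZMod.castHom (dvd_refl p) k (ν s),
    fun s => ZMod.castHom (dvd_refl p) k (κ s), ?_⟩
  exact
  { normal := hT.normal
    le := hT.inert_le
    pow_mem := fun g => Subgroup.pow_index_mem Γ' g
    index_ne := by
      intro h0
      rw [CharP.cast_eq_zero_iff k p] at h0
      exact (hp.coprime_iff_not_dvd.1 hT.index_coprime.symm) h0
    two_ne := by
      intro h0
      have h1 : ((2 : ℕ) : k) = 0 := by exact_mod_cast h0
      rw [CharP.cast_eq_zero_iff k p] at h1
      exact hp2 ((Nat.prime_dvd_prime_iff_eq hp Nat.prime_two).1 h1)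
    νadd := fun s t => by simp only [hν.1 s t, map_add]
    κadd := fun s t => by simp only [hκ.1 s t, map_add]
    νlc := hν.2.comp _
    κlc := hκ.2.comp _
    νI := fun s hs => by simp only [hνI s hs, map_zero]
    νconj := fun g s h => by simp only [hνc g s h]
    span := h33w_span_k ν κ hgen
    tame := h33w_tame_k ν κ hnb }

end Fermat.Agent.S56L
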