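import Fermat.Agent.S56L.Iface

/-!
# S56, block LOC, leaf LOC-STRUNIQ (helper52)

The line of a strict ordinary residual representation is unique.

* `h52l_exists_nil_ne_zero` : the nilpotent line `Hom(V/L, L)` of a line `L` is non-zero;
* `h52l_strLine_unique` : uniqueness, given one element of the inertia group at `p` on which the
  mod `p` cyclotomic character is non-trivial;
* `h52l_CycRam` : the input LOC-CYCRAM as a `Prop`;
  `h52l_strLineUnique_of : h52l_CycRam → h14l_StrLineUnique` (exact frozen Prop).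
-/

set_option autoImplicit false
set_option linter.style.haveILetI false

open ExtCitation
open scoped TensorProduct

noncomputable section

namespace Fermat.Agent.S56L

open Fermat.Agent.PT

variable {k : Type} [Field k]

/-- The nilpotent line `Hom(V/L, L)` of a line `L` is non-zero. -/
theorem h52l_exists_nil_ne_zero (ρbar : ResidualGaloisRep k) (L : Submodule k ρbar.V)
    (hL : Module.finrank k L = 1) : ∃ m ∈ h14l_nil ρbar L, m ≠ 0 := by
  classical
  obtain ⟨⟨v, hvL⟩, hv0, hv⟩ := finrank_eq_one_iff'.mp hL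
  have hv0' : v ≠ 0 := fun h => hv0 (Subtype.ext h)
  have hlt : L < ⊤ := by
    rw [lt_top_iff_ne_top]
    intro htop
    have h1 : Module.finrank k (⊤ : Submodule k ρbar.V) = 2 := by
      rw [finrank_top]; exact ρbar.finrank_eq
    rw [← htop, hL] at h1
    omega
  obtain ⟨f, hf0, hfL⟩ := Submodule.exists_dual_map_eq_bot_of_lt_top hlt inferInstance
  have hfL' : ∀ w ∈ L, f w = 0 := by
    intro w hw
    have : f w ∈ L.map f := Submodule.mem_map_of_mem hw
    rw [hfL] at this
    exact (Submodule.mem_bot k).mp this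
  set m0 : Module.End k ρbar.V := dualTensorHom k ρbar.V ρbar.V (f ⊗ₜ[k] v) with hm0
  have hm0_apply : ∀ w, m0 w = f w • v := fun w => by
    rw [hm0, dualTensorHom_apply]
  have htr : LinearMap.trace k ρbar.V m0 = 0 := by
    rw [hm0, LinearMap.trace_eq_contract_apply, contractLeft_apply]
    exact hfL' v hvL
  refine ⟨⟨m0, (h14l_mem_sl ρbar m0).mpr htr⟩, ⟨fun w => ?_, fun w hw => ?_⟩, ?_⟩
  · show m0 w ∈ L
    rw [hm0_apply]
    exact L.smul_mem _ hvL
  · show m0 w = 0
    rw [hm0_apply, hfL' w hw, zero_smul]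
  · intro h0
    apply hf0
    ext w
    have h1 : m0 w = 0 := by
      have := congrArg (fun m : ↥(h14l_sl ρbar) => (m : Module.End k ρbar.V) w) h0
      simpa using this
    rw [hm0_apply] at h1
    rcases smul_eq_zero.mp h1 with h2 | h2
    · simpa using h2
    · exact absurd h2 hv0'

/-- Two distinct lines of a two dimensional space meet in `0`. -/
theorem h52l_inf_eq_bot (ρbar : ResidualGaloisRep k) (L L' : Submodule k ρbar.V)
    (hL : Module.finrank k L = 1) (hL' : Module.finrank k L' = 1) (hne : L ≠ L') :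
    L ⊓ L' = ⊥ := by
  have h1 : Module.finrank k ↥(L ⊓ L') ≤ 1 := by
    rw [← hL]; exact Submodule.finrank_mono inf_le_left
  rcases Nat.le_one_iff_eq_zero_or_eq_one.mp h1 with h0 | h1'
  · exact Submodule.finrank_eq_zero.mp h0
  · exfalso
    have e1 : L ⊓ L' = L := Submodule.eq_of_le_of_finrank_eq inf_le_left (by rw [h1', hL])
    have e2 : L ⊓ L' = L' := Submodule.eq_of_le_of_finrank_eq inf_le_right (by rw [h1', hL'])
    exact hne (e1.symm.trans e2)

/-- **Uniqueness of the strict ordinary line**, given one element of the inertia group on which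
the mod `p` cyclotomic character is non-trivial. -/
theorem h52l_strLine_unique (p : ℕ) [Fact p.Prime] [CharP k p] (ρbar : ResidualGaloisRep k)
    (pp : Nat.Primes) (hcyc : ∃ s ∈ h14l_inert pp, h14l_locCyc k p pp s ≠ 1)
    (L L' : Submodule k ρbar.V) (hL : h14l_StrLine p ρbar pp L)
    (hL' : h14l_StrLine p ρbar pp L') : L = L' := by
  by_contra hne
  have hbot := h52l_inf_eq_bot ρbar L L' hL.finrank_eq hL'.finrank_eq hne
  obtain ⟨s, hs, hcs⟩ := hcyc
  -- inertia acts trivially
  have htriv : h14l_locRho ρbar pp s = 1 := by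
    ext w
    have h1 := hL.inert s hs w
    have h2 := hL'.inert s hs w
    have h3 : h14l_locRho ρbar pp s w - w ∈ L ⊓ L' := ⟨h1, h2⟩
    rw [hbot, Submodule.mem_bot, sub_eq_zero] at h3
    simpa using h3
  have htriv' : ρbar.ρ (primeLocalToGlobal pp s) = 1 := htriv
  have htriv'' : ρbar.ρ (primeLocalToGlobal pp s)⁻¹ = 1 := by
    have := h14l_rho_mul_inv ρbar (primeLocalToGlobal pp s)
    rwa [htriv', one_mul] at this
  obtain ⟨m, hm, hm0⟩ := h52l_exists_nil_ne_zero ρbar L hL.finrank_eq
  have h1 := hL.ratio s m hm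
  have h2 : h14l_locAd0 ρbar pp s m = m := by
    apply Subtype.ext
    show ((h14l_Ad0 ρbar (primeLocalToGlobal pp s) m : ↥(h14l_sl ρbar)) :
      Module.End k ρbar.V) = m
    rw [h14l_Ad0_coe, htriv', htriv'', one_mul, mul_one]
  rw [h2] at h1
  have h3 : (1 - h14l_locCyc k p pp s) • m = 0 := by
    have e : (1 - h14l_locCyc k p pp s) • m = m - h14l_locCyc k p pp s • m := by module
    rw [e, ← h1, sub_self]
  rcases smul_eq_zero.mp h3 with h4 | h4
  · exact hcs (sub_eq_zero.mp h4).symm
  · exact hm0 h4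

/-- The input LOC-CYCRAM: the mod `p` cyclotomic character is ramified at `p` (`p` odd). -/
def h52l_CycRam : Prop :=
  ∀ (p : ℕ) [Fact p.Prime], p ≠ 2 → ∀ (k : Type) [Field k] [CharP k p] (pp : Nat.Primes),
    (pp : ℕ) = p → ∃ s ∈ h14l_inert pp, h14l_locCyc k p pp s ≠ 1

/-- **LOC-STRUNIQ** (exact frozen Prop) from LOC-CYCRAM. -/
theorem h52l_strLineUnique_of (h : h52l_CycRam) : h14l_StrLineUnique := by
  intro p _ hp2 k _ _ ρbar pp hpp L L' hL hL'
  exact h52l_strLine_unique p ρbar pp (h p hp2 k pp hpp) L L' hL hL'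

end Fermat.Agent.S56L
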