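import Fermat.Agent.PT.Loc.H90Final
import Fermat.Agent.PT.Loc.H48LocBase
import Fermat.Agent.PT.Loc.H96RDBase
import Fermat.Agent.PT.Loc.H57Cyc
import Fermat.Agent.PT.Loc.H74NIDich

/-!
# S56, block LOC-Q (helper72), part 1: counting characters of `G_{ℚ_q}` and of `G_E`

`q ≠ p` primes with `p ∣ q - 1`, `φ` a Frobenius element of `ℚ_q`, `E = Kur ⊥ f` the unramified
extension of degree `f`, `p ∤ f`.  From the landed count `#Hom_cont(G_K, 𝔽_p) = p²`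
(`h48_h1DimRel`, for `K = ℚ_q` and `K = E`) and the unramified character `cycIdx`:

* `h72q_conj_inv`  : every continuous character `χ` of `G_E` is invariant under conjugation by
  `G_{ℚ_q}`: `χ (g s g⁻¹) = χ s`;
* `h72q_rank_one`  : there is an inert `s₀` such that every continuous character of `G_E`
  vanishing at `s₀` vanishes on the inertia group.
-/

set_option autoImplicit false
set_option linter.unusedSectionVars false

open scoped Classical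

noncomputable section

namespace Fermat.Agent.S56L

open Fermat.Agent.PT.Loc

variable {q : ℕ} [Fact q.Prime] {p : ℕ} [Fact p.Prime]

/-! ## Roots of unity and inertia -/

/-- if `p ∣ q - 1`, the `p`-th roots of unity lie in `ℚ_q`. -/
theorem h72q_root_mem_bot (hpq : p ∣ q - 1) {ζ : Om q} (hζ : ζ ^ p = 1) :
    ζ ∈ (⊥ : LF q) := by
  obtain ⟨-, -, h⟩ := h74n_roots h34lf_lfTeich (⊥ : LF q)
  rw [h96b_resCard_bot] at h
  obtain ⟨c, hc⟩ := hpq
  have h1 : ζ ^ (q - 1) = 1 := by rw [hc, pow_mul, hζ, one_pow]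
  exact ((h ζ).1 h1).1

/-- a primitive `p`-th root of unity of `ℚ̄_q`. -/
theorem h72q_exists_primitiveRoot (p : ℕ) [Fact p.Prime] (q : ℕ) [Fact q.Prime] :
    ∃ ζ : Om q, IsPrimitiveRoot ζ p := by
  have hp : p.Prime := Fact.out
  have : NeZero ((p : ℕ) : Om q) := ⟨by exact_mod_cast hp.ne_zero⟩
  exact HasEnoughRootsOfUnity.exists_primitiveRoot (Om q) p

/-- an inert automorphism fixes the unramified extensions. -/
theorem h72q_inert_mem_GK_Kur {s : Gq q} (hs : IsInert (⊥ : LF q) s) {n : ℕ} (hn : 0 < n) :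
    s ∈ GK (Kur (⊥ : LF q) n) := by
  obtain ⟨-, hpos, hnd⟩ := h82n_resCard_facts h34lf_lfTeich (⊥ : LF q) hn
  have h1 : Kur (⊥ : LF q) n =
      IntermediateField.adjoin ℚ_[q] {w : Om q | w ^ (resCard (⊥ : LF q) ^ n - 1) = 1} := by
    unfold Kur
    rw [bot_sup_eq]
  rw [h1]
  intro x
  obtain ⟨x, hx⟩ := x
  change s x = x
  induction hx using IntermediateField.adjoin_induction with
  | mem w hw => exact hs.2 w _ hpos hnd hw
  | algebraMap a => exact s.commutes a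
  | add a b _ _ ha hb => rw [map_add, ha, hb]
  | inv a _ ha => rw [map_inv₀, ha]
  | mul a b _ _ ha hb => rw [map_mul, ha, hb]

/-! ## Continuous characters of `G_K` -/

/-- the continuous characters of `G_K` with values in `𝔽_p` (functions on the subgroup). -/
def h72q_IsChar (K : LF q) (χ : ↥(GK K) → ZMod p) : Prop :=
  (∀ g h : ↥(GK K), χ (g * h) = χ g + χ h) ∧
    ∃ F : LF q, FiniteDimensional ℚ_[q] F ∧ K ≤ F ∧
      ∀ (g s : ↥(GK K)), (s : Gq q) ∈ GK F → χ (g * s) = χ g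

/-- there are exactly `p ^ 2` continuous characters of `G_K` (`q ≠ p`, `p ∣ q - 1`). -/
theorem h72q_exists_T (hqp : q ≠ p) (hpq : p ∣ q - 1) (K : LF q) [FiniteDimensional ℚ_[q] K] :
    ∃ T : Finset (↥(GK K) → ZMod p), T.card = p ^ 2 ∧ ∀ χ, χ ∈ T ↔ h72q_IsChar K χ := by
  obtain ⟨ζ, hζ⟩ := h72q_exists_primitiveRoot p q
  have hζK : ζ ∈ K := (bot_le : (⊥ : LF q) ≤ K) (h72q_root_mem_bot hpq hζ.pow_eq_one)
  obtain ⟨T, hT, hmem⟩ := h48_h1DimRel q p K ζ hζK hζ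
  refine ⟨T, ?_, fun χ => hmem χ⟩
  rw [hT, if_neg hqp, add_zero]

theorem h72q_char_one {K : LF q} {χ : ↥(GK K) → ZMod p} (hχ : h72q_IsChar K χ) : χ 1 = 0 := by
  have h := hχ.1 1 1
  rw [mul_one] at h
  exact left_eq_add.mp h

theorem h72q_char_pow {K : LF q} {χ : ↥(GK K) → ZMod p} (hχ : h72q_IsChar K χ) (g : ↥(GK K))
    (n : ℕ) : χ (g ^ n) = n * χ g := by
  induction n with
  | zero => rw [pow_zero, h72q_char_one hχ, Nat.cast_zero, zero_mul]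
  | succ n ih => rw [pow_succ, hχ.1, ih, Nat.cast_succ, add_mul, one_mul]

theorem h72q_char_inv {K : LF q} {χ : ↥(GK K) → ZMod p} (hχ : h72q_IsChar K χ) (g : ↥(GK K)) :
    χ g⁻¹ = - χ g := by
  have h := hχ.1 g g⁻¹
  rw [mul_inv_cancel, h72q_char_one hχ] at h
  exact eq_neg_of_add_eq_zero_right h.symm

/-- restriction of functions from `G_K` to `G_E`. -/
def h72q_res {K E : LF q} (h : K ≤ E) (χ : ↥(GK K) → ZMod p) : ↥(GK E) → ZMod p :=
  fun s => χ ⟨s.1, IntermediateField.fixingSubgroup_antitone h s.2⟩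

theorem h72q_res_isChar {K E : LF q} [FiniteDimensional ℚ_[q] E] (h : K ≤ E)
    {χ : ↥(GK K) → ZMod p} (hχ : h72q_IsChar K χ) : h72q_IsChar E (h72q_res h χ) := by
  obtain ⟨hadd, F, hF, hKF, hinv⟩ := hχ
  refine ⟨fun g s => ?_, E ⊔ F, ?_, le_sup_left, fun g s hs => ?_⟩
  · exact hadd ⟨g.1, IntermediateField.fixingSubgroup_antitone h g.2⟩
      ⟨s.1, IntermediateField.fixingSubgroup_antitone h s.2⟩
  · have := hF
    exact IntermediateField.finiteDimensional_sup E F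
  · have hs' : (s : Gq q) ∈ GK F :=
      IntermediateField.fixingSubgroup_antitone (le_sup_right : F ≤ E ⊔ F) hs
    exact hinv ⟨g.1, IntermediateField.fixingSubgroup_antitone h g.2⟩
      ⟨s.1, IntermediateField.fixingSubgroup_antitone h s.2⟩ hs'

/-- a character of `G_K` is determined by its restriction to `G_E`, `E / K` cyclic of degree
`f` prime to `p`. -/
theorem h72q_res_injective {K E : LF q} {f : ℕ} {σ : Gq q} (hC : IsCyc K E f σ)
    (hf : Nat.Coprime f p) {χ χ' : ↥(GK K) → ZMod p} (hχ : h72q_IsChar K χ)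
    (hχ' : h72q_IsChar K χ') (h : h72q_res hC.le χ = h72q_res hC.le χ') : χ = χ' := by
  have hfu : IsUnit ((f : ℕ) : ZMod p) := (ZMod.isUnit_iff_coprime f p).2 hf
  have hE : ∀ s : ↥(GK K), (s : Gq q) ∈ GK E → χ s = χ' s := fun s hs =>
    congrFun h ⟨s.1, hs⟩
  have hσ : χ ⟨σ, hC.mem⟩ = χ' ⟨σ, hC.mem⟩ := by
    have h1 := hE (⟨σ, hC.mem⟩ ^ f) (by
      rw [Subgroup.coe_pow]
      exact h57_pow_n_mem hC)
    rw [h72q_char_pow hχ, h72q_char_pow hχ'] at h1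
    exact hfu.mul_left_cancel h1
  funext g
  have hg := h57_cycIdx_spec hC g.2
  set i := cycIdx E σ f (g : Gq q) with hi
  have e : g = ⟨σ, hC.mem⟩ ^ i * ⟨(σ ^ i)⁻¹ * g.1, (GK K).mul_mem
      ((GK K).inv_mem ((GK K).pow_mem hC.mem i)) g.2⟩ := by
    apply Subtype.ext
    simp
  rw [e, hχ.1, hχ'.1, h72q_char_pow hχ, h72q_char_pow hχ', hσ, hE _ hg]

/-- **every continuous character of `G_E` extends to `G_K`** (`K = ℚ_q`, `E` unramified of
degree prime to `p`): counting. -/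
theorem h72q_exists_ext (hqp : q ≠ p) (hpq : p ∣ q - 1) {E : LF q} {f : ℕ} {σ : Gq q}
    (hC : IsCyc (⊥ : LF q) E f σ) (hf : Nat.Coprime f p) {χ' : ↥(GK E) → ZMod p}
    (hχ' : h72q_IsChar E χ') :
    ∃ χ : ↥(GK (⊥ : LF q)) → ZMod p, h72q_IsChar (⊥ : LF q) χ ∧ h72q_res hC.le χ = χ' := by
  have := hC.fin
  obtain ⟨T₀, hT₀, hmem₀⟩ := h72q_exists_T (p := p) hqp hpq (⊥ : LF q)
  obtain ⟨T₁, hT₁, hmem₁⟩ := h72q_exists_T (p := p) hqp hpq E
  have hsub : T₀.image (h72q_res hC.le) ⊆ T₁ := by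
    intro ψ hψ
    obtain ⟨χ, hχ, rfl⟩ := Finset.mem_image.1 hψ
    exact (hmem₁ _).2 (h72q_res_isChar hC.le ((hmem₀ χ).1 hχ))
  have hinj : Set.InjOn (h72q_res (p := p) hC.le) (T₀ : Set _) := by
    intro χ hχ ψ hψ h
    exact h72q_res_injective hC hf ((hmem₀ χ).1 hχ) ((hmem₀ ψ).1 hψ) h
  have hcard : (T₀.image (h72q_res hC.le)).card = T₀.card := Finset.card_image_of_injOn hinj
  have heq : T₀.image (h72q_res hC.le) = T₁ :=
    Finset.eq_of_subset_of_card_le hsub (by rw [hcard, hT₀, hT₁])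
  have h1 : χ' ∈ T₀.image (h72q_res hC.le) := by
    rw [heq]
    exact (hmem₁ χ').2 hχ'
  obtain ⟨χ, hχ, rfl⟩ := Finset.mem_image.1 h1
  exact ⟨χ, (hmem₀ χ).1 hχ, rfl⟩

/-! ## Total functions -/

theorem h72q_mem_GK_bot (g : Gq q) : g ∈ GK (⊥ : LF q) := by
  intro x
  obtain ⟨x, hx⟩ := x
  obtain ⟨a, rfl⟩ := IntermediateField.mem_bot.1 hx
  exact g.commutes a

/-- a total function which is a continuous character on `G_E` restricts to a character. -/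
theorem h72q_isChar_of_total {E : LF q} {χ : Gq q → ZMod p} (h1 : ACoc1 E χ) (h2 : Cont1 E χ) :
    h72q_IsChar E (fun s : ↥(GK E) => χ s.1) := by
  obtain ⟨F, hF, hEF, hinv⟩ := h2
  exact ⟨fun g h => h1 g.1 g.2 h.1 h.2, F, hF, hEF, fun g s hs => hinv g.1 g.2 s.1 hs⟩

/-- **conjugation invariance**: a continuous character of `G_E` (`E / ℚ_q` unramified of
degree prime to `p`) is invariant under conjugation by `G_{ℚ_q}`. -/
theorem h72q_conj_inv (hqp : q ≠ p) (hpq : p ∣ q - 1) {E : LF q} {f : ℕ} {σ : Gq q}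
    (hC : IsCyc (⊥ : LF q) E f σ) (hf : Nat.Coprime f p) {χ : Gq q → ZMod p}
    (h1 : ACoc1 E χ) (h2 : Cont1 E χ) (g s : Gq q) (hs : s ∈ GK E) :
    χ (g * s * g⁻¹) = χ s := by
  obtain ⟨χ₀, hχ₀, hres⟩ := h72q_exists_ext hqp hpq hC hf (h72q_isChar_of_total h1 h2)
  have hg : g ∈ GK (⊥ : LF q) := h72q_mem_GK_bot g
  have hconj : g * s * g⁻¹ ∈ GK E := hC.normal g hg s hs
  have e1 : χ (g * s * g⁻¹) = χ₀ ⟨g * s * g⁻¹, h72q_mem_GK_bot _⟩ :=
    (congrFun hres ⟨g * s * g⁻¹, hconj⟩).symm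
  have e2 : χ s = χ₀ ⟨s, h72q_mem_GK_bot _⟩ := (congrFun hres ⟨s, hs⟩).symm
  have e3 : (⟨g * s * g⁻¹, h72q_mem_GK_bot _⟩ : ↥(GK (⊥ : LF q))) =
      ⟨g, hg⟩ * ⟨s, h72q_mem_GK_bot _⟩ * ⟨g, hg⟩⁻¹ := rfl
  rw [e1, e2, e3, hχ₀.1, hχ₀.1, h72q_char_inv hχ₀]
  ring

/-! ## Rank one on inertia -/

theorem h72q_isInert_one : IsInert (⊥ : LF q) (1 : Gq q) :=
  ⟨(GK (⊥ : LF q)).one_mem, fun _ _ _ _ _ => rfl⟩

/-- the unramified character of `G_{ℚ_q}` of order `p`. -/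
def h72q_chiUr (p : ℕ) (φ : Gq q) : ↥(GK (⊥ : LF q)) → ZMod p :=
  fun g => (cycIdx (Kur (⊥ : LF q) p) φ p (g : Gq q) : ZMod p)

theorem h72q_chiUr_isChar {φ : Gq q} (hφ : IsFrob (⊥ : LF q) φ) :
    h72q_IsChar (⊥ : LF q) (h72q_chiUr p φ) := by
  have hp : p.Prime := Fact.out
  have hC : IsCyc (⊥ : LF q) (Kur (⊥ : LF q) p) p φ := h90l_urCyc q ⊥ p φ hp.pos hφ
  exact h72q_isChar_of_total (h57_cycIdx_acoc1 hC) (h57_cycIdx_cont1 hC)

theorem h72q_chiUr_frob {φ : Gq q} (hφ : IsFrob (⊥ : LF q) φ) :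
    h72q_chiUr p φ ⟨φ, hφ.1⟩ = 1 := by
  have hp : p.Prime := Fact.out
  have hC : IsCyc (⊥ : LF q) (Kur (⊥ : LF q) p) p φ := h90l_urCyc q ⊥ p φ hp.pos hφ
  unfold h72q_chiUr
  rw [h57_cycIdx_self hC hp.one_lt, Nat.cast_one]

theorem h72q_chiUr_inert {φ : Gq q} (hφ : IsFrob (⊥ : LF q) φ) {s : Gq q}
    (hs : IsInert (⊥ : LF q) s) : h72q_chiUr p φ ⟨s, hs.1⟩ = 0 := by
  have hp : p.Prime := Fact.out
  have hC : IsCyc (⊥ : LF q) (Kur (⊥ : LF q) p) p φ := h90l_urCyc q ⊥ p φ hp.pos hφ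
  unfold h72q_chiUr
  rw [h57_cycIdx_of_mem hC (h72q_inert_mem_GK_Kur hs hp.pos), Nat.cast_zero]

theorem h72q_isChar_comb {K : LF q} {χ ψ : ↥(GK K) → ZMod p} (hχ : h72q_IsChar K χ)
    (hψ : h72q_IsChar K ψ) (a b : ZMod p) :
    h72q_IsChar K (fun g => a * χ g + b * ψ g) := by
  obtain ⟨hadd, F, hF, hKF, hinv⟩ := hχ
  obtain ⟨hadd', F', hF', hKF', hinv'⟩ := hψ
  refine ⟨fun g h => ?_, F ⊔ F', ?_, le_trans hKF le_sup_left, fun g s hs => ?_⟩
  · simp only [hadd, hadd']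
    ring
  · have := hF
    have := hF'
    exact IntermediateField.finiteDimensional_sup F F'
  · have h1 : (s : Gq q) ∈ GK F :=
      IntermediateField.fixingSubgroup_antitone (le_sup_left : F ≤ F ⊔ F') hs
    have h2 : (s : Gq q) ∈ GK F' :=
      IntermediateField.fixingSubgroup_antitone (le_sup_right : F' ≤ F ⊔ F') hs
    simp only [hinv g s h1, hinv' g s h2]

/-- **rank one** over `ℚ_q`: there is an inert `s₀` such that every continuous character of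
`G_{ℚ_q}` vanishing at `s₀` vanishes on the inertia group. -/
theorem h72q_rank_one_bot (hqp : q ≠ p) (hpq : p ∣ q - 1) {φ : Gq q}
    (hφ : IsFrob (⊥ : LF q) φ) :
    ∃ s₀ : Gq q, IsInert (⊥ : LF q) s₀ ∧
      ∀ χ : ↥(GK (⊥ : LF q)) → ZMod p, h72q_IsChar (⊥ : LF q) χ →
        χ ⟨s₀, h72q_mem_GK_bot s₀⟩ = 0 →
        ∀ s : Gq q, IsInert (⊥ : LF q) s → χ ⟨s, h72q_mem_GK_bot s⟩ = 0 := by
  by_cases hA : ∀ χ : ↥(GK (⊥ : LF q)) → ZMod p, h72q_IsChar (⊥ : LF q) χ →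
      ∀ s : Gq q, IsInert (⊥ : LF q) s → χ ⟨s, h72q_mem_GK_bot s⟩ = 0
  · exact ⟨1, h72q_isInert_one, fun χ hχ _ s hs => hA χ hχ s hs⟩
  · push Not at hA
    obtain ⟨χ₁, hχ₁, s₀, hs₀, hne⟩ := hA
    refine ⟨s₀, hs₀, fun χ hχ hχs₀ s hs => ?_⟩
    obtain ⟨T₀, hT₀, hmem₀⟩ := h72q_exists_T (p := p) hqp hpq (⊥ : LF q)
    let Ψ : ZMod p × ZMod p → (↥(GK (⊥ : LF q)) → ZMod p) :=
      fun ab g => ab.1 * χ₁ g + ab.2 * h72q_chiUr p φ g
    have hΨinj : Function.Injective Ψ := by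
      rintro ⟨a, b⟩ ⟨a', b'⟩ h
      have h1 := congrFun h ⟨s₀, h72q_mem_GK_bot s₀⟩
      have h2 := congrFun h ⟨φ, hφ.1⟩
      simp only [Ψ] at h1 h2
      have hur0 : h72q_chiUr p φ ⟨s₀, h72q_mem_GK_bot s₀⟩ = 0 := h72q_chiUr_inert hφ hs₀
      rw [hur0, mul_zero, add_zero, mul_zero, add_zero] at h1
      have ha : a = a' := mul_right_cancel₀ hne h1
      rw [h72q_chiUr_frob hφ, mul_one, mul_one, ha] at h2
      have hb : b = b' := add_left_cancel h2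
      rw [ha, hb]
    have hsub : (Finset.univ : Finset (ZMod p × ZMod p)).image Ψ ⊆ T₀ := by
      intro ψ hψ
      obtain ⟨ab, -, rfl⟩ := Finset.mem_image.1 hψ
      exact (hmem₀ _).2 (h72q_isChar_comb hχ₁ (h72q_chiUr_isChar hφ) ab.1 ab.2)
    have hcard : ((Finset.univ : Finset (ZMod p × ZMod p)).image Ψ).card = p ^ 2 := by
      rw [Finset.card_image_of_injective _ hΨinj, Finset.card_univ, Fintype.card_prod,
        ZMod.card, sq]
    have heq : (Finset.univ : Finset (ZMod p × ZMod p)).image Ψ = T₀ :=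
      Finset.eq_of_subset_of_card_le hsub (by rw [hcard, hT₀])
    have hχT : χ ∈ (Finset.univ : Finset (ZMod p × ZMod p)).image Ψ := by
      rw [heq]
      exact (hmem₀ χ).2 hχ
    obtain ⟨⟨a, b⟩, -, rfl⟩ := Finset.mem_image.1 hχT
    simp only [Ψ] at hχs₀ ⊢
    have hur0 : h72q_chiUr p φ ⟨s₀, h72q_mem_GK_bot s₀⟩ = 0 := h72q_chiUr_inert hφ hs₀
    rw [hur0, mul_zero, add_zero] at hχs₀
    have ha : a = 0 := by
      rcases mul_eq_zero.1 hχs₀ with h | h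
      · exact h
      · exact absurd h hne
    have hur : h72q_chiUr p φ ⟨s, h72q_mem_GK_bot s⟩ = 0 := h72q_chiUr_inert hφ hs
    rw [ha, zero_mul, zero_add, hur, mul_zero]

/-- **rank one**: there is an inert `s₀` such that every continuous character of `G_E`
(`E / ℚ_q` unramified of degree prime to `p`) vanishing at `s₀` vanishes on inertia. -/
theorem h72q_rank_one (hqp : q ≠ p) (hpq : p ∣ q - 1) {φ : Gq q}
    (hφ : IsFrob (⊥ : LF q) φ) :
    ∃ s₀ : Gq q, IsInert (⊥ : LF q) s₀ ∧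
      ∀ (f : ℕ), 0 < f → Nat.Coprime f p → ∀ χ : Gq q → ZMod p,
        ACoc1 (Kur (⊥ : LF q) f) χ → Cont1 (Kur (⊥ : LF q) f) χ → χ s₀ = 0 →
        ∀ s : Gq q, IsInert (⊥ : LF q) s → χ s = 0 := by
  obtain ⟨s₀, hs₀, h⟩ := h72q_rank_one_bot (p := p) hqp hpq hφ
  refine ⟨s₀, hs₀, fun f hf0 hf χ h1 h2 h0 s hs => ?_⟩
  have hC : IsCyc (⊥ : LF q) (Kur (⊥ : LF q) f) f φ := h90l_urCyc q ⊥ f φ hf0 hφ
  obtain ⟨χ₀, hχ₀, hres⟩ := h72q_exists_ext hqp hpq hC hf (h72q_isChar_of_total h1 h2)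
  have e0 : χ s₀ = χ₀ ⟨s₀, h72q_mem_GK_bot _⟩ :=
    (congrFun hres ⟨s₀, h72q_inert_mem_GK_Kur hs₀ hf0⟩).symm
  have e1 : χ s = χ₀ ⟨s, h72q_mem_GK_bot _⟩ :=
    (congrFun hres ⟨s, h72q_inert_mem_GK_Kur hs hf0⟩).symm
  rw [e1]
  exact h χ₀ hχ₀ (by rw [← e0, h0]) s hs

end Fermat.Agent.S56L
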