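import Fermat.Agent.S56L.Iface

/-!
# S56, block LOC (architect helper14): frozen sub-interface of the three dimension bounds

* `h14l_TameDatum p q Γ'` : the arithmetic of an open normal subgroup `Γ' = G_E` of the local
  group at `q ≠ p`, `E/ℚ_q` unramified of degree prime to `p`, `μ_p ⊆ E`:
  `Hom_cont(Γ', 𝔽_p)` is spanned by an unramified, conjugation invariant `ν` and one more
  character `κ`, and `ν ∪ κ` is not a coboundary (tame symbol).
* `h14l_TameExists` (PT instantiation), `h14l_UnipTri` (triangular form), `h14l_UnipAbs`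
  (cocycle algebra) `⇒ h14l_LocUnipBound`.
* `h14l_QKer`, `h14l_TameExists`, `h14l_QInv` (counting), `h14l_QAbs` `⇒ h14l_LocQBound`.
* `h14l_Kum` (Kummer theory of `ℚ_p`), `h14l_StrAbs` `⇒ h14l_LocStrBound`.
-/

set_option autoImplicit false

open ExtCitation Polynomial

noncomputable section

namespace Fermat.Agent.S56L

open Fermat.Agent.PT

/-! ## Subgroups of the local group -/

/-- The levels of a subgroup of the local group at `q`. -/
abbrev h14l_levSub (q : Nat.Primes) (Γ' : Subgroup (primeLocalGaloisGroup q)) : Lev ↥Γ' :=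
  (h14l_lev q).comap Γ'.subtype

/-- The trivial module `𝔽_p` of a subgroup of the local group at `q`. -/
abbrev h14l_trivSub (p : ℕ) (q : Nat.Primes) (Γ' : Subgroup (primeLocalGaloisGroup q)) :
    Representation (ZMod p) ↥Γ' (ZMod p) :=
  Representation.trivial (ZMod p) ↥Γ' (ZMod p)

/-- The arithmetic datum of `Γ' = G_E`, `E/ℚ_q` unramified of degree prime to `p`,
`μ_p ⊆ E`, `q ≠ p`, `p` odd. -/
structure h14l_TameDatum (p : ℕ) [Fact p.Prime] (q : Nat.Primes)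
    (Γ' : Subgroup (primeLocalGaloisGroup q)) : Prop where
  normal : Γ'.Normal
  isOpen : (h14l_lev q).IsOpen Γ'
  inert_le : h14l_inert q ≤ Γ'
  index_ne_zero : Γ'.index ≠ 0
  index_coprime : Nat.Coprime Γ'.index p
  gen : ∃ ν κ : ↥Γ' → ZMod p,
    ν ∈ Z1 (h14l_levSub q Γ') (h14l_trivSub p q Γ') ∧
    κ ∈ Z1 (h14l_levSub q Γ') (h14l_trivSub p q Γ') ∧
    (∀ χ ∈ Z1 (h14l_levSub q Γ') (h14l_trivSub p q Γ'),
      ∃ a b : ZMod p, χ = a • ν + b • κ) ∧
    (∀ s : ↥Γ', (s : primeLocalGaloisGroup q) ∈ h14l_inert q → ν s = 0) ∧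
    (∀ (g : primeLocalGaloisGroup q) (s : ↥Γ')
      (h : g * (s : primeLocalGaloisGroup q) * g⁻¹ ∈ Γ'), ν ⟨_, h⟩ = ν s) ∧
    cup11 (LinearMap.mul (ZMod p) (ZMod p)) (h14l_trivSub p q Γ') ν κ ∉
      B2 (h14l_levSub q Γ') (h14l_trivSub p q Γ')

/-- **LOC-TAME** (PT instantiation): below every open normal subgroup `Γ₀ ⊇ I` of index prime
to `p` there is a `Γ'` with a tame datum. -/
def h14l_TameExists : Prop :=
  ∀ (p : ℕ) [Fact p.Prime], p ≠ 2 → ∀ (q : Nat.Primes), (q : ℕ) ≠ p →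
    ∀ Γ₀ : Subgroup (primeLocalGaloisGroup q), Γ₀.Normal → (h14l_lev q).IsOpen Γ₀ →
      h14l_inert q ≤ Γ₀ → Γ₀.index ≠ 0 → Nat.Coprime Γ₀.index p →
      ∃ Γ' : Subgroup (primeLocalGaloisGroup q), Γ' ≤ Γ₀ ∧ h14l_TameDatum p q Γ'

/-! ## LOC-UNIP -/

/-- `ρbar` restricted to the local group is upper triangular in the basis `e`, and unipotent on
the subgroup `Γ₀`. -/
structure h14l_TriOn {k : Type} [Field k] (ρbar : ResidualGaloisRep k) (q : Nat.Primes)
    (e : Module.Basis (Fin 2) k ρbar.V) (Γ₀ : Subgroup (primeLocalGaloisGroup q)) : Prop where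
  tri : ∀ s : primeLocalGaloisGroup q, ∃ a : k, h14l_locRho ρbar q s (e 0) = a • e 0
  unip0 : ∀ s ∈ Γ₀, h14l_locRho ρbar q s (e 0) = e 0
  unip1 : ∀ s ∈ Γ₀, ∃ b : k, h14l_locRho ρbar q s (e 1) = e 1 + b • e 0

/-- **LOC-UNIP-TRI**: if `ρbar` is unipotent and ramified on inertia at `q ≠ p`, it is upper
triangular on the local group and unipotent on an open normal subgroup `Γ₀ ⊇ I` of index prime
to `p`. -/
def h14l_UnipTri : Prop :=
  ∀ (p : ℕ) [Fact p.Prime] (k : Type) [Field k] [Finite k] [CharP k p]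
    (ρbar : ResidualGaloisRep k) (q : Nat.Primes),
    (∀ s ∈ h14l_inert q, LinearMap.charpoly (h14l_locRho ρbar q s) = (X - 1) ^ 2) →
    (∃ s ∈ h14l_inert q, h14l_locRho ρbar q s ≠ 1) →
    ∃ (e : Module.Basis (Fin 2) k ρbar.V) (Γ₀ : Subgroup (primeLocalGaloisGroup q)),
      Γ₀.Normal ∧ (h14l_lev q).IsOpen Γ₀ ∧ h14l_inert q ≤ Γ₀ ∧ Γ₀.index ≠ 0 ∧
      Nat.Coprime Γ₀.index p ∧ h14l_TriOn ρbar q e Γ₀

/-- **LOC-UNIP-ABS** (cocycle algebra): tame datum + triangular form `⇒ dim ZUnip ≤ 3`. -/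
def h14l_UnipAbs : Prop :=
  ∀ (p : ℕ) [Fact p.Prime], p ≠ 2 → ∀ (k : Type) [Field k] [Finite k] [CharP k p]
    (ρbar : ResidualGaloisRep k) (q : Nat.Primes) (e : Module.Basis (Fin 2) k ρbar.V)
    (Γ' : Subgroup (primeLocalGaloisGroup q)),
    h14l_TameDatum p q Γ' → h14l_TriOn ρbar q e Γ' →
    (∃ s ∈ h14l_inert q, h14l_locRho ρbar q s ≠ 1) →
    ∃ f : ↥(h14l_ZUnip ρbar q) →ₗ[k] (Fin 3 → k), Function.Injective f

/-! ## LOC-Q -/

/-- **LOC-Q-KER**: at a Taylor–Wiles prime the kernel of `ρbar` on the local group is open,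
contains inertia and has index prime to `p`. -/
def h14l_QKer : Prop :=
  ∀ (p : ℕ) [Fact p.Prime] (k : Type) [Field k] [Finite k] [CharP k p]
    (ρbar : ResidualGaloisRep k) (q : Nat.Primes),
    (∀ s ∈ h14l_inert q, h14l_locRho ρbar q s = 1) →
    (∃ φ : primeLocalGaloisGroup q,
      (primeLocalPlace q).IsFrobeniusAt (primeLocalToGlobal q φ) (q : ℕ) ∧
      ∃ α β : k, α ≠ β ∧
        LinearMap.charpoly (h14l_locRho ρbar q φ) = (X - C α) * (X - C β)) →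
    (h14l_lev q).IsOpen (h14l_locRho ρbar q).ker ∧ h14l_inert q ≤ (h14l_locRho ρbar q).ker ∧
      (h14l_locRho ρbar q).ker.index ≠ 0 ∧ Nat.Coprime (h14l_locRho ρbar q).ker.index p ∧
      ∀ m : ↥(h14l_sl ρbar), (∀ s, h14l_locAd0 ρbar q s m = m) →
        ∀ m' : ↥(h14l_sl ρbar), (∀ s, h14l_locAd0 ρbar q s m' = m') → m ≠ 0 →
          ∃ a : k, m' = a • m

/-- **LOC-Q-INV** (counting): if `q ≡ 1 mod p` every continuous character of `Γ'` is
conjugation invariant. -/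
def h14l_QInv : Prop :=
  ∀ (p : ℕ) [Fact p.Prime], p ≠ 2 → ∀ (q : Nat.Primes), (q : ℕ) ≠ p → (((q : ℕ) : ZMod p) = 1) →
    ∀ Γ' : Subgroup (primeLocalGaloisGroup q), h14l_TameDatum p q Γ' →
      ∀ χ ∈ Z1 (h14l_levSub q Γ') (h14l_trivSub p q Γ'),
        ∀ (g : primeLocalGaloisGroup q) (s : ↥Γ')
          (h : g * (s : primeLocalGaloisGroup q) * g⁻¹ ∈ Γ'), χ ⟨_, h⟩ = χ s

/-- **LOC-Q-ABS** (cocycle algebra): if `ad⁰` is trivial on `Γ'`, all characters of `Γ'` are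
conjugation invariant and the invariants of `ad⁰` are at most one dimensional, then
`dim Z¹ ≤ 4` and the restriction to inertia has rank `≤ 1`. -/
def h14l_QAbs : Prop :=
  ∀ (p : ℕ) [Fact p.Prime], p ≠ 2 → ∀ (k : Type) [Field k] [Finite k] [CharP k p]
    (ρbar : ResidualGaloisRep k) (q : Nat.Primes)
    (Γ' : Subgroup (primeLocalGaloisGroup q)),
    h14l_TameDatum p q Γ' → Γ' ≤ (h14l_locRho ρbar q).ker →
    (∀ χ ∈ Z1 (h14l_levSub q Γ') (h14l_trivSub p q Γ'),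
      ∀ (g : primeLocalGaloisGroup q) (s : ↥Γ')
        (h : g * (s : primeLocalGaloisGroup q) * g⁻¹ ∈ Γ'), χ ⟨_, h⟩ = χ s) →
    (∀ m : ↥(h14l_sl ρbar), (∀ s, h14l_locAd0 ρbar q s m = m) →
      ∀ m' : ↥(h14l_sl ρbar), (∀ s, h14l_locAd0 ρbar q s m' = m') → m ≠ 0 →
        ∃ a : k, m' = a • m) →
    (∃ f : ↥(Z1 (h14l_lev q) (h14l_locAd0 ρbar q)) →ₗ[k] (Fin 4 → k), Function.Injective f) ∧
    ∃ g : ↥(Z1 (h14l_lev q) (h14l_locAd0 ρbar q)) →ₗ[k] k,
      ∀ c, g c = 0 → ∀ s ∈ h14l_inert q, (c : primeLocalGaloisGroup q → ↥(h14l_sl ρbar)) s = 0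

/-! ## LOC-STR -/

/-- The cyclotomic character on the local group at `q` as a monoid homomorphism to `k`. -/
def h14l_locCycHom (k : Type) [Field k] (p : ℕ) [Fact p.Prime] [CharP k p] (q : Nat.Primes) :
    primeLocalGaloisGroup q →* k :=
  ((ZMod.castHom (dvd_refl p) k : ZMod p →* k).comp (Units.coeHom (ZMod p))).comp
    ((cycloChar p).comp (primeLocalToGlobal q))

lemma h14l_locCycHom_apply (k : Type) [Field k] (p : ℕ) [Fact p.Prime] [CharP k p]
    (q : Nat.Primes) (s : primeLocalGaloisGroup q) :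
    h14l_locCycHom k p q s = h14l_locCyc k p q s := rfl

/-- The module `k(ω)` of the local group at `q`. -/
def h14l_cycRep (k : Type) [Field k] (p : ℕ) [Fact p.Prime] [CharP k p] (q : Nat.Primes) :
    Representation k (primeLocalGaloisGroup q) k where
  toFun s := h14l_locCycHom k p q s • LinearMap.id
  map_one' := by rw [map_one, one_smul]; rfl
  map_mul' s t := by
    rw [map_mul]
    ext
    simp [mul_comm]

/-- **LOC-KUM** (Kummer theory of `ℚ_p`): `dim Z¹(G_p, k(ω)) ≤ 3`. -/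
def h14l_Kum : Prop :=
  ∀ (p : ℕ) [Fact p.Prime], p ≠ 2 → ∀ (k : Type) [Field k] [Finite k] [CharP k p]
    (pp : Nat.Primes), (pp : ℕ) = p →
    ∃ f : ↥(Z1 (h14l_lev pp) (h14l_cycRep k p pp)) →ₗ[k] (Fin 3 → k), Function.Injective f

/-- **LOC-STR-ABS** (linear algebra): `ZStr L = Z¹(G, nil L) + B¹`, `nil L ≅ k(ω)` and
`d⁰(B⁰) ⊆ Z¹(G, nil L)` give `dim ZStr L ≤ dim Z¹(G, k(ω)) + 1`. -/
def h14l_StrAbs : Prop :=
  ∀ (p : ℕ) [Fact p.Prime], p ≠ 2 → ∀ (k : Type) [Field k] [Finite k] [CharP k p]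
    (ρbar : ResidualGaloisRep k) (pp : Nat.Primes) (L : Submodule k ρbar.V),
    h14l_StrLine p ρbar pp L →
    (∃ f : ↥(Z1 (h14l_lev pp) (h14l_cycRep k p pp)) →ₗ[k] (Fin 3 → k), Function.Injective f) →
    ∃ f : ↥(h14l_ZStr ρbar pp L) →ₗ[k] (Fin 4 → k), Function.Injective f

/-! ## The three assemblies -/

theorem h14l_locUnipBound_of (hTri : h14l_UnipTri) (hTame : h14l_TameExists)
    (hAbs : h14l_UnipAbs) : h14l_LocUnipBound := by
  intro p _ hp2 k _ _ _ ρbar q hqp hunip hram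
  obtain ⟨e, Γ₀, hn, ho, hI, hi0, hic, htri⟩ := hTri p k ρbar q hunip hram
  obtain ⟨Γ', hle, hT⟩ := hTame p hp2 q hqp Γ₀ hn ho hI hi0 hic
  exact hAbs p hp2 k ρbar q e Γ' hT
    ⟨htri.tri, fun s hs => htri.unip0 s (hle hs), fun s hs => htri.unip1 s (hle hs)⟩ hram

theorem h14l_locQBound_of (hKer : h14l_QKer) (hTame : h14l_TameExists) (hInv : h14l_QInv)
    (hAbs : h14l_QAbs) : h14l_LocQBound := by
  intro p _ hp2 k _ _ _ ρbar q hqp hq1 hunr hfrob
  obtain ⟨ho, hI, hi0, hic, hinv⟩ := hKer p k ρbar q hunr hfrob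
  obtain ⟨Γ', hle, hT⟩ := hTame p hp2 q hqp _ (MonoidHom.normal_ker _) ho hI hi0 hic
  have hq1' : (((q : ℕ) : ZMod p) = 1) := by
    have h := hq1
    have hinj : Function.Injective (ZMod.castHom (dvd_refl p) k) :=
      (ZMod.castHom (dvd_refl p) k).injective
    apply hinj
    rw [map_natCast, map_one]
    exact h
  exact hAbs p hp2 k ρbar q Γ' hT hle (hInv p hp2 q hqp hq1' Γ' hT) hinv

theorem h14l_locStrBound_of (hKum : h14l_Kum) (hAbs : h14l_StrAbs) : h14l_LocStrBound := by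
  intro p _ hp2 k _ _ _ ρbar pp hpp L hL
  exact hAbs p hp2 k ρbar pp L hL (hKum p hp2 k pp hpp)

end Fermat.Agent.S56L
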